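import Mathlib.NumberTheory.ModularForms.CongruenceSubgroups
import Mathlib.GroupTheory.GroupAction.Quotient
import Mathlib.LinearAlgebra.Matrix.FixedDetMatrices
import Fermat.Prelude.Def_ModularCurve_GenusNumerics

/-!
# Coset combinatorics for `SL(2,ℤ) ⧸ Γ₀(N)` (helper85, package D1 for S24 / S20)

Basic facts: the coset criterion in terms of first columns.
-/

set_option autoImplicit false

namespace Fermat.Agent.H85

open CongruenceSubgroup ModularGroup MatrixGroups Matrix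

/-- The left cosets `g Γ₀(N)`; `SL(2,ℤ)` acts on the left. -/
abbrev X0 (N : ℕ) : Type := SL(2, ℤ) ⧸ Gamma0 N

theorem inv_mul_apply_one_zero (g g' : SL(2, ℤ)) :
    (g⁻¹ * g') 1 0 = g 0 0 * g' 1 0 - g' 0 0 * g 1 0 := by
  simp only [SpecialLinearGroup.coe_mul, SpecialLinearGroup.coe_inv, Matrix.adjugate_fin_two,
    Matrix.mul_apply, Fin.sum_univ_two, Matrix.of_apply, Matrix.cons_val_zero,
    Matrix.cons_val_one, Matrix.cons_val']
  simp
  ring

/-- Coset criterion: `g Γ₀(N) = g' Γ₀(N)` iff the first columns are proportional mod `N`. -/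
theorem mk_eq_mk_iff (N : ℕ) (g g' : SL(2, ℤ)) :
    (QuotientGroup.mk g : X0 N) = QuotientGroup.mk g' ↔
      (N : ℤ) ∣ g 0 0 * g' 1 0 - g' 0 0 * g 1 0 := by
  rw [QuotientGroup.eq, Gamma0_mem, ZMod.intCast_zmod_eq_zero_iff_dvd, inv_mul_apply_one_zero]

/-- The first column of an element of `SL(2,ℤ)` is coprime. -/
theorem isCoprime_col (g : SL(2, ℤ)) : IsCoprime (g 0 0) (g 1 0) := by
  refine ⟨g 1 1, -(g 0 1), ?_⟩
  have h := g.det_coe
  rw [Matrix.det_fin_two] at h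
  linear_combination h

/-- Every coprime pair is the first column of an element of `SL(2,ℤ)`. -/
theorem exists_col {a c : ℤ} (h : IsCoprime a c) :
    ∃ g : SL(2, ℤ), g 0 0 = a ∧ g 1 0 = c := by
  obtain ⟨u, v, huv⟩ := h
  refine ⟨⟨!![a, -v; c, u], ?_⟩, rfl, rfl⟩
  rw [Matrix.det_fin_two_of]
  linear_combination huv

theorem smul_mk (N : ℕ) (s g : SL(2, ℤ)) :
    s • (QuotientGroup.mk g : X0 N) = QuotientGroup.mk (s * g) := rfl

theorem S_mul_apply_zero_zero (g : SL(2, ℤ)) : (S * g) 0 0 = - g 1 0 := by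
  simp [ModularGroup.coe_S, Matrix.mul_apply, Fin.sum_univ_two]

theorem S_mul_apply_one_zero (g : SL(2, ℤ)) : (S * g) 1 0 = g 0 0 := by
  simp [ModularGroup.coe_S, Matrix.mul_apply, Fin.sum_univ_two]

theorem T_mul_apply_zero_zero (g : SL(2, ℤ)) : (T * g) 0 0 = g 0 0 + g 1 0 := by
  simp [ModularGroup.coe_T, Matrix.mul_apply, Fin.sum_univ_two]

theorem T_mul_apply_one_zero (g : SL(2, ℤ)) : (T * g) 1 0 = g 1 0 := by
  simp [ModularGroup.coe_T, Matrix.mul_apply, Fin.sum_univ_two]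

theorem T_zpow_mul_apply_zero_zero (k : ℤ) (g : SL(2, ℤ)) :
    (T ^ k * g) 0 0 = g 0 0 + k * g 1 0 := by
  simp [ModularGroup.coe_T_zpow, Matrix.mul_apply, Fin.sum_univ_two]

theorem T_zpow_mul_apply_one_zero (k : ℤ) (g : SL(2, ℤ)) :
    (T ^ k * g) 1 0 = g 1 0 := by
  simp [ModularGroup.coe_T_zpow, Matrix.mul_apply, Fin.sum_univ_two]

instance instFiniteX0 (N : ℕ) [NeZero N] : Finite (X0 N) :=
  Subgroup.finite_quotient_of_finiteIndex

end Fermat.Agent.H85
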