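import Mathlib
import Fermat.Agent.H85.Basic

/-!
# Fixed points of `S` and `S*T` on `SL(2,ℤ) ⧸ Γ₀(N)` (helper85)
-/

set_option autoImplicit false

namespace Fermat.Agent.H85

open CongruenceSubgroup ModularGroup MatrixGroups Matrix

/-- The matrix `[[z, -1], [1, 0]]`. -/
def rootMat (z : ℤ) : SL(2, ℤ) := ⟨!![z, -1; 1, 0], by rw [Matrix.det_fin_two_of]; ring⟩

@[simp] theorem rootMat_zero_zero (z : ℤ) : rootMat z 0 0 = z := rfl
@[simp] theorem rootMat_one_zero (z : ℤ) : rootMat z 1 0 = 1 := rfl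

/-- General fixed point count: if `σ` fixes the coset of `g` iff `N ∣ a² + t a c + c²`
(`(a, c)` the first column of `g`), then the fixed points of `σ` are in bijection with the
roots of `z² + t z + 1` in `ZMod N`. -/
theorem card_fixed_of (N : ℕ) [NeZero N] (σ : SL(2, ℤ)) (t : ℤ)
    (hσ : ∀ g : SL(2, ℤ), σ • (QuotientGroup.mk g : X0 N) = QuotientGroup.mk g ↔
      (N : ℤ) ∣ g 0 0 ^ 2 + t * g 0 0 * g 1 0 + g 1 0 ^ 2) :
    Nat.card {x : X0 N // σ • x = x} = Nat.card {z : ZMod N // z ^ 2 + (t : ZMod N) * z + 1 = 0} := by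
  symm
  let F : {z : ZMod N // z ^ 2 + (t : ZMod N) * z + 1 = 0} → {x : X0 N // σ • x = x} :=
    fun z => ⟨QuotientGroup.mk (rootMat (z.1.cast : ℤ)), by
      rw [hσ, rootMat_zero_zero, rootMat_one_zero, ← ZMod.intCast_zmod_eq_zero_iff_dvd]
      push_cast
      have := z.2
      linear_combination this⟩
  refine Nat.card_congr (Equiv.ofBijective F ⟨?_, ?_⟩)
  · rintro ⟨z, hz⟩ ⟨w, hw⟩ h
    have h' := congrArg Subtype.val h
    simp only [F] at h'
    rw [mk_eq_mk_iff, rootMat_zero_zero, rootMat_one_zero, rootMat_zero_zero, rootMat_one_zero,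
      ← ZMod.intCast_zmod_eq_zero_iff_dvd] at h'
    push_cast at h'
    apply Subtype.ext
    show z = w
    linear_combination h'
  · rintro ⟨x, hx⟩
    induction x using QuotientGroup.induction_on with
    | H g =>
      have hdvd := (hσ g).mp hx
      have hcop : IsCoprime (g 0 0) (g 1 0) := isCoprime_col g
      -- `c` is a unit mod `N`
      have hcN : IsCoprime (N : ℤ) (g 1 0) := by
        have h1 : IsCoprime (g 0 0 ^ 2 + t * g 0 0 * g 1 0 + g 1 0 ^ 2) (g 1 0) := by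
          have h2 : IsCoprime (g 0 0 ^ 2) (g 1 0) := hcop.pow_left
          have h3 : g 0 0 ^ 2 + t * g 0 0 * g 1 0 + g 1 0 ^ 2
              = g 0 0 ^ 2 + g 1 0 * (t * g 0 0 + g 1 0) := by ring
          rw [h3]
          exact h2.add_mul_left_left _
        exact IsCoprime.of_isCoprime_of_dvd_left h1 hdvd
      obtain ⟨u, v, huv⟩ := hcN
      have hv : (v : ZMod N) * (g 1 0 : ZMod N) = 1 := by
        have := congrArg (Int.cast : ℤ → ZMod N) huv
        push_cast at this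
        simpa using this
      have hq : ((g 0 0 : ℤ) : ZMod N) ^ 2 + (t : ZMod N) * (g 0 0 : ZMod N) * (g 1 0 : ZMod N)
          + ((g 1 0 : ℤ) : ZMod N) ^ 2 = 0 := by
        have := (ZMod.intCast_zmod_eq_zero_iff_dvd _ N).mpr hdvd
        push_cast at this
        exact this
      set z : ZMod N := (g 0 0 : ZMod N) * (v : ZMod N) with hz
      have hzroot : z ^ 2 + (t : ZMod N) * z + 1 = 0 := by
        have : z ^ 2 + (t : ZMod N) * z + 1
            = (v : ZMod N) ^ 2 * (((g 0 0 : ℤ) : ZMod N) ^ 2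
              + (t : ZMod N) * (g 0 0 : ZMod N) * (g 1 0 : ZMod N) + ((g 1 0 : ℤ) : ZMod N) ^ 2)
              + (1 - (v : ZMod N) * (g 1 0 : ZMod N)) *
                ((t : ZMod N) * (g 0 0 : ZMod N) * (v : ZMod N)
                  + 1 + (v : ZMod N) * (g 1 0 : ZMod N)) := by
          rw [hz]; ring
        rw [this, hq, hv]
        ring
      refine ⟨⟨z, hzroot⟩, ?_⟩
      apply Subtype.ext
      show (QuotientGroup.mk (rootMat (z.cast : ℤ)) : X0 N) = QuotientGroup.mk g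
      rw [mk_eq_mk_iff, rootMat_zero_zero, rootMat_one_zero, ← ZMod.intCast_zmod_eq_zero_iff_dvd]
      push_cast
      rw [hz]
      linear_combination ((g 0 0 : ℤ) : ZMod N) * hv

theorem S_smul_mk_eq_iff (N : ℕ) (g : SL(2, ℤ)) :
    S • (QuotientGroup.mk g : X0 N) = QuotientGroup.mk g ↔
      (N : ℤ) ∣ g 0 0 ^ 2 + (0 : ℤ) * g 0 0 * g 1 0 + g 1 0 ^ 2 := by
  rw [smul_mk, mk_eq_mk_iff, S_mul_apply_zero_zero, S_mul_apply_one_zero, ← dvd_neg]
  have : -(-g 1 0 * g 1 0 - g 0 0 * g 0 0) = g 0 0 ^ 2 + (0 : ℤ) * g 0 0 * g 1 0 + g 1 0 ^ 2 := by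
    ring
  rw [this]

theorem ST_smul_mk_eq_iff (N : ℕ) (g : SL(2, ℤ)) :
    (S * T) • (QuotientGroup.mk g : X0 N) = QuotientGroup.mk g ↔
      (N : ℤ) ∣ g 0 0 ^ 2 + (1 : ℤ) * g 0 0 * g 1 0 + g 1 0 ^ 2 := by
  rw [smul_mk, mk_eq_mk_iff, mul_assoc, S_mul_apply_zero_zero, S_mul_apply_one_zero,
    T_mul_apply_zero_zero, T_mul_apply_one_zero, ← dvd_neg]
  have : -(-g 1 0 * g 1 0 - g 0 0 * (g 0 0 + g 1 0))
      = g 0 0 ^ 2 + (1 : ℤ) * g 0 0 * g 1 0 + g 1 0 ^ 2 := by
    ring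
  rw [this]

/-- The number of fixed points of `S` on `SL(2,ℤ) ⧸ Γ₀(N)` is `nuTwo N`. -/
theorem card_fixed_S (N : ℕ) [NeZero N] :
    Nat.card {x : X0 N // S • x = x} = ModularCurve.nuTwo N := by
  rw [card_fixed_of N S 0 (S_smul_mk_eq_iff N), ModularCurve.nuTwo]
  refine Nat.card_congr (Equiv.subtypeEquivRight fun z => ?_)
  simp

/-- The number of fixed points of `S * T` on `SL(2,ℤ) ⧸ Γ₀(N)` is `nuThree N`. -/
theorem card_fixed_ST (N : ℕ) [NeZero N] :
    Nat.card {x : X0 N // (S * T) • x = x} = ModularCurve.nuThree N := by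
  rw [card_fixed_of N (S * T) 1 (ST_smul_mk_eq_iff N), ModularCurve.nuThree]
  refine Nat.card_congr (Equiv.subtypeEquivRight fun z => ?_)
  simp

end Fermat.Agent.H85
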