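import Mathlib.GroupTheory.Perm.Cycle.Type
import Mathlib.GroupTheory.Perm.Cycle.Factors
import Mathlib.SetTheory.Cardinal.Finite
import Mathlib.Tactic

/-!
# Number of cycles (orbits) of a permutation of a finite type (helper85)

`cyc σ` = number of orbits of `⟨σ⟩` (fixed points included).
* `cyc_add_card_support` : `cyc σ + #support = card α + #cycleType`
* `sign_eq_neg_one_pow` : `sign σ = (-1) ^ (card α + cyc σ)`
-/

set_option autoImplicit false

namespace Fermat.Agent.H85

open Equiv Equiv.Perm

variable {α : Type*} [Fintype α] [DecidableEq α]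

/-- Number of orbits of the cyclic group generated by `σ` (including fixed points). -/
noncomputable def cyc (σ : Perm α) : ℕ := Nat.card (Quotient (SameCycle.setoid σ))

/-- The map from points to `fixed points ⊕ nontrivial cycles`. -/
noncomputable def cycLabel (σ : Perm α) (x : α) :
    {x : α // σ x = x} ⊕ {c : Perm α // c ∈ σ.cycleFactorsFinset} :=
  if h : σ x = x then Sum.inl ⟨x, h⟩
  else Sum.inr ⟨σ.cycleOf x, cycleOf_mem_cycleFactorsFinset_iff.mpr (mem_support.mpr h)⟩

theorem cycLabel_eq_iff (σ : Perm α) (x y : α) :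
    cycLabel σ x = cycLabel σ y ↔ SameCycle σ x y := by
  unfold cycLabel
  constructor
  · intro h
    by_cases hx : σ x = x
    · by_cases hy : σ y = y
      · rw [dif_pos hx, dif_pos hy] at h
        have : x = y := by simpa using h
        subst this
        exact SameCycle.refl _ _
      · rw [dif_pos hx, dif_neg hy] at h
        exact absurd h (by simp)
    · by_cases hy : σ y = y
      · rw [dif_neg hx, dif_pos hy] at h
        exact absurd h (by simp)
      · rw [dif_neg hx, dif_neg hy] at h
        have h' : σ.cycleOf x = σ.cycleOf y := by simpa using h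
        have hy' : y ∈ (σ.cycleOf y).support := by
          rw [mem_support_cycleOf_iff]
          exact ⟨SameCycle.refl _ _, mem_support.mpr hy⟩
        rw [← h', mem_support_cycleOf_iff] at hy'
        exact hy'.1
  · intro h
    by_cases hx : σ x = x
    · have hxy : x = y := h.eq_of_left hx
      subst hxy
      rfl
    · have hy : ¬ σ y = y := fun hy => hx (h.apply_eq_self_iff.mpr hy)
      rw [dif_neg hx, dif_neg hy]
      simp only [Sum.inr.injEq, Subtype.mk.injEq]
      exact h.cycleOf_eq

theorem cycLabel_surjective (σ : Perm α) : Function.Surjective (cycLabel σ) := by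
  rintro (⟨x, hx⟩ | ⟨c, hc⟩)
  · exact ⟨x, by unfold cycLabel; rw [dif_pos hx]⟩
  · have hc' := (mem_cycleFactorsFinset_iff.mp hc).1
    obtain ⟨a, ha⟩ : ∃ a, a ∈ c.support := by
      have : c.support.Nonempty := by
        rw [Finset.nonempty_iff_ne_empty, Ne, support_eq_empty_iff]
        exact hc'.ne_one
      exact this
    have hca : c = σ.cycleOf a := cycle_is_cycleOf ha hc
    have hsa : a ∈ σ.support := by
      rw [← cycleOf_mem_cycleFactorsFinset_iff, ← hca]
      exact hc
    refine ⟨a, ?_⟩
    unfold cycLabel
    rw [dif_neg (mem_support.mp hsa)]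
    simp only [Sum.inr.injEq, Subtype.mk.injEq]
    exact hca.symm

/-- The orbits of `⟨σ⟩` are in bijection with `fixed points ⊕ nontrivial cycles`. -/
noncomputable def cycEquiv (σ : Perm α) :
    Quotient (SameCycle.setoid σ) ≃
      {x : α // σ x = x} ⊕ {c : Perm α // c ∈ σ.cycleFactorsFinset} :=
  Equiv.ofBijective
    (Quotient.lift (cycLabel σ) (fun x y h => (cycLabel_eq_iff σ x y).mpr h))
    ⟨by
      rintro ⟨x⟩ ⟨y⟩ h
      exact Quotient.sound ((cycLabel_eq_iff σ x y).mp h),
     by
      intro z
      obtain ⟨x, hx⟩ := cycLabel_surjective σ z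
      exact ⟨Quotient.mk _ x, hx⟩⟩

theorem card_fixed_add_card_support (σ : Perm α) :
    Nat.card {x : α // σ x = x} + σ.support.card = Fintype.card α := by
  classical
  rw [Nat.card_eq_fintype_card, Fintype.card_subtype]
  have h : (Finset.univ.filter fun x => σ x = x) = σ.supportᶜ := by
    ext x
    simp [mem_support]
  rw [h, Finset.card_compl]
  have := Finset.card_le_univ σ.support
  omega

theorem cyc_add_card_support (σ : Perm α) :
    cyc σ + σ.support.card = Fintype.card α + Multiset.card σ.cycleType := by
  classical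
  unfold cyc
  rw [Nat.card_congr (cycEquiv σ), Nat.card_sum, add_right_comm, card_fixed_add_card_support]
  congr 1
  rw [cycleType_def, Multiset.card_map, Nat.card_eq_fintype_card, Fintype.card_coe]
  rfl

theorem cyc_le_card (σ : Perm α) : cyc σ ≤ Fintype.card α := by
  have h := cyc_add_card_support σ
  have h2 : Multiset.card σ.cycleType ≤ σ.support.card := by
    rw [← sum_cycleType]
    have : ∀ n ∈ σ.cycleType, 1 ≤ n := fun n hn => le_trans (by norm_num) (two_le_of_mem_cycleType hn)
    calc Multiset.card σ.cycleType = (σ.cycleType.map fun _ => 1).sum := by simp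
      _ ≤ (σ.cycleType.map id).sum := Multiset.sum_map_le_sum_map _ _ this
      _ = σ.cycleType.sum := by simp
  omega

/-- The sign of a permutation in terms of its number of orbits. -/
theorem sign_eq_neg_one_pow (σ : Perm α) :
    Perm.sign σ = (-1) ^ (Fintype.card α + cyc σ) := by
  rw [sign_of_cycleType, sum_cycleType]
  have h := cyc_add_card_support σ
  have h1 : Fintype.card α + cyc σ + 2 * Multiset.card σ.cycleType
      = (σ.support.card + Multiset.card σ.cycleType) + 2 * cyc σ := by omega
  have h2 : ((-1 : ℤˣ)) ^ (Fintype.card α + cyc σ + 2 * Multiset.card σ.cycleType)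
      = (-1) ^ (Fintype.card α + cyc σ) := by
    rw [pow_add, pow_mul]; simp
  have h3 : ((-1 : ℤˣ)) ^ ((σ.support.card + Multiset.card σ.cycleType) + 2 * cyc σ)
      = (-1) ^ (σ.support.card + Multiset.card σ.cycleType) := by
    rw [pow_add, pow_mul]; simp
  rw [← h2, h1, h3]

/-- If `σ ^ p = 1` with `p` prime, then `p * #orbits = card α + (p - 1) * #fixed points`. -/
theorem prime_mul_cyc (σ : Perm α) {p : ℕ} (hp : p.Prime) (hσ : σ ^ p = 1) :
    p * cyc σ = Fintype.card α + (p - 1) * Nat.card {x : α // σ x = x} := by
  have h := cyc_add_card_support σ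
  have hf := card_fixed_add_card_support σ
  have hall : ∀ n ∈ σ.cycleType, n = p := by
    intro n hn
    have h1 : n ∣ p := (dvd_of_mem_cycleType hn).trans (orderOf_dvd_of_pow_eq_one hσ)
    rcases (Nat.dvd_prime hp).mp h1 with h2 | h2
    · have := two_le_of_mem_cycleType hn
      omega
    · exact h2
  have hsum : σ.support.card = p * Multiset.card σ.cycleType := by
    rw [← sum_cycleType, Multiset.eq_replicate_card.mpr hall, Multiset.sum_replicate,
      Multiset.card_replicate, smul_eq_mul, mul_comm]
  obtain ⟨q, rfl⟩ : ∃ q, p = q + 1 := ⟨p - 1, by have := hp.pos; omega⟩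
  simp only [Nat.add_sub_cancel]
  have e1 : (q + 1) * cyc σ + (q + 1) * σ.support.card
      = (q + 1) * Fintype.card α + (q + 1) * Multiset.card σ.cycleType := by
    rw [← mul_add, ← mul_add, h]
  have e2 : q * Nat.card {x : α // σ x = x} + q * σ.support.card = q * Fintype.card α := by
    rw [← mul_add, hf]
  have e3 : (q + 1) * cyc σ + (q + 1) * σ.support.card + q * Fintype.card α
      = (q + 1) * Fintype.card α + σ.support.card
        + (q * Nat.card {x : α // σ x = x} + q * σ.support.card) := by
    rw [e1, e2, ← hsum]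
  linarith

/-- Parity relation coming from multiplicativity of the sign. -/
theorem even_cyc_of_mul_eq {σ₁ σ₂ σ₃ : Perm α} (h : σ₁ * σ₂ = σ₃) :
    Even (Fintype.card α + cyc σ₁ + cyc σ₂ + cyc σ₃) := by
  have hs : Perm.sign σ₁ * Perm.sign σ₂ = Perm.sign σ₃ := by rw [← Perm.sign_mul, h]
  rw [sign_eq_neg_one_pow, sign_eq_neg_one_pow, sign_eq_neg_one_pow, ← pow_add] at hs
  by_contra hodd
  rw [Nat.not_even_iff_odd] at hodd
  rcases Nat.even_or_odd (Fintype.card α + cyc σ₃) with h3 | h3
  · have h12 : Odd (Fintype.card α + cyc σ₁ + (Fintype.card α + cyc σ₂)) := by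
      have : Fintype.card α + cyc σ₁ + (Fintype.card α + cyc σ₂) + (Fintype.card α + cyc σ₃)
          = (Fintype.card α + cyc σ₁ + cyc σ₂ + cyc σ₃) + 2 * Fintype.card α := by ring
      by_contra hne
      rw [Nat.not_odd_iff_even] at hne
      have hE := hne.add h3
      rw [this] at hE
      have := (Nat.even_add.mp hE).mpr (even_two_mul _)
      exact (Nat.not_even_iff_odd.mpr hodd) this
    rw [h12.neg_one_pow, h3.neg_one_pow] at hs
    exact absurd hs (by decide)
  · have h12 : Even (Fintype.card α + cyc σ₁ + (Fintype.card α + cyc σ₂)) := by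
      have : Fintype.card α + cyc σ₁ + (Fintype.card α + cyc σ₂) + (Fintype.card α + cyc σ₃)
          = (Fintype.card α + cyc σ₁ + cyc σ₂ + cyc σ₃) + 2 * Fintype.card α := by ring
      by_contra hne
      rw [Nat.not_even_iff_odd] at hne
      have hE := hne.add_odd h3
      rw [this] at hE
      have := (Nat.even_add.mp hE).mpr (even_two_mul _)
      exact (Nat.not_even_iff_odd.mpr hodd) this
    rw [h12.neg_one_pow, h3.neg_one_pow] at hs
    exact absurd hs (by decide)

end Fermat.Agent.H85
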