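import Mathlib
import Fermat.Agent.H85.PermCycles

/-!
# Scott's lemma for permutations (helper85)

If `σ₁, σ₂` generate a transitive group of permutations of a finite nonempty type `α`, then
`cyc σ₁ + cyc σ₂ + cyc (σ₁ * σ₂) ≤ card α + 2`
(the "genus" of the triple is nonnegative).
-/

set_option autoImplicit false

namespace Fermat.Agent.H85

open Equiv Equiv.Perm Module

variable {α : Type*} [Fintype α] [DecidableEq α]

/-- Precomposition with `σ` on functions `α → ℚ`. -/
noncomputable def pl (σ : Perm α) : (α → ℚ) →ₗ[ℚ] (α → ℚ) := LinearMap.funLeft ℚ ℚ σ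

@[simp] theorem pl_apply (σ : Perm α) (f : α → ℚ) (x : α) : pl σ f x = f (σ x) := rfl

theorem pl_mul (σ τ : Perm α) : pl (σ * τ) = pl τ ∘ₗ pl σ := by
  ext f x; rfl

/-- `1 - pl σ`. -/
noncomputable def dl (σ : Perm α) : (α → ℚ) →ₗ[ℚ] (α → ℚ) := LinearMap.id - pl σ

@[simp] theorem dl_apply (σ : Perm α) (f : α → ℚ) (x : α) : dl σ f x = f x - f (σ x) := rfl

theorem mem_ker_dl {σ : Perm α} {f : α → ℚ} :
    f ∈ LinearMap.ker (dl σ) ↔ ∀ x, f (σ x) = f x := by
  rw [LinearMap.mem_ker]
  constructor
  · intro h x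
    have := congrFun h x
    simp only [dl_apply, Pi.zero_apply] at this
    linarith
  · intro h
    ext x
    simp [h x]

theorem apply_zpow_of_invariant {σ : Perm α} {f : α → ℚ} (h : ∀ x, f (σ x) = f x) (i : ℤ)
    (x : α) : f ((σ ^ i) x) = f x := by
  induction i using Int.induction_on generalizing x with
  | zero => simp
  | succ i ih =>
    rw [zpow_add_one, Perm.mul_apply, ih, h]
  | pred i ih =>
    rw [zpow_sub_one, Perm.mul_apply, ih]
    have := h (σ⁻¹ x)
    have h2 : σ (σ⁻¹ x) = x := by simp
    rw [h2] at this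
    exact this.symm

theorem apply_eq_of_sameCycle {σ : Perm α} {f : α → ℚ} (h : ∀ x, f (σ x) = f x) {x y : α}
    (hxy : SameCycle σ x y) : f x = f y := by
  obtain ⟨i, rfl⟩ := hxy
  exact (apply_zpow_of_invariant h i x).symm

/-- Invariant functions = functions on the orbit space. -/
noncomputable def kerDlEquiv (σ : Perm α) :
    (Quotient (SameCycle.setoid σ) → ℚ) ≃ₗ[ℚ] LinearMap.ker (dl σ) where
  toFun h := ⟨fun x => h (Quotient.mk _ x), mem_ker_dl.mpr fun x => by
    congr 1
    exact Quotient.sound (sameCycle_apply_left.mpr (SameCycle.refl _ _))⟩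
  map_add' _ _ := rfl
  map_smul' _ _ := rfl
  invFun f := fun q => Quotient.lift (f : α → ℚ)
    (fun _ _ hxy => apply_eq_of_sameCycle (mem_ker_dl.mp f.2) hxy) q
  left_inv h := by
    funext q
    induction q using Quotient.inductionOn with
    | h x => rfl
  right_inv f := by
    ext x
    rfl

theorem finrank_ker_dl (σ : Perm α) : finrank ℚ (LinearMap.ker (dl σ)) = cyc σ := by
  classical
  let _ : Fintype (Quotient (SameCycle.setoid σ)) := Fintype.ofFinite _
  rw [← (kerDlEquiv σ).finrank_eq, Module.finrank_fintype_fun_eq_card, cyc,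
    Nat.card_eq_fintype_card]

theorem finrank_range_dl (σ : Perm α) :
    finrank ℚ (LinearMap.range (dl σ)) + cyc σ = Fintype.card α := by
  have h := LinearMap.finrank_range_add_finrank_ker (dl σ)
  rw [finrank_ker_dl, Module.finrank_fintype_fun_eq_card] at h
  exact h

/-- A function invariant under `σ₁` and `σ₂` is invariant under the group they generate. -/
theorem invariant_closure {σ₁ σ₂ : Perm α} {f : α → ℚ} (h₁ : ∀ x, f (σ₁ x) = f x)
    (h₂ : ∀ x, f (σ₂ x) = f x) {g : Perm α} (hg : g ∈ Subgroup.closure {σ₁, σ₂}) (x : α) :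
    f (g x) = f x := by
  induction hg using Subgroup.closure_induction generalizing x with
  | mem g hg =>
    rcases hg with rfl | hg
    · exact h₁ x
    · rw [Set.mem_singleton_iff] at hg
      subst hg
      exact h₂ x
  | one => rfl
  | mul a b _ _ iha ihb => rw [Perm.mul_apply, iha, ihb]
  | inv a _ iha =>
    have := iha (a⁻¹ x)
    have h2 : a (a⁻¹ x) = x := by simp
    rw [h2] at this
    exact this.symm

theorem const_of_invariant {σ₁ σ₂ : Perm α}
    (htrans : ∀ x y : α, ∃ g ∈ Subgroup.closure {σ₁, σ₂}, g x = y)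
    {f : α → ℚ} (h₁ : ∀ x, f (σ₁ x) = f x) (h₂ : ∀ x, f (σ₂ x) = f x) (x y : α) :
    f x = f y := by
  obtain ⟨g, hg, rfl⟩ := htrans x y
  exact (invariant_closure h₁ h₂ hg x).symm

/-- The sum functional. -/
noncomputable def sumFun (α : Type*) [Fintype α] : Module.Dual ℚ (α → ℚ) where
  toFun f := ∑ x, f x
  map_add' f g := by simp [Finset.sum_add_distrib]
  map_smul' c f := by simp [Finset.mul_sum]

theorem pl_single (σ : Perm α) (x : α) :
    pl σ (Pi.single x (1 : ℚ)) = Pi.single (σ⁻¹ x) 1 := by
  ext y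
  simp only [pl_apply, Pi.single_apply]
  congr 1
  rw [eq_iff_iff]
  constructor
  · intro h; rw [← h]; simp
  · intro h; rw [h]; simp

/-- **Scott's lemma** for a transitive pair of permutations. -/
theorem scott_lemma [Nonempty α] (σ₁ σ₂ : Perm α)
    (htrans : ∀ x y : α, ∃ g ∈ Subgroup.closure {σ₁, σ₂}, g x = y) :
    cyc σ₁ + cyc σ₂ + cyc (σ₁ * σ₂) ≤ Fintype.card α + 2 := by
  classical
  set A₁ := dl σ₁ with hA₁
  set A₂ := dl σ₂ with hA₂
  set A₃ := dl (σ₁ * σ₂) with hA₃
  have hA₃' : A₃ = A₂ + pl σ₂ ∘ₗ A₁ := by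
    refine LinearMap.ext fun f => ?_
    funext x
    simp [hA₁, hA₂, hA₃, Perm.mul_apply]
  -- the maps β and δ
  let β : (α → ℚ) →ₗ[ℚ]
      (LinearMap.range A₁ × LinearMap.range A₂ × LinearMap.range A₃) :=
    LinearMap.prod A₁.rangeRestrict (LinearMap.prod A₂.rangeRestrict A₃.rangeRestrict)
  let δ : (LinearMap.range A₁ × LinearMap.range A₂ × LinearMap.range A₃) →ₗ[ℚ] (α → ℚ) :=
    LinearMap.coprod (pl σ₂ ∘ₗ (LinearMap.range A₁).subtype)
      (LinearMap.coprod (LinearMap.range A₂).subtype (-(LinearMap.range A₃).subtype))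
  have hδβ : δ ∘ₗ β = 0 := by
    refine LinearMap.ext fun f => ?_
    show pl σ₂ (A₁ f) + (A₂ f + -(A₃ f)) = 0
    rw [hA₃']
    simp
  have hle : LinearMap.range β ≤ LinearMap.ker δ := LinearMap.range_le_ker_iff.mpr hδβ
  -- dimension of the product
  have hW : finrank ℚ (LinearMap.range A₁ × LinearMap.range A₂ × LinearMap.range A₃)
      = finrank ℚ (LinearMap.range A₁) + (finrank ℚ (LinearMap.range A₂)
        + finrank ℚ (LinearMap.range A₃)) := by
    rw [Module.finrank_prod, Module.finrank_prod]
  have hδ := LinearMap.finrank_range_add_finrank_ker δ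
  have hβ := LinearMap.finrank_range_add_finrank_ker β
  rw [Module.finrank_fintype_fun_eq_card] at hβ
  have hle' : finrank ℚ (LinearMap.range β) ≤ finrank ℚ (LinearMap.ker δ) :=
    Submodule.finrank_mono hle
  -- kernel of β consists of constants
  have hkerβ : finrank ℚ (LinearMap.ker β) ≤ 1 := by
    have hsub : LinearMap.ker β ≤ Submodule.span ℚ {(fun _ => 1 : α → ℚ)} := by
      intro f hf
      rw [LinearMap.mem_ker] at hf
      have h1 : A₁ f = 0 := by
        have := congrArg (fun w => ((w.1 : LinearMap.range A₁) : α → ℚ)) hf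
        simpa [β] using this
      have h2 : A₂ f = 0 := by
        have := congrArg (fun w => ((w.2.1 : LinearMap.range A₂) : α → ℚ)) hf
        simpa [β] using this
      have h1' := mem_ker_dl.mp (LinearMap.mem_ker.mpr h1)
      have h2' := mem_ker_dl.mp (LinearMap.mem_ker.mpr h2)
      obtain ⟨x₀⟩ := ‹Nonempty α›
      rw [Submodule.mem_span_singleton]
      refine ⟨f x₀, ?_⟩
      ext y
      simp only [Pi.smul_apply, smul_eq_mul, mul_one]
      exact const_of_invariant htrans h1' h2' x₀ y
    calc finrank ℚ (LinearMap.ker β)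
        ≤ finrank ℚ (Submodule.span ℚ {(fun _ => 1 : α → ℚ)}) := Submodule.finrank_mono hsub
      _ ≤ 1 := by
        refine le_trans (finrank_span_le_card _) ?_
        simp
  -- the annihilator of the range of δ is spanned by the sum functional
  have hann : finrank ℚ (Submodule.dualAnnihilator (LinearMap.range δ)) ≤ 1 := by
    have hsub : Submodule.dualAnnihilator (LinearMap.range δ) ≤ Submodule.span ℚ {sumFun α} := by
      intro φ hφ
      rw [Submodule.mem_dualAnnihilator] at hφ
      have hφ2 : ∀ v, φ (pl σ₂ v) = φ v := by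
        intro v
        have := hφ (δ (0, ⟨A₂ v, LinearMap.mem_range_self _ _⟩, 0)) (LinearMap.mem_range_self _ _)
        simp only [δ, LinearMap.coprod_apply, map_zero, zero_add, Submodule.coe_subtype,
          add_zero] at this
        rw [hA₂, dl, LinearMap.sub_apply, LinearMap.id_apply, map_sub] at this
        linarith
      have hφ1 : ∀ v, φ (pl σ₁ v) = φ v := by
        intro v
        have := hφ (δ (⟨A₁ v, LinearMap.mem_range_self _ _⟩, 0, 0)) (LinearMap.mem_range_self _ _)
        simp only [δ, LinearMap.coprod_apply, map_zero, add_zero, LinearMap.coe_comp,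
          Function.comp_apply, Submodule.coe_subtype] at this
        rw [hφ2, hA₁, dl, LinearMap.sub_apply, LinearMap.id_apply, map_sub] at this
        linarith
      -- the function x ↦ φ (e_x) is invariant
      let c : α → ℚ := fun x => φ (Pi.single x 1)
      have hc1 : ∀ x, c (σ₁ x) = c x := by
        intro x
        have := hφ1 (Pi.single (σ₁ x) 1)
        have h2 : σ₁⁻¹ (σ₁ x) = x := by simp
        rw [pl_single, h2] at this
        exact this.symm
      have hc2 : ∀ x, c (σ₂ x) = c x := by
        intro x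
        have := hφ2 (Pi.single (σ₂ x) 1)
        have h2 : σ₂⁻¹ (σ₂ x) = x := by simp
        rw [pl_single, h2] at this
        exact this.symm
      obtain ⟨x₀⟩ := ‹Nonempty α›
      rw [Submodule.mem_span_singleton]
      refine ⟨c x₀, ?_⟩
      apply LinearMap.pi_ext
      intro i r
      have hr : (Pi.single i r : α → ℚ) = r • Pi.single i 1 := by
        ext y
        simp [Pi.single_apply]
      rw [hr, map_smul, map_smul]
      congr 1
      have hci : c i = c x₀ := const_of_invariant htrans hc1 hc2 i x₀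
      show c x₀ * (sumFun α) (Pi.single i 1) = φ (Pi.single i 1)
      have hs : (sumFun α) (Pi.single i (1 : ℚ)) = 1 := by
        show ∑ x, (Pi.single i (1 : ℚ) : α → ℚ) x = 1
        simp
      rw [hs, mul_one]
      exact hci.symm
    calc finrank ℚ (Submodule.dualAnnihilator (LinearMap.range δ))
        ≤ finrank ℚ (Submodule.span ℚ {sumFun α}) := Submodule.finrank_mono hsub
      _ ≤ 1 := by
        refine le_trans (finrank_span_le_card _) ?_
        simp
  have hdual := Subspace.finrank_add_finrank_dualAnnihilator_eq (LinearMap.range δ)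
  rw [Module.finrank_fintype_fun_eq_card] at hdual
  have r1 := finrank_range_dl σ₁
  have r2 := finrank_range_dl σ₂
  have r3 := finrank_range_dl (σ₁ * σ₂)
  rw [← hA₁] at r1
  rw [← hA₂] at r2
  rw [← hA₃] at r3
  omega

end Fermat.Agent.H85
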