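import Mathlib
import Fermat.Agent.H85.Basic
import Fermat.Agent.H85.Fixed
import Fermat.Agent.H85.PermCycles
import Fermat.Agent.H85.Scott

/-!
# Orbit counts of `S`, `S*T`, `T` on `SL(2,ℤ) ⧸ Γ₀(N)` (helper85)
-/

set_option autoImplicit false

namespace Fermat.Agent.H85

open CongruenceSubgroup ModularGroup MatrixGroups Matrix

/-- Number of orbits of the cyclic group `⟨g⟩` acting by left multiplication on
`SL(2,ℤ) ⧸ Γ₀(N)`. -/
noncomputable def orbCount (N : ℕ) (g : SL(2, ℤ)) : ℕ :=
  Nat.card (MulAction.orbitRel.Quotient (Subgroup.zpowers g) (X0 N))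

/-- The permutation of `SL(2,ℤ) ⧸ Γ₀(N)` induced by `g`. -/
noncomputable def permX0 (N : ℕ) : SL(2, ℤ) →* Equiv.Perm (X0 N) :=
  MulAction.toPermHom SL(2, ℤ) (X0 N)

@[simp] theorem permX0_apply (N : ℕ) (g : SL(2, ℤ)) (x : X0 N) : permX0 N g x = g • x := rfl

theorem orbitRel_iff_sameCycle (N : ℕ) (g : SL(2, ℤ)) (a b : X0 N) :
    (MulAction.orbitRel (Subgroup.zpowers g) (X0 N)).r a b ↔
      Equiv.Perm.SameCycle (permX0 N g) a b := by
  constructor
  · rintro ⟨⟨h, hh⟩, hab⟩
    obtain ⟨k, rfl⟩ := Subgroup.mem_zpowers_iff.mp hh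
    refine Equiv.Perm.SameCycle.symm ⟨k, ?_⟩
    rw [← map_zpow]
    exact hab
  · rintro ⟨k, hk⟩
    rw [← map_zpow] at hk
    refine (MulAction.orbitRel (Subgroup.zpowers g) (X0 N)).symm ?_
    exact ⟨⟨g ^ k, Subgroup.zpow_mem_zpowers g k⟩, hk⟩

theorem orbCount_eq_cyc (N : ℕ) (g : SL(2, ℤ)) : orbCount N g = cyc (permX0 N g) := by
  unfold orbCount cyc MulAction.orbitRel.Quotient
  exact Nat.card_congr (Quotient.congrRight (orbitRel_iff_sameCycle N g))

theorem neg_col_smul (N : ℕ) (s g : SL(2, ℤ)) (h0 : (s * g) 0 0 = - g 0 0)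
    (h1 : (s * g) 1 0 = - g 1 0) : s • (QuotientGroup.mk g : X0 N) = QuotientGroup.mk g := by
  rw [smul_mk, mk_eq_mk_iff, h0, h1]
  have : -g 0 0 * g 1 0 - g 0 0 * -g 1 0 = 0 := by ring
  rw [this]
  exact dvd_zero _

theorem ST_mul_apply_zero_zero (g : SL(2, ℤ)) : (S * T * g) 0 0 = - g 1 0 := by
  rw [mul_assoc, S_mul_apply_zero_zero, T_mul_apply_one_zero]

theorem ST_mul_apply_one_zero (g : SL(2, ℤ)) : (S * T * g) 1 0 = g 0 0 + g 1 0 := by
  rw [mul_assoc, S_mul_apply_one_zero, T_mul_apply_zero_zero]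

theorem permX0_S_sq (N : ℕ) : permX0 N S ^ 2 = 1 := by
  rw [← map_pow]
  ext x
  induction x using QuotientGroup.induction_on with
  | H g =>
    rw [permX0_apply, Equiv.Perm.one_apply]
    apply neg_col_smul
    · rw [pow_two, mul_assoc, S_mul_apply_zero_zero, S_mul_apply_one_zero]
    · rw [pow_two, mul_assoc, S_mul_apply_one_zero, S_mul_apply_zero_zero]

theorem permX0_ST_cube (N : ℕ) : permX0 N (S * T) ^ 3 = 1 := by
  rw [← map_pow]
  ext x
  induction x using QuotientGroup.induction_on with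
  | H g =>
    rw [permX0_apply, Equiv.Perm.one_apply]
    apply neg_col_smul
    · have e : (S * T) ^ 3 * g = (S * T) * ((S * T) * ((S * T) * g)) := by
        rw [pow_succ, pow_two]; simp only [mul_assoc]
      rw [e, ST_mul_apply_zero_zero, ST_mul_apply_one_zero, ST_mul_apply_zero_zero,
        ST_mul_apply_one_zero]
      ring
    · have e : (S * T) ^ 3 * g = (S * T) * ((S * T) * ((S * T) * g)) := by
        rw [pow_succ, pow_two]; simp only [mul_assoc]
      have h00 : ((S * T) * ((S * T) * g)) 0 0 = -(g 0 0 + g 1 0) := by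
        rw [ST_mul_apply_zero_zero, ST_mul_apply_one_zero]
      have h10 : ((S * T) * ((S * T) * g)) 1 0 = g 0 0 := by
        rw [ST_mul_apply_one_zero, ST_mul_apply_one_zero, ST_mul_apply_zero_zero]
        ring
      rw [e, ST_mul_apply_one_zero, h00, h10]
      ring

/-- `2 · #orbits⟨S⟩ = n + ν₂`. -/
theorem two_mul_orbCount_S (N : ℕ) [NeZero N] :
    2 * orbCount N S = Nat.card (X0 N) + ModularCurve.nuTwo N := by
  classical
  let _ : Fintype (X0 N) := Fintype.ofFinite _
  rw [orbCount_eq_cyc, prime_mul_cyc (permX0 N S) Nat.prime_two (permX0_S_sq N),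
    Nat.card_eq_fintype_card (α := X0 N), ← card_fixed_S N]
  simp only [Nat.add_one_sub_one, one_mul]
  rfl

/-- `3 · #orbits⟨ST⟩ = n + 2 ν₃`. -/
theorem three_mul_orbCount_ST (N : ℕ) [NeZero N] :
    3 * orbCount N (S * T) = Nat.card (X0 N) + 2 * ModularCurve.nuThree N := by
  classical
  let _ : Fintype (X0 N) := Fintype.ofFinite _
  rw [orbCount_eq_cyc, prime_mul_cyc (permX0 N (S * T)) Nat.prime_three (permX0_ST_cube N),
    Nat.card_eq_fintype_card (α := X0 N), ← card_fixed_ST N]
  rfl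

theorem permX0_transitive (N : ℕ) (x y : X0 N) :
    ∃ g ∈ Subgroup.closure {permX0 N S, permX0 N T}, g x = y := by
  induction x using QuotientGroup.induction_on with
  | H a =>
    induction y using QuotientGroup.induction_on with
    | H b =>
      refine ⟨permX0 N (b * a⁻¹), ?_, ?_⟩
      · have h : b * a⁻¹ ∈ Subgroup.closure {S, T} := by
          rw [SpecialLinearGroup.SL2Z_generators]
          exact Subgroup.mem_top _
        have h2 := Subgroup.mem_map_of_mem (permX0 N) h
        rw [MonoidHom.map_closure, Set.image_pair] at h2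
        exact h2
      · rw [permX0_apply, smul_mk, inv_mul_cancel_right]

/-- Parity: `n + #orb S + #orb T + #orb ST` is even. -/
theorem even_card_add_orbCounts (N : ℕ) [NeZero N] :
    Even (Nat.card (X0 N) + orbCount N S + orbCount N T + orbCount N (S * T)) := by
  classical
  let _ : Fintype (X0 N) := Fintype.ofFinite _
  rw [orbCount_eq_cyc, orbCount_eq_cyc, orbCount_eq_cyc, Nat.card_eq_fintype_card]
  exact even_cyc_of_mul_eq (map_mul (permX0 N) S T).symm

/-- Nonnegativity of the genus (Scott's lemma): `#orb S + #orb T + #orb ST ≤ n + 2`. -/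
theorem orbCounts_le (N : ℕ) [NeZero N] :
    orbCount N S + orbCount N T + orbCount N (S * T) ≤ Nat.card (X0 N) + 2 := by
  classical
  let _ : Fintype (X0 N) := Fintype.ofFinite _
  have _ : Nonempty (X0 N) := ⟨QuotientGroup.mk 1⟩
  rw [orbCount_eq_cyc, orbCount_eq_cyc, orbCount_eq_cyc, Nat.card_eq_fintype_card,
    map_mul (permX0 N) S T]
  exact scott_lemma _ _ (permX0_transitive N)

/-- The genus as a natural number, in terms of the orbit counts. -/
theorem exists_genus_nat (N : ℕ) [NeZero N] :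
    ∃ g : ℕ, (2 * (g : ℤ) - 2 = (Nat.card (X0 N) : ℤ) - orbCount N T - orbCount N S
        - orbCount N (S * T)) ∧
      (1 + (Nat.card (X0 N) : ℚ) / 12 - (ModularCurve.nuTwo N : ℚ) / 4
        - (ModularCurve.nuThree N : ℚ) / 3 - (orbCount N T : ℚ) / 2 = (g : ℚ)) := by
  have h2 := two_mul_orbCount_S N
  have h3 := three_mul_orbCount_ST N
  obtain ⟨k, hk⟩ := even_card_add_orbCounts N
  have hle := orbCounts_le N
  refine ⟨Nat.card (X0 N) + 1 - k, ?_, ?_⟩
  · have : k ≤ Nat.card (X0 N) + 1 := by omega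
    rw [Nat.cast_sub this]
    push_cast
    omega
  · have : k ≤ Nat.card (X0 N) + 1 := by omega
    rw [Nat.cast_sub this]
    push_cast
    have h2' : (2 : ℚ) * orbCount N S = Nat.card (X0 N) + ModularCurve.nuTwo N := by
      exact_mod_cast h2
    have h3' : (3 : ℚ) * orbCount N (S * T) = Nat.card (X0 N) + 2 * ModularCurve.nuThree N := by
      exact_mod_cast h3
    have hk' : (Nat.card (X0 N) : ℚ) + orbCount N S + orbCount N T + orbCount N (S * T)
        = k + k := by exact_mod_cast hk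
    linarith

end Fermat.Agent.H85
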