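import Mathlib
import Fermat.Agent.H85.Orbits
import Fermat.Agent.H57.Gamma0Index
import Fermat.Agent.H73.CuspOrbits
import Fermat.Prelude.Def_ModularCurve_GenusNumerics

/-!
# The genus formula of `X₀(N)` is a natural number (helper85; packages COMB + NUM for S24)

Main results (all for `X0 N = SL(2,ℤ) ⧸ Γ₀(N)` with the left multiplication action):
* `card_X0 : Nat.card (X0 N) = dedekindPsi N`                      (from `H57.index_Gamma0`)
* `two_mul_orbCount_S' : 2 * orbCount N S = dedekindPsi N + nuTwo N`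
* `three_mul_orbCount_ST' : 3 * orbCount N (S * T) = dedekindPsi N + 2 * nuThree N`
* `orbCount_T : orbCount N T = cuspCount N`                         (from `H73.card_orbits_T`)
* `genusFormula_eq_nat : ∃ g : ℕ, genusFormula N = g ∧ 2 g - 2 = ψ - #orb T - #orb S - #orb ST`
* `exists_genusFormula_eq_natCast (N : ℕ) : ∃ g : ℕ, genusFormula N = g`   (also for `N = 0`)
where `orbCount N g` is the number of orbits of `⟨g⟩`; `orbCount_eq_cyc` rewrites it as the
number `cyc (MulAction.toPermHom _ _ g)` of cycles of the induced permutation.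
-/

set_option autoImplicit false

namespace Fermat.Agent.H85

open CongruenceSubgroup ModularGroup MatrixGroups Matrix ModularCurve

theorem card_X0 (N : ℕ) [NeZero N] : Nat.card (X0 N) = dedekindPsi N :=
  Fermat.Agent.H57.index_Gamma0 N

theorem orbCount_T (N : ℕ) [NeZero N] : orbCount N T = cuspCount N :=
  Fermat.Agent.H73.card_orbits_T N

theorem two_mul_orbCount_S' (N : ℕ) [NeZero N] :
    2 * orbCount N S = dedekindPsi N + nuTwo N := by
  rw [two_mul_orbCount_S, card_X0]

theorem three_mul_orbCount_ST' (N : ℕ) [NeZero N] :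
    3 * orbCount N (S * T) = dedekindPsi N + 2 * nuThree N := by
  rw [three_mul_orbCount_ST, card_X0]

/-- The genus formula is a natural number `g`, and `2g - 2` is the Riemann–Hurwitz count. -/
theorem genusFormula_eq_nat (N : ℕ) [NeZero N] :
    ∃ g : ℕ, genusFormula N = (g : ℚ) ∧
      (2 * (g : ℤ) - 2 = (dedekindPsi N : ℤ) - orbCount N T - orbCount N S
        - orbCount N (S * T)) := by
  obtain ⟨g, h1, h2⟩ := exists_genus_nat N
  refine ⟨g, ?_, ?_⟩
  · rw [genusFormula, ← card_X0 N, ← orbCount_T N]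
    exact h2
  · rw [← card_X0 N]
    exact h1

theorem int_sq_add_one_ne_zero (x : ℤ) : x ^ 2 + 1 ≠ 0 := by
  nlinarith [sq_nonneg x]

theorem int_sq_add_self_add_one_ne_zero (x : ℤ) : x ^ 2 + x + 1 ≠ 0 := by
  nlinarith [sq_nonneg (2 * x + 1)]

theorem genusFormula_zero : genusFormula 0 = 1 := by
  have h2 : nuTwo 0 = 0 := by
    unfold nuTwo
    rw [Nat.card_eq_zero]
    left
    constructor
    rintro ⟨x, hx⟩
    exact int_sq_add_one_ne_zero x hx
  have h3 : nuThree 0 = 0 := by
    unfold nuThree
    rw [Nat.card_eq_zero]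
    left
    constructor
    rintro ⟨x, hx⟩
    exact int_sq_add_self_add_one_ne_zero x hx
  simp [genusFormula, dedekindPsi, cuspCount, h2, h3]

/-- **Package NUM**: the genus formula takes values in `ℕ` (for every `N`, including `0`). -/
theorem exists_genusFormula_eq_natCast (N : ℕ) : ∃ g : ℕ, genusFormula N = (g : ℚ) := by
  rcases Nat.eq_zero_or_pos N with rfl | hN
  · exact ⟨1, by rw [genusFormula_zero]; norm_num⟩
  · have _ : NeZero N := ⟨hN.ne'⟩
    obtain ⟨g, hg, -⟩ := genusFormula_eq_nat N
    exact ⟨g, hg⟩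

/-- **Package COMB** in terms of cycle counts of the induced permutations
(`cyc σ = Nat.card (Quotient (Equiv.Perm.SameCycle.setoid σ))`). -/
theorem coset_combinatorics (N : ℕ) [NeZero N] :
    Nat.card (SL(2, ℤ) ⧸ Gamma0 N) = dedekindPsi N ∧
    3 * Nat.card (Quotient (Equiv.Perm.SameCycle.setoid
        (MulAction.toPerm (S * T) : Equiv.Perm (SL(2, ℤ) ⧸ Gamma0 N))))
      = dedekindPsi N + 2 * nuThree N ∧
    2 * Nat.card (Quotient (Equiv.Perm.SameCycle.setoid
        (MulAction.toPerm S : Equiv.Perm (SL(2, ℤ) ⧸ Gamma0 N))))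
      = dedekindPsi N + nuTwo N ∧
    Nat.card (Quotient (Equiv.Perm.SameCycle.setoid
        (MulAction.toPerm T : Equiv.Perm (SL(2, ℤ) ⧸ Gamma0 N))))
      = cuspCount N := by
  refine ⟨card_X0 N, ?_, ?_, ?_⟩
  · have := three_mul_orbCount_ST' N
    rw [orbCount_eq_cyc] at this
    exact this
  · have := two_mul_orbCount_S' N
    rw [orbCount_eq_cyc] at this
    exact this
  · have := orbCount_T N
    rw [orbCount_eq_cyc] at this
    exact this

end Fermat.Agent.H85
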