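import Fermat.Agent.H23.BlueprintMod
import Fermat.Agent.H85.GenusNat

/-!
# Packages COMB and NUM of the S24 blueprint of helper23, proved (helper85)
-/

set_option autoImplicit false

namespace Fermat.Agent.H85

/-- Package NUM of `Fermat.Agent.H23.Blueprint`. -/
theorem genusNatStatement (N : ℕ) : Fermat.Agent.H23.GenusNatStatement N :=
  exists_genusFormula_eq_natCast N

/-- Package COMB of `Fermat.Agent.H23.BlueprintMod`. -/
theorem cosetCombinatoricsStatement (N : ℕ) [NeZero N] :
    Fermat.Agent.H23.CosetCombinatoricsStatement N :=
  coset_combinatorics N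

end Fermat.Agent.H85

namespace Fermat.Agent.H85

/-- GEN-8 of P-GENUS (name requested by helper23). -/
theorem cosetCombinatorics (N : ℕ) [NeZero N] :
    Fermat.Agent.H23.CosetCombinatoricsStatement N :=
  coset_combinatorics N

/-- GEN-9 of P-GENUS (name requested by helper23). -/
theorem genusNat (N : ℕ) [NeZero N] : Fermat.Agent.H23.GenusNatStatement N :=
  exists_genusFormula_eq_natCast N

end Fermat.Agent.H85
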