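import Mathlib
import Fermat.Prelude.Def_AlgebraicCurve_DivisorClassGroup
import Fermat.Prelude.Def_AlgebraicCurve_Repartitions

/-!
# Basic facts about places (helper85; used for GEN-5 of P-GENUS)
-/

set_option autoImplicit false

namespace Fermat.Agent.H85

open AlgebraicCurve

variable {K F : Type} [Field K] [Field F] [Algebra K F] (v : Place K F)

/-- Every place has a uniformizer. -/
theorem exists_ord_eq_one : ∃ π : F, v.ord π = 1 := by
  obtain ⟨π, hπ⟩ := IsDiscreteValuationRing.exists_irreducible v.toValuationSubring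
  exact ⟨(π : F), v.ord_coe_irreducible hπ⟩

theorem ne_zero_of_ord_ne_zero {f : F} (h : v.ord f ≠ 0) : f ≠ 0 := by
  rintro rfl
  exact h v.ord_zero

/-- Membership in the valuation ring in terms of `ord`. -/
theorem mem_valuationSubring_iff {f : F} :
    f ∈ v.toValuationSubring ↔ f = 0 ∨ 0 ≤ v.ord f := by
  constructor
  · intro h
    exact v.adicValuation_le_one_iff.mp (v.adicValuation_le_one_of_mem h)
  · rintro (rfl | h)
    · exact zero_mem _
    · rcases eq_or_ne f 0 with rfl | hf
      · exact zero_mem _
      obtain ⟨π, hπ⟩ := IsDiscreteValuationRing.exists_irreducible v.toValuationSubring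
      obtain ⟨u, hu⟩ := v.exists_unit_mul_zpow hf hπ
      rw [hu]
      refine mul_mem (u : v.toValuationSubring).2 ?_
      obtain ⟨n, hn⟩ := Int.eq_ofNat_of_zero_le h
      rw [hn, zpow_natCast]
      exact pow_mem π.2 n

/-- Elements of positive order are in the maximal ideal, hence have residue zero. -/
theorem ord_pos_of_residue_eq_zero {g : F} (hg : g ∈ v.toValuationSubring) (hg0 : g ≠ 0)
    (h : IsLocalRing.residue v.toValuationSubring ⟨g, hg⟩ = 0) : 0 < v.ord g := by
  rw [IsLocalRing.residue_eq_zero_iff, IsLocalRing.mem_maximalIdeal, mem_nonunits_iff] at h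
  have h1 : v.adicValuation g ≠ 1 := fun h1 =>
    h ((v.adicValuation_coe_eq_one_iff ⟨g, hg⟩).mp h1)
  have h2 : v.adicValuation g ≤ 1 := v.adicValuation_le_one_of_mem hg
  have h3 : v.adicValuation g < 1 := lt_of_le_of_ne h2 h1
  rw [v.adicValuation_eq_exp_neg_ord hg0] at h3
  have h4 : (WithZero.exp (-v.ord g) : WithZero (Multiplicative ℤ)) < WithZero.exp 0 := by
    simpa using h3
  rw [WithZero.exp_lt_exp] at h4
  omega

/-- If the residue field is `K` (degree one), every element of the valuation ring is congruent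
to a constant. -/
theorem exists_const_sub (hdeg : v.deg = 1) {g : F} (hg : g = 0 ∨ 0 ≤ v.ord g) :
    ∃ c : K, g = algebraMap K F c ∨ 0 < v.ord (g - algebraMap K F c) := by
  have hmem : g ∈ v.toValuationSubring := (mem_valuationSubring_iff v).mpr hg
  have h1 : Module.finrank K v.ResidueField = 1 := hdeg
  have hone : (1 : v.ResidueField) ≠ 0 := one_ne_zero
  obtain ⟨c, hc⟩ := (finrank_eq_one_iff_of_nonzero' (1 : v.ResidueField) hone).mp h1
    (IsLocalRing.residue v.toValuationSubring ⟨g, hmem⟩)
  refine ⟨c, ?_⟩
  by_cases h0 : g = algebraMap K F c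
  · exact Or.inl h0
  · right
    have hmem' : g - algebraMap K F c ∈ v.toValuationSubring :=
      sub_mem hmem (v.algebraMap_mem' c)
    refine ord_pos_of_residue_eq_zero v hmem' (sub_ne_zero.mpr h0) ?_
    have e1 : (⟨g - algebraMap K F c, hmem'⟩ : v.toValuationSubring)
        = ⟨g, hmem⟩ - algebraMap K v.toValuationSubring c := by
      ext
      rfl
    rw [e1, map_sub, ← hc, sub_eq_zero, Algebra.smul_def, mul_one]
    rfl

end Fermat.Agent.H85
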