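import Mathlib
import Fermat.Agent.H85.PlaceFacts

/-!
# Rigidity of embeddings inducing the same place (helper85; key lemma for GEN-5 of P-GENUS)

Two embeddings `σ σ' : F →+* M` into a valued field, inducing the same place `v` (with the same
multiplier `m`), agreeing on constants and on an element `y` of positive order, and such that
`σ' π - σ π` has valuation `> m` for a uniformizer `π`, are equal.
-/

set_option autoImplicit false

namespace Fermat.Agent.H85

open AlgebraicCurve

section Vge

variable {M : Type} [Field M] (val : AddValuation M (WithTop ℤ))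

/-- `val a ≥ n`. -/
def Vge (a : M) (n : ℤ) : Prop := ((n : ℤ) : WithTop ℤ) ≤ val a

variable {val}

theorem Vge.mono {a : M} {n k : ℤ} (h : Vge val a n) (hk : k ≤ n) : Vge val a k :=
  le_trans (WithTop.coe_le_coe.mpr hk) h

theorem vge_zero (n : ℤ) : Vge val (0 : M) n := by
  unfold Vge
  rw [AddValuation.map_zero]
  exact le_top

theorem Vge.add {a b : M} {n : ℤ} (ha : Vge val a n) (hb : Vge val b n) : Vge val (a + b) n :=
  val.map_le_add ha hb

theorem Vge.neg {a : M} {n : ℤ} (ha : Vge val a n) : Vge val (-a) n := by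
  unfold Vge
  rw [AddValuation.map_neg]
  exact ha

theorem Vge.sub {a b : M} {n : ℤ} (ha : Vge val a n) (hb : Vge val b n) : Vge val (a - b) n := by
  rw [sub_eq_add_neg]
  exact ha.add hb.neg

theorem Vge.mul {a b : M} {n k : ℤ} (ha : Vge val a n) (hb : Vge val b k) :
    Vge val (a * b) (n + k) := by
  unfold Vge at *
  rw [AddValuation.map_mul, WithTop.coe_add]
  exact add_le_add ha hb

theorem vge_of_eq {a : M} {n : ℤ} (h : val a = (n : WithTop ℤ)) : Vge val a n := le_of_eq h.symm

theorem vge_natCast (k : ℕ) : Vge val (k : M) 0 := by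
  induction k with
  | zero => simpa using vge_zero (val := val) 0
  | succ k ih =>
    rw [Nat.cast_succ]
    refine ih.add ?_
    unfold Vge
    rw [AddValuation.map_one]
    rfl

theorem Vge.pow {a : M} {n : ℤ} (ha : Vge val a n) (k : ℕ) : Vge val (a ^ k) (k * n) := by
  induction k with
  | zero =>
    simp only [pow_zero, Nat.cast_zero, zero_mul]
    unfold Vge
    rw [AddValuation.map_one]
    rfl
  | succ k ih =>
    rw [pow_succ]
    have := ih.mul ha
    refine this.mono ?_
    push_cast
    linarith

/-- If `val a = n` and `val b ≥ n + 1` then `val (a + b) = n`. -/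
theorem val_add_eq_of_vge {a b : M} {n : ℤ} (ha : val a = (n : WithTop ℤ))
    (hb : Vge val b (n + 1)) : val (a + b) = (n : WithTop ℤ) := by
  have h : val a < val ((a + b) - a) := by
    rw [add_sub_cancel_left, ha]
    refine lt_of_lt_of_le ?_ hb
    exact WithTop.coe_lt_coe.mpr (by omega)
  rw [val.map_eq_of_lt_sub h, ha]

theorem eq_zero_of_forall_vge {a : M} (h : ∀ n : ℤ, Vge val a n) : a = 0 := by
  by_contra ha
  have h1 : val a ≠ ⊤ := (val.ne_top_iff).mpr ha
  obtain ⟨k, hk⟩ := WithTop.ne_top_iff_exists.mp h1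
  have := h (k + 1)
  unfold Vge at this
  rw [← hk] at this
  have := WithTop.coe_le_coe.mp this
  omega

theorem val_mul_eq {a b : M} {n k : ℤ} (ha : val a = (n : WithTop ℤ))
    (hb : val b = (k : WithTop ℤ)) : val (a * b) = ((n + k : ℤ) : WithTop ℤ) := by
  rw [AddValuation.map_mul, ha, hb, WithTop.coe_add]

theorem val_pow_eq {a : M} {n : ℤ} (ha : val a = (n : WithTop ℤ)) (k : ℕ) :
    val (a ^ k) = ((k * n : ℤ) : WithTop ℤ) := by
  induction k with
  | zero => simp
  | succ k ih =>
    rw [pow_succ, val_mul_eq ih ha]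
    congr 1
    push_cast
    ring

end Vge

section Key

variable {K F : Type} [Field K] [Field F] [Algebra K F] [CharZero K]
variable {M : Type} [Field M] {val : AddValuation M (WithTop ℤ)}

/-- The key rigidity lemma. -/
theorem embedding_rigidity (v : Place K F) (hdeg : v.deg = 1)
    (σ σ' : F →+* M) (m : ℤ) (hm : 0 < m)
    (hσ : ∀ f : F, f ≠ 0 → val (σ f) = ((m * v.ord f : ℤ) : WithTop ℤ))
    (hσ' : ∀ f : F, f ≠ 0 → val (σ' f) = ((m * v.ord f : ℤ) : WithTop ℤ))
    (hK : ∀ c : K, σ (algebraMap K F c) = σ' (algebraMap K F c))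
    (hvalK : ∀ c : K, c ≠ 0 → val (σ (algebraMap K F c)) = 0)
    (π : F) (hπ : v.ord π = 1) (y : F) (hy : 0 < v.ord y) (hσy : σ y = σ' y)
    (hclose : Vge val (σ' π - σ π) (m + 1)) :
    σ = σ' := by
  have hπ0 : π ≠ 0 := ne_zero_of_ord_ne_zero v (by rw [hπ]; exact one_ne_zero)
  have hy0 : y ≠ 0 := ne_zero_of_ord_ne_zero v hy.ne'
  -- valuations of images of elements of the valuation ring
  have hOσ : ∀ g : F, (g = 0 ∨ 0 ≤ v.ord g) → Vge val (σ g) 0 := by
    intro g hg
    rcases eq_or_ne g 0 with rfl | hg0
    · rw [map_zero]; exact vge_zero 0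
    · have h0 : 0 ≤ v.ord g := hg.resolve_left hg0
      exact (vge_of_eq (hσ g hg0)).mono (mul_nonneg hm.le h0)
  have hOσ' : ∀ g : F, (g = 0 ∨ 0 ≤ v.ord g) → Vge val (σ' g) 0 := by
    intro g hg
    rcases eq_or_ne g 0 with rfl | hg0
    · rw [map_zero]; exact vge_zero 0
    · have h0 : 0 ≤ v.ord g := hg.resolve_left hg0
      exact (vge_of_eq (hσ' g hg0)).mono (mul_nonneg hm.le h0)
  have hvπ : val (σ π) = ((m : ℤ) : WithTop ℤ) := by rw [hσ π hπ0, hπ, mul_one]
  have hvπ' : val (σ' π) = ((m : ℤ) : WithTop ℤ) := by rw [hσ' π hπ0, hπ, mul_one]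
  -- Step 1
  have step1 : ∀ b : ℤ, Vge val (σ' π - σ π) b → ∀ n : ℕ, ∀ g : F, (g = 0 ∨ 0 ≤ v.ord g) →
      Vge val (σ' g - σ g) (min b (n * m)) := by
    intro b hb n
    induction n with
    | zero =>
      intro g hg
      have := (hOσ' g hg).sub (hOσ g hg)
      refine this.mono ?_
      simp
    | succ n ih =>
      intro g hg
      obtain ⟨c, hc⟩ := exists_const_sub v hdeg hg
      rcases hc with hc | hc
      · rw [hc, hK c, sub_self]
        exact vge_zero _
      · set g₁ : F := (g - algebraMap K F c) / π with hg₁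
        have hgc0 : g - algebraMap K F c ≠ 0 := ne_zero_of_ord_ne_zero v hc.ne'
        have hg₁0 : g₁ ≠ 0 := div_ne_zero hgc0 hπ0
        have hord : v.ord g₁ = v.ord (g - algebraMap K F c) - 1 := by
          rw [hg₁, div_eq_mul_inv, v.ord_mul hgc0 (inv_ne_zero hπ0), v.ord_inv, hπ]
          ring
        have hg₁mem : g₁ = 0 ∨ 0 ≤ v.ord g₁ := Or.inr (by rw [hord]; omega)
        have hg : g = algebraMap K F c + π * g₁ := by
          rw [hg₁]; field_simp; ring
        have e : σ' g - σ g = σ' π * (σ' g₁ - σ g₁) + (σ' π - σ π) * σ g₁ := by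
          rw [hg, map_add, map_add, map_mul, map_mul, hK c]
          ring
        rw [e]
        refine Vge.add ?_ ?_
        · have := (vge_of_eq hvπ').mul (ih g₁ hg₁mem)
          refine this.mono ?_
          push_cast
          rcases le_total b (↑n * m) with h | h
          · rw [min_eq_left h]
            exact le_trans (min_le_left _ _) (by omega)
          · rw [min_eq_right h]
            exact le_trans (min_le_right _ _) (by linarith)
        · have := hb.mul (hOσ g₁ hg₁mem)
          refine this.mono ?_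
          rw [add_zero]
          exact min_le_left _ _
  -- Step 2: `σ' π = σ π`
  have hδπ : σ' π - σ π = 0 := by
    by_contra hne
    have h1 : val (σ' π - σ π) ≠ ⊤ := (val.ne_top_iff).mpr hne
    obtain ⟨b, hb⟩ := WithTop.ne_top_iff_exists.mp h1
    have hbm : m + 1 ≤ b := by
      have := hclose
      unfold Vge at this
      rw [← hb] at this
      exact WithTop.coe_le_coe.mp this
    have hbge : Vge val (σ' π - σ π) b := le_of_eq hb
    -- powers
    set x := σ' π with hx
    set z := σ π with hz
    have hpow : ∀ k : ℕ, ∃ r : M, Vge val r (m * k + 1) ∧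
        x ^ (k + 1) - z ^ (k + 1) = (x - z) * (((k + 1 : ℕ) : M) * z ^ k + r) := by
      intro k
      induction k with
      | zero =>
        refine ⟨0, vge_zero _, ?_⟩
        simp
      | succ k ih =>
        obtain ⟨r, hr, hrk⟩ := ih
        refine ⟨z * r + (x - z) * (((k + 1 : ℕ) : M) * z ^ k + r), ?_, ?_⟩
        · refine Vge.add ?_ ?_
          · have := (vge_of_eq hvπ).mul hr
            refine this.mono ?_
            push_cast
            linarith
          · have h2 : Vge val (((k + 1 : ℕ) : M) * z ^ k + r) (m * k) := by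
              refine Vge.add ?_ (hr.mono (by linarith))
              have := (vge_natCast (val := val) (k + 1)).mul ((vge_of_eq hvπ).pow k)
              refine this.mono ?_
              linarith
            have := hbge.mul h2
            refine this.mono ?_
            push_cast
            linarith
        · have : x ^ (k + 1 + 1) - z ^ (k + 1 + 1)
              = x * (x ^ (k + 1) - z ^ (k + 1)) + (x - z) * z ^ (k + 1) := by ring
          rw [this, hrk]
          push_cast
          ring
    -- write `y = π ^ e * u`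
    obtain ⟨e, he⟩ := Int.eq_ofNat_of_zero_le hy.le
    have he1 : 1 ≤ e := by
      have : (0 : ℤ) < e := by rw [← he]; exact hy
      exact_mod_cast this
    obtain ⟨k, rfl⟩ : ∃ k, e = k + 1 := ⟨e - 1, by omega⟩
    set u : F := y / π ^ (k + 1) with hu
    have hπk0 : π ^ (k + 1) ≠ 0 := pow_ne_zero _ hπ0
    have hu0 : u ≠ 0 := div_ne_zero hy0 hπk0
    have hordu : v.ord u = 0 := by
      rw [hu, div_eq_mul_inv, v.ord_mul hy0 (inv_ne_zero hπk0), v.ord_inv, he,
        ← zpow_natCast, v.ord_zpow, hπ]
      push_cast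
      ring
    have hyu : y = π ^ (k + 1) * u := by
      rw [hu]; field_simp
    have hvu : val (σ u) = ((0 : ℤ) : WithTop ℤ) := by
      rw [hσ u hu0, hordu, mul_zero]
    obtain ⟨r, hr, hrk⟩ := hpow k
    -- valuation of `(k+1) z^k + r`
    have hk1 : val (((k + 1 : ℕ) : M)) = ((0 : ℤ) : WithTop ℤ) := by
      have hne : ((k + 1 : ℕ) : K) ≠ 0 := by exact_mod_cast Nat.succ_ne_zero k
      have := hvalK ((k + 1 : ℕ) : K) hne
      rw [map_natCast, map_natCast] at this
      rw [this]
      rfl
    have hmain : val (((k + 1 : ℕ) : M) * z ^ k + r) = ((m * k : ℤ) : WithTop ℤ) := by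
      refine val_add_eq_of_vge ?_ hr
      rw [val_mul_eq hk1 (val_pow_eq hvπ k)]
      congr 1
      ring
    have hsecond : val ((x ^ (k + 1) - z ^ (k + 1)) * σ u)
        = ((b + m * k : ℤ) : WithTop ℤ) := by
      rw [hrk, val_mul_eq (val_mul_eq hb.symm hmain) hvu]
      congr 1
      ring
    have hfirst : Vge val (x ^ (k + 1) * (σ' u - σ u)) (b + m * k + 1) := by
      have h3 := step1 b hbge (b.toNat) u (Or.inr hordu.ge)
      have h4 : min b ((b.toNat : ℤ) * m) = b := by
        apply min_eq_left
        have hb0 : 0 ≤ b := by linarith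
        rw [Int.toNat_of_nonneg hb0]
        nlinarith
      rw [h4] at h3
      have := ((vge_of_eq hvπ').pow (k + 1)).mul h3
      refine this.mono ?_
      push_cast
      linarith
    have hzero : (x ^ (k + 1) - z ^ (k + 1)) * σ u + x ^ (k + 1) * (σ' u - σ u) = 0 := by
      have h5 : σ' y - σ y = 0 := by rw [hσy, sub_self]
      rw [hyu, map_mul, map_mul, map_pow, map_pow] at h5
      rw [← h5]
      ring
    have := val_add_eq_of_vge hsecond hfirst
    rw [hzero, AddValuation.map_zero] at this
    exact WithTop.top_ne_coe this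
  -- Step 3
  have hO : ∀ g : F, (g = 0 ∨ 0 ≤ v.ord g) → σ' g = σ g := by
    intro g hg
    have : σ' g - σ g = 0 := by
      apply eq_zero_of_forall_vge (val := val)
      intro n
      have hb : Vge val (σ' π - σ π) n := by rw [hδπ]; exact vge_zero _
      have h3 := step1 n hb (n.toNat) g hg
      refine h3.mono ?_
      apply le_min le_rfl
      rcases le_total n 0 with h | h
      · exact le_trans h (mul_nonneg (Int.natCast_nonneg _) hm.le)
      · rw [Int.toNat_of_nonneg h]
        nlinarith
    exact sub_eq_zero.mp this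
  refine RingHom.ext fun f => ?_
  rcases le_total 0 (v.ord f) with h | h
  · exact (hO f (Or.inr h)).symm
  · rcases eq_or_ne f 0 with rfl | hf0
    · simp
    · have h1 : 0 ≤ v.ord f⁻¹ := by rw [v.ord_inv]; omega
      have h2 := hO f⁻¹ (Or.inr h1)
      rw [map_inv₀, map_inv₀] at h2
      exact (inv_injective h2).symm

end Key

end Fermat.Agent.H85
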