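import Mathlib
import Fermat.Agent.H85.KeyLemma

/-!
# At most `e_v` embeddings induce a place `v` (helper85; for GEN-5 of P-GENUS)
-/

set_option autoImplicit false

namespace Fermat.Agent.H85

open AlgebraicCurve Polynomial

section PlaceExt

variable {K F : Type} [Field K] [Field F] [Algebra K F]

theorem ord_eq_zero_of_ord_eq_zero (v w : Place K F)
    (h : ∀ f : F, 0 ≤ v.ord f → 0 ≤ w.ord f) {f : F} (hf : v.ord f = 0) : w.ord f = 0 := by
  have h1 := h f hf.ge
  have h2 := h f⁻¹ (by rw [v.ord_inv, hf]; simp)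
  rw [w.ord_inv] at h2
  omega

/-- A place is determined by its valuation ring (in terms of `ord`). -/
theorem place_ext_of_ord (v w : Place K F) (h : ∀ f : F, 0 ≤ v.ord f → 0 ≤ w.ord f) :
    v = w := by
  obtain ⟨πv, hπv⟩ := exists_ord_eq_one v
  obtain ⟨πw, hπw⟩ := exists_ord_eq_one w
  have hπv0 : πv ≠ 0 := ne_zero_of_ord_ne_zero v (by rw [hπv]; exact one_ne_zero)
  have hπw0 : πw ≠ 0 := ne_zero_of_ord_ne_zero w (by rw [hπw]; exact one_ne_zero)
  have hwπv : 0 ≤ w.ord πv := h πv (by rw [hπv]; exact zero_le_one)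
  -- the converse implication
  have hconv : ∀ f : F, f ≠ 0 → 0 ≤ w.ord f → 0 ≤ v.ord f := by
    intro f hf0 hwf
    by_contra hneg
    rw [not_le] at hneg
    -- g := f * πv ^ (-ord_v f) is a v-unit
    have hg : v.ord (f * πv ^ (-v.ord f)) = 0 := by
      rw [v.ord_mul hf0 (zpow_ne_zero _ hπv0), v.ord_zpow, hπv]
      ring
    have hg' := ord_eq_zero_of_ord_eq_zero v w h hg
    rw [w.ord_mul hf0 (zpow_ne_zero _ hπv0), w.ord_zpow] at hg'
    have hπ0 : w.ord πv = 0 := by nlinarith
    -- now πw * πv ^ (-ord_v πw) is a v-unit but has w-order 1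
    have hk : v.ord (πw * πv ^ (-v.ord πw)) = 0 := by
      rw [v.ord_mul hπw0 (zpow_ne_zero _ hπv0), v.ord_zpow, hπv]
      ring
    have hk' := ord_eq_zero_of_ord_eq_zero v w h hk
    rw [w.ord_mul hπw0 (zpow_ne_zero _ hπv0), w.ord_zpow, hπ0, hπw] at hk'
    simp at hk'
  apply Place.ext
  ext f
  rw [mem_valuationSubring_iff, mem_valuationSubring_iff]
  constructor
  · rintro (rfl | hf)
    · exact Or.inl rfl
    · exact Or.inr (h f hf)
  · rintro (rfl | hf)
    · exact Or.inl rfl
    · rcases eq_or_ne f 0 with rfl | hf0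
      · exact Or.inl rfl
      · exact Or.inr (hconv f hf0 hf)

end PlaceExt

section Prod

variable {M : Type} [Field M] {val : AddValuation M (WithTop ℤ)}

theorem val_prod_eq_zero {ι : Type} (S : Finset ι) (c : ι → M)
    (h : ∀ i ∈ S, val (c i) = 0) : val (∏ i ∈ S, c i) = 0 := by
  classical
  induction S using Finset.induction_on with
  | empty => simp
  | insert a S ha ih =>
    rw [Finset.prod_insert ha, AddValuation.map_mul, h a (Finset.mem_insert_self a S),
      ih (fun i hi => h i (Finset.mem_insert_of_mem hi)), add_zero]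

/-- If `val a = 0` then `Vge a 1` or `val a = 0` dichotomy helper: not `Vge a 1` and `Vge a 0`
gives `val a = 0`. -/
theorem val_eq_zero_of_not_vge {a : M} (h0 : Vge val a 0) (h1 : ¬ Vge val a 1) : val a = 0 := by
  unfold Vge at h0 h1
  rcases h : val a with _ | n
  · rw [h] at h1
    exact absurd le_top h1
  · rw [h] at h0 h1
    have h0' : (0 : ℤ) ≤ n := WithTop.coe_le_coe.mp h0
    have h1' : ¬ ((1 : ℤ) ≤ n) := fun hh => h1 (WithTop.coe_le_coe.mpr hh)
    have : n = 0 := by omega
    rw [this]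
    rfl

end Prod

section Fibre

variable {K F : Type} [Field K] [Field F] [Algebra K F] [IsAlgClosed K] [CharZero K]
variable {M : Type} [Field M] {val : AddValuation M (WithTop ℤ)}

/-- An element `b` of valuation `0` with `val (b ^ e - 1) ≥ 1` is congruent to the image of an
`e`-th root of unity of `K`. -/
theorem exists_root_of_unity_close (ι : K →+* M) (hι : ∀ c : K, c ≠ 0 → val (ι c) = 0)
    (e : ℕ) (he : 0 < e) (b : M) (hb : Vge val b 0) (hbe : Vge val (b ^ e - 1) 1) :
    ∃ ζ ∈ nthRootsFinset e (1 : K), Vge val (b - ι ζ) 1 := by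
  by_contra hcon
  push_neg at hcon
  haveI : NeZero (e : K) := ⟨by exact_mod_cast he.ne'⟩
  obtain ⟨ζ₀, hζ₀⟩ := HasEnoughRootsOfUnity.exists_primitiveRoot K e
  have hprod := X_pow_sub_one_eq_prod he hζ₀
  have h1 : b ^ e - 1 = ∏ ζ ∈ nthRootsFinset e (1 : K), (b - ι ζ) := by
    have := congrArg (Polynomial.eval₂ ι b) hprod
    rw [eval₂_sub, eval₂_pow, eval₂_X, eval₂_one, eval₂_finset_prod] at this
    rw [this]
    refine Finset.prod_congr rfl fun ζ _ => ?_
    rw [eval₂_sub, eval₂_X, eval₂_C]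
  have h2 : val (∏ ζ ∈ nthRootsFinset e (1 : K), (b - ι ζ)) = 0 := by
    refine val_prod_eq_zero _ _ fun ζ hζ => ?_
    refine val_eq_zero_of_not_vge ?_ (hcon ζ hζ)
    refine hb.sub ?_
    have hζ0 : ζ ≠ 0 := by
      rintro rfl
      rw [mem_nthRootsFinset he, zero_pow he.ne'] at hζ
      exact zero_ne_one hζ
    exact vge_of_eq (hι ζ hζ0)
  rw [← h1] at h2
  unfold Vge at hbe
  rw [h2] at hbe
  have : ((1 : ℤ) : WithTop ℤ) ≤ ((0 : ℤ) : WithTop ℤ) := hbe
  have := WithTop.coe_le_coe.mp this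
  omega

/-- **Fibre bound**: at most `e = ord_v y` embeddings (agreeing on constants and on `y`) induce
the place `v` with multiplier `m`. -/
theorem fibre_card_le (v : Place K F) (hdeg : v.deg = 1)
    {I : Type} (σ : I → F →+* M) (σ_inj : Function.Injective σ)
    (σ_const : ∀ (i i' : I) (c : K), σ i (algebraMap K F c) = σ i' (algebraMap K F c))
    (val_const : ∀ (i : I) (c : K), c ≠ 0 → val (σ i (algebraMap K F c)) = 0)
    (y : F) (σ_y : ∀ i i' : I, σ i y = σ i' y) (e : ℕ) (he : 0 < e) (hy : v.ord y = e)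
    (m : ℤ) (hm : 0 < m) (T : Finset I)
    (hT : ∀ i ∈ T, ∀ f : F, f ≠ 0 → val (σ i f) = ((m * v.ord f : ℤ) : WithTop ℤ)) :
    T.card ≤ e := by
  classical
  rcases T.eq_empty_or_nonempty with rfl | ⟨i₀, hi₀⟩
  · simp
  obtain ⟨π, hπ⟩ := exists_ord_eq_one v
  have hπ0 : π ≠ 0 := ne_zero_of_ord_ne_zero v (by rw [hπ]; exact one_ne_zero)
  have hy0 : y ≠ 0 := ne_zero_of_ord_ne_zero v (by rw [hy]; exact_mod_cast he.ne')
  have hva : ∀ i ∈ T, val (σ i π) = ((m : ℤ) : WithTop ℤ) := by
    intro i hi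
    rw [hT i hi π hπ0, hπ, mul_one]
  have ha0 : ∀ i ∈ T, σ i π ≠ 0 := by
    intro i hi h0
    have := hva i hi
    rw [h0, AddValuation.map_zero] at this
    exact WithTop.top_ne_coe this
  -- the unit u = y / π^e
  set u : F := y / π ^ e with hu
  have hπe0 : π ^ e ≠ 0 := pow_ne_zero _ hπ0
  have hu0 : u ≠ 0 := div_ne_zero hy0 hπe0
  have hordu : v.ord u = 0 := by
    rw [hu, div_eq_mul_inv, v.ord_mul hy0 (inv_ne_zero hπe0), v.ord_inv, hy,
      ← zpow_natCast, v.ord_zpow, hπ]
    ring
  have hyu : y = π ^ e * u := by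
    rw [hu]; field_simp
  have hvu : ∀ i ∈ T, val (σ i u) = ((0 : ℤ) : WithTop ℤ) := by
    intro i hi
    rw [hT i hi u hu0, hordu, mul_zero]
  have hσu0 : ∀ i ∈ T, σ i u ≠ 0 := by
    intro i hi h0
    have := hvu i hi
    rw [h0, AddValuation.map_zero] at this
    exact WithTop.top_ne_coe this
  -- σ i u - σ j u has positive valuation
  have hudiff : ∀ i ∈ T, ∀ j ∈ T, Vge val (σ i u - σ j u) 1 := by
    intro i hi j hj
    obtain ⟨c, hc⟩ := exists_const_sub v hdeg (Or.inr hordu.ge : u = 0 ∨ 0 ≤ v.ord u)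
    rcases hc with hc | hc
    · rw [hc, σ_const i j c, sub_self]
      exact vge_zero _
    · have hne : u - algebraMap K F c ≠ 0 := ne_zero_of_ord_ne_zero v hc.ne'
      have e1 : σ i u - σ j u = σ i (u - algebraMap K F c) - σ j (u - algebraMap K F c) := by
        rw [map_sub, map_sub, σ_const i j c]
        ring
      rw [e1]
      have h1 : Vge val (σ i (u - algebraMap K F c)) 1 :=
        (vge_of_eq (hT i hi _ hne)).mono (by nlinarith)
      have h2 : Vge val (σ j (u - algebraMap K F c)) 1 :=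
        (vge_of_eq (hT j hj _ hne)).mono (by nlinarith)
      exact h1.sub h2
  -- normalised elements b i = σ i π / σ i₀ π
  let ι : K →+* M := (σ i₀).comp (algebraMap K F)
  have hι : ∀ c : K, c ≠ 0 → val (ι c) = 0 := fun c hc => val_const i₀ c hc
  have hb0 : ∀ i ∈ T, val (σ i π / σ i₀ π) = ((0 : ℤ) : WithTop ℤ) := by
    intro i hi
    rw [div_eq_mul_inv, AddValuation.map_mul, AddValuation.map_inv, hva i hi, hva i₀ hi₀]
    rw [← WithTop.LinearOrderedAddCommGroup.coe_neg, ← WithTop.coe_add]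
    congr 1
    ring
  have hbe : ∀ i ∈ T, Vge val ((σ i π / σ i₀ π) ^ e - 1) 1 := by
    intro i hi
    have hY : σ i π ^ e * σ i u = σ i₀ π ^ e * σ i₀ u := by
      rw [← map_pow, ← map_mul, ← map_pow, ← map_mul, ← hyu]
      exact σ_y i i₀
    have e1 : (σ i π / σ i₀ π) ^ e - 1 = (σ i₀ u - σ i u) * (σ i u)⁻¹ := by
      have h1 := ha0 i₀ hi₀
      have h2 := hσu0 i hi
      rw [div_pow]
      field_simp
      linear_combination hY
    rw [e1]
    have h3 : Vge val (σ i u)⁻¹ 0 := by
      unfold Vge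
      rw [AddValuation.map_inv, hvu i hi]
      simp
    have := (hudiff i₀ hi₀ i hi).mul h3
    exact this.mono (by omega)
  have hex : ∀ i ∈ T, ∃ ζ ∈ nthRootsFinset e (1 : K), Vge val (σ i π / σ i₀ π - ι ζ) 1 :=
    fun i hi => exists_root_of_unity_close ι hι e he _ (vge_of_eq (hb0 i hi)) (hbe i hi)
  choose! φ hφmem hφ using hex
  calc T.card ≤ (nthRootsFinset e (1 : K)).card := by
        refine Finset.card_le_card_of_injOn φ (fun i hi => hφmem i hi) ?_
        intro i hi j hj hij
        have hi' : i ∈ T := hi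
        have hj' : j ∈ T := hj
        -- b i - b j has positive valuation
        have h1 : Vge val (σ i π / σ i₀ π - σ j π / σ i₀ π) 1 := by
          have := (hφ i hi').sub (hφ j hj')
          rw [hij] at this
          have e2 : σ i π / σ i₀ π - ι (φ j) - (σ j π / σ i₀ π - ι (φ j))
              = σ i π / σ i₀ π - σ j π / σ i₀ π := by ring
          rwa [e2] at this
        have h2 : Vge val (σ i π - σ j π) (m + 1) := by
          have e3 : σ i π - σ j π = σ i₀ π * (σ i π / σ i₀ π - σ j π / σ i₀ π) := by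
            have := ha0 i₀ hi₀
            field_simp
          rw [e3]
          exact (vge_of_eq (hva i₀ hi₀)).mul h1
        have := embedding_rigidity v hdeg (σ j) (σ i) m hm (hT j hj') (hT i hi')
          (fun c => σ_const j i c) (fun c hc => val_const j c hc) π hπ y
          (by rw [hy]; exact_mod_cast he) (σ_y j i) h2
        exact (σ_inj this).symm
    _ ≤ e := by
        unfold nthRootsFinset
        exact le_trans (Multiset.toFinset_card_le _) (card_nthRoots e 1)

end Fibre

end Fermat.Agent.H85
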