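import Mathlib
import Fermat.Agent.H85.FibreBound
import Fermat.Agent.H49.InducedPlace

/-!
# GEN-5 of P-GENUS: local counting (helper85)

`Fermat.Agent.H85.localCounting : Fermat.Agent.H23.LocalCountingStatement`:
the places over the zeros of `y` are in bijection with the orbits of `ε`, every such place is
induced by some `σ i`, and `∑ (e_v - 1) = #I - #orbits`.
-/

set_option autoImplicit false

namespace Fermat.Agent.H85

open AlgebraicCurve

theorem pow_sub_apply_eq_self {α : Type} (ε : Equiv.Perm α) (i : α) {a b : ℕ} (hab : a ≤ b)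
    (h : (ε ^ a) i = (ε ^ b) i) : (ε ^ (b - a)) i = i := by
  have h1 : (ε ^ b) i = (ε ^ a) ((ε ^ (b - a)) i) := by
    rw [← Equiv.Perm.mul_apply, ← pow_add, Nat.add_sub_cancel' hab]
  rw [h1] at h
  exact ((ε ^ a).injective h).symm

theorem localCounting : Fermat.Agent.H23.LocalCountingStatement := by
  intro K F _ _ _ _ _ y L hdeg hfin hsum
  classical
  have he₀ : (0 : ℤ) < L.e₀ := by exact_mod_cast L.e₀_pos
  have hσy0 : ∀ i : L.I, L.σ i y ≠ 0 := by
    intro i h0
    have := L.val_y i
    rw [h0, AddValuation.map_zero] at this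
    exact WithTop.top_ne_coe this
  have hy0 : ∀ _ : L.I, y ≠ 0 := by
    intro i h0
    exact hσy0 i ((congrArg (L.σ i) h0).trans (map_zero _))
  have hex : ∀ i : L.I, ∃ (v : Place K F) (m : ℕ), 0 < m ∧
      ∀ f : F, f ≠ 0 → L.val (L.σ i f) = (((m : ℤ) * v.ord f : ℤ) : WithTop ℤ) := by
    intro i
    refine Fermat.Agent.H49.inducedPlace K F L.M L.val (L.σ i) (L.val_const i) ⟨y, hy0 i, ?_⟩
    rw [L.val_y i]
    intro h0
    have h1 : ((L.e₀ : ℤ) : WithTop ℤ) = ((0 : ℤ) : WithTop ℤ) := h0
    have := WithTop.coe_injective h1
    omega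
  choose pl mu hmu hval using hex
  have hmu' : ∀ i, (0 : ℤ) < mu i := fun i => by exact_mod_cast hmu i
  have hmul : ∀ i, (mu i : ℤ) * (pl i).ord y = L.e₀ := by
    intro i
    have h1 := hval i y (hy0 i)
    rw [L.val_y i] at h1
    exact (WithTop.coe_injective h1).symm
  have hpos : ∀ i, 0 < (pl i).ord y := by
    intro i
    have h1 := hmul i
    have h3 := hmu' i
    by_contra hneg
    rw [not_lt] at hneg
    nlinarith
  -- fibre bound
  have hfib : ∀ v : Place K F, 0 < v.ord y →
      ((Finset.univ.filter (fun i => pl i = v)).card : ℤ) ≤ v.ord y := by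
    intro v hv
    rcases (Finset.univ.filter (fun i => pl i = v)).eq_empty_or_nonempty with h | ⟨i₀, hi₀⟩
    · rw [h]
      simpa using hv.le
    · have hi₀' : pl i₀ = v := (Finset.mem_filter.mp hi₀).2
      have hmueq : ∀ i, pl i = v → (mu i : ℤ) = mu i₀ := by
        intro i hi
        have h1 := hmul i
        have h2 := hmul i₀
        rw [hi] at h1
        rw [hi₀'] at h2
        have : (mu i : ℤ) * v.ord y = mu i₀ * v.ord y := by rw [h1, h2]
        exact mul_right_cancel₀ hv.ne' this
      have := fibre_card_le v (hdeg v) L.σ L.σ_inj L.σ_const L.val_const y L.σ_y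
        (v.ord y).toNat (by omega) (Int.toNat_of_nonneg hv.le).symm (mu i₀ : ℤ) (hmu' i₀)
        (Finset.univ.filter (fun i => pl i = v)) (by
          intro i hi f hf
          have hi' := (Finset.mem_filter.mp hi).2
          rw [hval i f hf, hmueq i hi', hi'])
      omega
  -- counting
  have hcard : (Fintype.card L.I : ℤ)
      = ∑ v ∈ hfin.toFinset, ((Finset.univ.filter (fun i => pl i = v)).card : ℤ) := by
    have := Finset.card_eq_sum_card_fiberwise (s := (Finset.univ : Finset L.I))
      (t := hfin.toFinset) (f := pl) (fun i _ => by simpa using hpos i)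
    rw [← Finset.card_univ, this]
    push_cast
    rfl
  have hsum' : ∑ v ∈ hfin.toFinset, v.ord y = (Fintype.card L.I : ℤ) := by
    rw [← finsum_mem_eq_finite_toFinset_sum]
    exact hsum
  have heq : ∀ v : Place K F, 0 < v.ord y →
      ((Finset.univ.filter (fun i => pl i = v)).card : ℤ) = v.ord y := by
    have h0 : ∑ v ∈ hfin.toFinset,
        (v.ord y - ((Finset.univ.filter (fun i => pl i = v)).card : ℤ)) = 0 := by
      rw [Finset.sum_sub_distrib, hsum', ← hcard, sub_self]
    have h1 := (Finset.sum_eq_zero_iff_of_nonneg (fun v hv => by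
        have := hfib v (by simpa using hv)
        omega)).mp h0
    intro v hv
    have := h1 v (by simpa using hv)
    omega
  have hsurj : ∀ v : Place K F, 0 < v.ord y → ∃ i, pl i = v := by
    intro v hv
    have h1 := heq v hv
    have h2 : 0 < (Finset.univ.filter (fun i => pl i = v)).card := by
      have : (0 : ℤ) < ((Finset.univ.filter (fun i => pl i = v)).card : ℤ) := by
        rw [h1]; exact hv
      exact_mod_cast this
    obtain ⟨i, hi⟩ := Finset.card_pos.mp h2
    exact ⟨i, (Finset.mem_filter.mp hi).2⟩
  refine ⟨fun v hv => ?_, ?_⟩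
  · obtain ⟨i, hi⟩ := hsurj v hv
    exact ⟨i, mu i, hmu i, fun f hf => by rw [hval i f hf, hi]⟩
  · -- invariance of the induced place under ε
    have hinv : ∀ i, pl (L.ε i) = pl i := by
      intro i
      symm
      apply place_ext_of_ord
      intro f hf
      rcases eq_or_ne f 0 with rfl | hf0
      · rw [Place.ord_zero]
      · have h1 := hval (L.ε i) f hf0
        rw [L.val_ε i f, hval i f hf0] at h1
        have h2 := WithTop.coe_injective h1
        have h3 := hmu' i
        have h4 := hmu' (L.ε i)
        by_contra hneg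
        rw [not_le] at hneg
        nlinarith
    have hinvpow : ∀ (n : ℕ) i, pl ((L.ε ^ n) i) = pl i := by
      intro n
      induction n with
      | zero => intro i; simp
      | succ n ih =>
        intro i
        rw [pow_succ', Equiv.Perm.mul_apply, hinv, ih]
    -- periods are divisible by the ramification index
    have hper : ∀ i (k : ℕ), (L.ε ^ k) i = i → ((pl i).ord y) ∣ (k : ℤ) := by
      intro i k hk
      obtain ⟨π, hπ⟩ := exists_ord_eq_one (pl i)
      have hπ0 : π ≠ 0 := ne_zero_of_ord_ne_zero (pl i) (by rw [hπ]; exact one_ne_zero)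
      obtain ⟨m', hm'⟩ := L.val_dvd i k hk π hπ0
      rw [hval i π hπ0, hπ, mul_one] at hm'
      have h1 : (mu i : ℤ) = ((L.e₀ / Nat.gcd L.e₀ k : ℕ) : ℤ) * m' := WithTop.coe_injective hm'
      have hg : ((L.e₀ / Nat.gcd L.e₀ k : ℕ) : ℤ) * (Nat.gcd L.e₀ k : ℤ) = L.e₀ := by
        exact_mod_cast Nat.div_mul_cancel (Nat.gcd_dvd_left L.e₀ k)
      have hq0 : ((L.e₀ / Nat.gcd L.e₀ k : ℕ) : ℤ) ≠ 0 := by
        intro h0
        rw [h0, zero_mul] at hg
        omega
      have h2 := hmul i
      have h3 : (Nat.gcd L.e₀ k : ℤ) = m' * (pl i).ord y := by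
        apply mul_left_cancel₀ hq0
        rw [hg, ← h2, h1]
        ring
      have h4 : (pl i).ord y ∣ (Nat.gcd L.e₀ k : ℤ) := ⟨m', by rw [h3]; ring⟩
      exact h4.trans (by exact_mod_cast Nat.gcd_dvd_right L.e₀ k)
    -- two indices with the same place are in the same cycle
    have horb : ∀ i j, pl i = pl j → Equiv.Perm.SameCycle L.ε i j := by
      intro i j hij
      have hepos : 0 < (pl i).ord y := hpos i
      have hinj : Set.InjOn (fun a : ℕ => (L.ε ^ a) i)
          (Finset.range ((pl i).ord y).toNat : Set ℕ) := by
        intro a ha b hb hab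
        have ha' : a < ((pl i).ord y).toNat := by simpa using ha
        have hb' : b < ((pl i).ord y).toNat := by simpa using hb
        have hab' : (L.ε ^ a) i = (L.ε ^ b) i := hab
        rcases le_total a b with hle | hle
        · have h1 := pow_sub_apply_eq_self L.ε i hle hab'
          have h2 := hper i (b - a) h1
          by_contra hne
          have h3 : (0 : ℤ) < ((b - a : ℕ) : ℤ) := by
            have : 0 < b - a := by omega
            exact_mod_cast this
          have := Int.le_of_dvd h3 h2
          omega
        · have h1 := pow_sub_apply_eq_self L.ε i hle hab'.symm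
          have h2 := hper i (a - b) h1
          by_contra hne
          have h3 : (0 : ℤ) < ((a - b : ℕ) : ℤ) := by
            have : 0 < a - b := by omega
            exact_mod_cast this
          have := Int.le_of_dvd h3 h2
          omega
      have himg : (Finset.range ((pl i).ord y).toNat).image (fun a : ℕ => (L.ε ^ a) i)
          = Finset.univ.filter (fun i' => pl i' = pl i) := by
        apply Finset.eq_of_subset_of_card_le
        · intro x hx
          obtain ⟨a, _, rfl⟩ := Finset.mem_image.mp hx
          simp [hinvpow a i]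
        · rw [Finset.card_image_of_injOn hinj, Finset.card_range]
          have := heq (pl i) hepos
          omega
      have hj : j ∈ Finset.univ.filter (fun i' => pl i' = pl i) := by simp [hij]
      rw [← himg] at hj
      obtain ⟨a, _, ha⟩ := Finset.mem_image.mp hj
      exact ⟨(a : ℤ), by rw [zpow_natCast]; exact ha⟩
    -- the bijection orbits ≃ places over the zeros of y
    let g : Quotient (Equiv.Perm.SameCycle.setoid L.ε) → {v : Place K F | 0 < v.ord y} :=
      Quotient.lift (fun i => (⟨pl i, hpos i⟩ : {v : Place K F | 0 < v.ord y})) (by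
        intro i j hij
        obtain ⟨a, ha⟩ := (hij : Equiv.Perm.SameCycle L.ε i j).exists_nat_pow_eq
        apply Subtype.ext
        show pl i = pl j
        rw [← ha, hinvpow])
    have hg_bij : Function.Bijective g := by
      constructor
      · intro q₁ q₂
        refine Quotient.inductionOn₂ q₁ q₂ ?_
        intro i j h
        apply Quotient.sound
        exact horb i j (congrArg Subtype.val h)
      · rintro ⟨v, hv⟩
        obtain ⟨i, hi⟩ := hsurj v hv
        exact ⟨Quotient.mk _ i, Subtype.ext hi⟩
    have hnum : Fermat.Agent.H23.numOrbits L.ε = hfin.toFinset.card := by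
      unfold Fermat.Agent.H23.numOrbits
      rw [Nat.card_congr (Equiv.ofBijective g hg_bij), Nat.card_coe_set_eq,
        Set.ncard_eq_toFinset_card _ hfin]
    rw [finsum_mem_eq_finite_toFinset_sum _ hfin, Finset.sum_sub_distrib, hsum', hnum]
    simp

end Fermat.Agent.H85
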