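import Mathlib
import Fermat.Agent.H23.BlueprintAn
import Fermat.Agent.H96.PolyInJ

/-!
# GEN-16 (second copy, helper85): nice functions and polynomials in `j`

A function on the upper half plane is *nice* if it is holomorphic and of at most exponential
growth at `i∞`.  Nice functions form a subring; a nice `SL(2,ℤ)`-invariant function is a
polynomial in `j`.
-/

set_option autoImplicit false

noncomputable section

open UpperHalfPlane ModularForm MatrixGroups Filter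
open scoped Manifold Topology

namespace Fermat.Agent.H85

/-- At most exponential growth at `i∞`. -/
def ExpGrowth (f : ℍ → ℂ) : Prop :=
  ∃ (M : ℕ) (C Y : ℝ), 0 ≤ C ∧ ∀ z : ℍ, Y ≤ z.im →
    ‖f z‖ ≤ C * Real.exp (2 * Real.pi * M * z.im)

theorem expGrowth_const (c : ℂ) : ExpGrowth (fun _ => c) :=
  ⟨0, ‖c‖, 0, norm_nonneg _, fun z _ => by simp⟩

theorem exp_mono_nat {M₁ M₂ : ℕ} (h : M₁ ≤ M₂) (z : ℍ) :
    Real.exp (2 * Real.pi * M₁ * z.im) ≤ Real.exp (2 * Real.pi * M₂ * z.im) := by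
  apply Real.exp_le_exp.mpr
  have hpi : 0 < Real.pi := Real.pi_pos
  have him : 0 < z.im := z.im_pos
  have hM : (M₁ : ℝ) ≤ (M₂ : ℝ) := by exact_mod_cast h
  have : 0 ≤ 2 * Real.pi * z.im := by positivity
  nlinarith

theorem ExpGrowth.add {f g : ℍ → ℂ} (hf : ExpGrowth f) (hg : ExpGrowth g) :
    ExpGrowth (f + g) := by
  obtain ⟨M₁, C₁, Y₁, hC₁, h₁⟩ := hf
  obtain ⟨M₂, C₂, Y₂, hC₂, h₂⟩ := hg
  refine ⟨max M₁ M₂, C₁ + C₂, max Y₁ Y₂, add_nonneg hC₁ hC₂, fun z hz => ?_⟩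
  have hz1 : Y₁ ≤ z.im := le_trans (le_max_left _ _) hz
  have hz2 : Y₂ ≤ z.im := le_trans (le_max_right _ _) hz
  have e1 := exp_mono_nat (le_max_left M₁ M₂) z
  have e2 := exp_mono_nat (le_max_right M₁ M₂) z
  calc ‖(f + g) z‖ ≤ ‖f z‖ + ‖g z‖ := norm_add_le _ _
    _ ≤ C₁ * Real.exp (2 * Real.pi * M₁ * z.im) + C₂ * Real.exp (2 * Real.pi * M₂ * z.im) :=
        add_le_add (h₁ z hz1) (h₂ z hz2)
    _ ≤ C₁ * Real.exp (2 * Real.pi * (max M₁ M₂ : ℕ) * z.im) +
          C₂ * Real.exp (2 * Real.pi * (max M₁ M₂ : ℕ) * z.im) :=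
        add_le_add (mul_le_mul_of_nonneg_left e1 hC₁) (mul_le_mul_of_nonneg_left e2 hC₂)
    _ = (C₁ + C₂) * Real.exp (2 * Real.pi * (max M₁ M₂ : ℕ) * z.im) := by ring

theorem ExpGrowth.mul {f g : ℍ → ℂ} (hf : ExpGrowth f) (hg : ExpGrowth g) :
    ExpGrowth (f * g) := by
  obtain ⟨M₁, C₁, Y₁, hC₁, h₁⟩ := hf
  obtain ⟨M₂, C₂, Y₂, hC₂, h₂⟩ := hg
  refine ⟨M₁ + M₂, C₁ * C₂, max Y₁ Y₂, mul_nonneg hC₁ hC₂, fun z hz => ?_⟩
  have hz1 : Y₁ ≤ z.im := le_trans (le_max_left _ _) hz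
  have hz2 : Y₂ ≤ z.im := le_trans (le_max_right _ _) hz
  rw [Pi.mul_apply, norm_mul]
  calc ‖f z‖ * ‖g z‖
      ≤ (C₁ * Real.exp (2 * Real.pi * M₁ * z.im)) * (C₂ * Real.exp (2 * Real.pi * M₂ * z.im)) :=
        mul_le_mul (h₁ z hz1) (h₂ z hz2) (norm_nonneg _)
          (mul_nonneg hC₁ (Real.exp_pos _).le)
    _ = C₁ * C₂ * Real.exp (2 * Real.pi * (M₁ + M₂ : ℕ) * z.im) := by
        have : Real.exp (2 * Real.pi * (M₁ + M₂ : ℕ) * z.im)
            = Real.exp (2 * Real.pi * M₁ * z.im) * Real.exp (2 * Real.pi * M₂ * z.im) := by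
          rw [← Real.exp_add]
          congr 1
          push_cast
          ring
        rw [this]
        ring

theorem ExpGrowth.neg {f : ℍ → ℂ} (hf : ExpGrowth f) : ExpGrowth (-f) := by
  obtain ⟨M, C, Y, hC, h⟩ := hf
  exact ⟨M, C, Y, hC, fun z hz => by rw [Pi.neg_apply, norm_neg]; exact h z hz⟩

/-- The subring of nice functions: holomorphic and of exponential growth at `i∞`. -/
def niceSubring : Subring (ℍ → ℂ) where
  carrier := {f | MDiff f ∧ ExpGrowth f}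
  mul_mem' := fun ha hb => ⟨ha.1.mul hb.1, ha.2.mul hb.2⟩
  one_mem' := ⟨mdifferentiable_const, expGrowth_const 1⟩
  add_mem' := fun ha hb => ⟨ha.1.add hb.1, ha.2.add hb.2⟩
  zero_mem' := ⟨mdifferentiable_const, expGrowth_const 0⟩
  neg_mem' := fun ha => ⟨ha.1.neg, ha.2.neg⟩

theorem mem_niceSubring {f : ℍ → ℂ} : f ∈ niceSubring ↔ MDiff f ∧ ExpGrowth f := Iff.rfl

/-- Exponential decay of the discriminant. -/
theorem exists_discriminant_bound :
    ∃ (c A : ℝ), 0 ≤ c ∧ ∀ z : ℍ, A ≤ z.im →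
      ‖discriminant z‖ ≤ c * Real.exp (-(2 * Real.pi * z.im)) := by
  have h := CuspFormClass.exp_decay_atImInfty (h := 1) CuspForm.discriminant one_pos
    one_mem_strictPeriods_SL
  rw [Asymptotics.isBigO_iff] at h
  obtain ⟨c, hc⟩ := h
  obtain ⟨A, hA⟩ := (atImInfty_mem _).mp hc
  refine ⟨|c|, A, abs_nonneg _, fun z hz => ?_⟩
  have h1 := hA z hz
  simp only [Set.mem_setOf_eq] at h1
  have h2 : ‖Real.exp (-2 * Real.pi * z.im / 1)‖ = Real.exp (-(2 * Real.pi * z.im)) := by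
    rw [Real.norm_eq_abs, abs_of_pos (Real.exp_pos _)]
    congr 1
    ring
  rw [h2] at h1
  have h3 : (CuspForm.discriminant : ℍ → ℂ) z = discriminant z := rfl
  rw [h3] at h1
  exact h1.trans (mul_le_mul_of_nonneg_right (le_abs_self c) (Real.exp_pos _).le)

/-- `Δ ^ M * f` is bounded at `i∞` if `f` grows at most like `e^{2π M Im z}`. -/
theorem isBoundedAtImInfty_discriminant_pow_mul {f : ℍ → ℂ} (M : ℕ) (C Y : ℝ)
    (hf : ∀ z : ℍ, Y ≤ z.im → ‖f z‖ ≤ C * Real.exp (2 * Real.pi * M * z.im)) :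
    IsBoundedAtImInfty (fun z => discriminant z ^ M * f z) := by
  obtain ⟨c, A, hc, hΔ⟩ := exists_discriminant_bound
  rw [isBoundedAtImInfty_iff]
  refine ⟨c ^ M * C, max A Y, fun z hz => ?_⟩
  have hz1 : A ≤ z.im := le_trans (le_max_left _ _) hz
  have hz2 : Y ≤ z.im := le_trans (le_max_right _ _) hz
  rw [norm_mul, norm_pow]
  have h1 : ‖discriminant z‖ ^ M ≤ (c * Real.exp (-(2 * Real.pi * z.im))) ^ M :=
    pow_le_pow_left₀ (norm_nonneg _) (hΔ z hz1) M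
  have h2 := hf z hz2
  have hC : 0 ≤ C * Real.exp (2 * Real.pi * M * z.im) := (norm_nonneg _).trans h2
  calc ‖discriminant z‖ ^ M * ‖f z‖
      ≤ (c * Real.exp (-(2 * Real.pi * z.im))) ^ M * (C * Real.exp (2 * Real.pi * M * z.im)) :=
        mul_le_mul h1 h2 (norm_nonneg _) (pow_nonneg (mul_nonneg hc (Real.exp_pos _).le) M)
    _ = c ^ M * C := by
        rw [mul_pow, ← Real.exp_nat_mul]
        have : Real.exp (↑M * -(2 * Real.pi * z.im)) * Real.exp (2 * Real.pi * M * z.im) = 1 := by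
          rw [← Real.exp_add]
          have : ↑M * -(2 * Real.pi * z.im) + 2 * Real.pi * ↑M * z.im = 0 := by ring
          rw [this, Real.exp_zero]
        calc c ^ M * Real.exp (↑M * -(2 * Real.pi * z.im)) * (C * Real.exp (2 * Real.pi * M * z.im))
            = c ^ M * C * (Real.exp (↑M * -(2 * Real.pi * z.im))
                * Real.exp (2 * Real.pi * M * z.im)) := by ring
          _ = c ^ M * C := by rw [this, mul_one]

/-- A nice `SL(2,ℤ)`-invariant function is a polynomial in `j`. -/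
theorem exists_polynomial_jfun_of_nice {f : ℍ → ℂ} (hf : f ∈ niceSubring)
    (hinv : ∀ (γ : SL(2, ℤ)) (z : ℍ), f (γ • z) = f z) :
    ∃ P : Polynomial ℂ, ∀ z, f z = P.eval (Fermat.Agent.H23.jfun z) := by
  obtain ⟨hmd, M, C, Y, -, hgr⟩ := hf
  obtain ⟨P, -, hP⟩ := Fermat.Agent.H96.exists_polynomial_j hmd hinv M
    (isBoundedAtImInfty_discriminant_pow_mul M C Y hgr)
  exact ⟨P, fun z => hP z⟩

end Fermat.Agent.H85

end
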