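import Mathlib
import Fermat.Agent.H85.Gen16Nice

/-!
# GEN-16 (second copy, helper85): the coset product polynomial

For a subgroup `Γ` of finite index in `SL(2,ℤ)` and a `Γ`-invariant function `h` on the upper
half plane, the polynomial `∏_{γΓ} (X - h ∘ γ⁻¹)` has `SL(2,ℤ)`-invariant coefficients, is monic
of degree `[SL(2,ℤ) : Γ]`, and vanishes at `h`.
-/

set_option autoImplicit false

noncomputable section

open UpperHalfPlane MatrixGroups Polynomial
open scoped Manifold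

namespace Fermat.Agent.H85

variable (Γ : Subgroup SL(2, ℤ))

/-- The translate of `h` by the inverse of a representative of a left coset. -/
def cosetTw (h : ℍ → ℂ) (x : SL(2, ℤ) ⧸ Γ) : ℍ → ℂ :=
  fun z => h ((Quotient.out x)⁻¹ • z)

variable {Γ}

theorem cosetTw_mk {h : ℍ → ℂ} (hinv : ∀ β ∈ Γ, ∀ z, h (β • z) = h z) (g : SL(2, ℤ)) (z : ℍ) :
    cosetTw Γ h (g : SL(2, ℤ) ⧸ Γ) z = h (g⁻¹ • z) := by
  obtain ⟨β, hβ⟩ := QuotientGroup.mk_out_eq_mul Γ g
  unfold cosetTw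
  rw [hβ, mul_inv_rev, mul_smul]
  exact hinv _ (Γ.inv_mem β.2) _

theorem cosetTw_smul {h : ℍ → ℂ} (hinv : ∀ β ∈ Γ, ∀ z, h (β • z) = h z) (g : SL(2, ℤ))
    (x : SL(2, ℤ) ⧸ Γ) (z : ℍ) :
    cosetTw Γ h x (g • z) = cosetTw Γ h (g⁻¹ • x) z := by
  induction x using QuotientGroup.induction_on with
  | H a =>
    rw [MulAction.Quotient.smul_mk, cosetTw_mk hinv, cosetTw_mk hinv, smul_eq_mul, mul_inv_rev,
      inv_inv, mul_smul]

theorem mdiff_comp_smul_SL {f : ℍ → ℂ} (hf : MDiff f) (γ : SL(2, ℤ)) :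
    MDiff (fun z : ℍ => f (γ • z)) := by
  have h1 : MDiff (fun z : ℍ => ((γ : GL (Fin 2) ℝ)) • z) :=
    mdifferentiable_smul (g := (γ : GL (Fin 2) ℝ)) (by simp)
  exact hf.comp h1

theorem cosetTw_mem_nice {h : ℍ → ℂ} (hmd : MDiff h)
    (hgr : ∀ γ : SL(2, ℤ), ExpGrowth (fun z => h (γ • z))) (x : SL(2, ℤ) ⧸ Γ) :
    cosetTw Γ h x ∈ niceSubring :=
  ⟨mdiff_comp_smul_SL hmd _, hgr _⟩

variable [Γ.FiniteIndex]

/-- The (classical) fintype structure on the coset space; only a local instance. -/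
def cosetFintype : Fintype (SL(2, ℤ) ⧸ Γ) := Fintype.ofFinite _

attribute [local instance] cosetFintype

variable (Γ)

/-- The coset product polynomial at a point `z`. -/
def cosetPoly (h : ℍ → ℂ) (z : ℍ) : ℂ[X] :=
  ∏ x : SL(2, ℤ) ⧸ Γ, (X - C (cosetTw Γ h x z))

variable {Γ}

theorem cosetPoly_monic (h : ℍ → ℂ) (z : ℍ) : (cosetPoly Γ h z).Monic :=
  monic_prod_of_monic _ _ fun _ _ => monic_X_sub_C _

theorem cosetPoly_natDegree (h : ℍ → ℂ) (z : ℍ) :
    (cosetPoly Γ h z).natDegree = Nat.card (SL(2, ℤ) ⧸ Γ) := by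
  unfold cosetPoly
  rw [natDegree_prod_of_monic _ _ fun _ _ => monic_X_sub_C _]
  simp [Nat.card_eq_fintype_card]

theorem cosetPoly_smul {h : ℍ → ℂ} (hinv : ∀ β ∈ Γ, ∀ z, h (β • z) = h z) (g : SL(2, ℤ))
    (z : ℍ) : cosetPoly Γ h (g • z) = cosetPoly Γ h z := by
  unfold cosetPoly
  have e : ∀ x : SL(2, ℤ) ⧸ Γ, (X - C (cosetTw Γ h x (g • z)) : ℂ[X])
      = (fun y => (X - C (cosetTw Γ h y z) : ℂ[X]))
          ((MulAction.toPerm g⁻¹ : Equiv.Perm (SL(2, ℤ) ⧸ Γ)) x) := by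
    intro x
    simp only [MulAction.toPerm_apply]
    rw [cosetTw_smul hinv]
  rw [Finset.prod_congr rfl fun x _ => e x]
  exact Equiv.prod_comp (MulAction.toPerm g⁻¹ : Equiv.Perm (SL(2, ℤ) ⧸ Γ))
    (fun y => (X - C (cosetTw Γ h y z) : ℂ[X]))

theorem cosetPoly_eval_self {h : ℍ → ℂ} (hinv : ∀ β ∈ Γ, ∀ z, h (β • z) = h z) (z : ℍ) :
    (cosetPoly Γ h z).eval (h z) = 0 := by
  unfold cosetPoly
  rw [eval_prod]
  refine Finset.prod_eq_zero (Finset.mem_univ ((1 : SL(2, ℤ)) : SL(2, ℤ) ⧸ Γ)) ?_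
  rw [eval_sub, eval_X, eval_C, cosetTw_mk hinv, inv_one, one_smul, sub_self]

/-- The coefficient functions of the coset product polynomial are nice. -/
theorem cosetPoly_coeff_mem_nice {h : ℍ → ℂ} (hmd : MDiff h)
    (hgr : ∀ γ : SL(2, ℤ), ExpGrowth (fun z => h (γ • z))) (k : ℕ) :
    (fun z => (cosetPoly Γ h z).coeff k) ∈ niceSubring := by
  classical
  let QA : Polynomial niceSubring :=
    ∏ x : SL(2, ℤ) ⧸ Γ, (X - C ⟨cosetTw Γ h x, cosetTw_mem_nice hmd hgr x⟩)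
  have key : ∀ z : ℍ, cosetPoly Γ h z
      = QA.map ((Pi.evalRingHom (fun _ : ℍ => ℂ) z).comp niceSubring.subtype) := by
    intro z
    unfold cosetPoly
    rw [Polynomial.map_prod]
    refine Finset.prod_congr rfl fun x _ => ?_
    rw [Polynomial.map_sub, Polynomial.map_X, Polynomial.map_C]
    rfl
  have e : (fun z => (cosetPoly Γ h z).coeff k) = ((QA.coeff k : niceSubring) : ℍ → ℂ) := by
    funext z
    rw [key z, Polynomial.coeff_map]
    rfl
  rw [e]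
  exact (QA.coeff k).2

theorem cosetPoly_coeff_smul {h : ℍ → ℂ} (hinv : ∀ β ∈ Γ, ∀ z, h (β • z) = h z) (k : ℕ)
    (g : SL(2, ℤ)) (z : ℍ) :
    (cosetPoly Γ h (g • z)).coeff k = (cosetPoly Γ h z).coeff k := by
  rw [cosetPoly_smul hinv]

/-- **Norm polynomial relation**: a holomorphic `Γ`-invariant function `h`, all of whose
translates have exponential growth at `i∞`, satisfies a monic polynomial relation of degree
`μ = [SL(2,ℤ) : Γ]` with coefficients polynomials in `j`. -/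
theorem exists_poly_relation {h : ℍ → ℂ} (hmd : MDiff h)
    (hinv : ∀ β ∈ Γ, ∀ z, h (β • z) = h z)
    (hgr : ∀ γ : SL(2, ℤ), ExpGrowth (fun z => h (γ • z))) :
    ∃ P : ℕ → Polynomial ℂ, P (Nat.card (SL(2, ℤ) ⧸ Γ)) = 1 ∧
      ∀ z : ℍ, ∑ k ∈ Finset.range (Nat.card (SL(2, ℤ) ⧸ Γ) + 1),
        (P k).eval (Fermat.Agent.H23.jfun z) * h z ^ k = 0 := by
  classical
  have hex : ∀ k : ℕ, ∃ P : Polynomial ℂ, ∀ z,
      (cosetPoly Γ h z).coeff k = P.eval (Fermat.Agent.H23.jfun z) := fun k =>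
    exists_polynomial_jfun_of_nice (cosetPoly_coeff_mem_nice hmd hgr k)
      (fun g z => cosetPoly_coeff_smul hinv k g z)
  choose P hP using hex
  refine ⟨fun k => if k = Nat.card (SL(2, ℤ) ⧸ Γ) then 1 else P k, by simp, fun z => ?_⟩
  have h0 := cosetPoly_eval_self hinv z
  rw [eval_eq_sum_range, cosetPoly_natDegree] at h0
  rw [← h0]
  refine Finset.sum_congr rfl fun k _ => ?_
  congr 1
  beta_reduce
  by_cases hk : k = Nat.card (SL(2, ℤ) ⧸ Γ)
  · rw [if_pos hk, eval_one, hk, ← cosetPoly_natDegree h z]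
    exact ((cosetPoly_monic h z).coeff_natDegree).symm
  · rw [if_neg hk, hP]

end Fermat.Agent.H85

end
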