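import Mathlib
import Fermat.Agent.H85.Gen16Coset
import Fermat.Agent.H44.Gen11.Core
import Fermat.Agent.H82.CuspGrowth
import Fermat.Agent.H69.DegreeReduction
import Fermat.Agent.H69.CoeffMapIndep

/-!
# GEN-16 (second copy, helper85): degree of the modular equation

Every element of `Rsub N` is a root of a nonzero polynomial of degree at most
`[SL(2,ℤ) : Γ₀(N)]` over `ℚ̄(j)`; hence `DegreeStatement N`.
-/

set_option autoImplicit false

noncomputable section

open UpperHalfPlane MatrixGroups Polynomial IntermediateField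
open scoped Manifold

namespace Fermat.Agent.H85

open Fermat.Agent.H23 Fermat.Agent.H44


section

variable (N : ℕ) [NeZero N]

/-- `j` as an element of `Rsub N`. -/
def jRsub : ↥(Rsub N) := ⟨jBar N, Fermat.Agent.H69.jBar_mem_Rsub N⟩

theorem scaleH_one (z : ℍ) : scaleH 1 z = z := by
  apply UpperHalfPlane.ext
  simp [scaleH]

theorem gen11Theta_jRsub : gen11Theta N (jRsub N) = jfun := by
  have h1 : jBarD N 1 (one_dvd N) ∈ Rsub N := by
    rw [Fermat.Agent.H69.jBarD_one_eq]
    exact Fermat.Agent.H69.jBar_mem_Rsub N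
  have h2 := gen11Theta_jBarD N 1 (one_dvd N) h1
  have e : (⟨jBarD N 1 (one_dvd N), h1⟩ : ↥(Rsub N)) = jRsub N :=
    Subtype.ext (Fermat.Agent.H69.jBarD_one_eq N)
  rw [e] at h2
  rw [h2]
  funext z
  rw [scaleH_one]

theorem gen11Theta_invariant (r : ↥(Rsub N)) (β : SL(2, ℤ))
    (hβ : β ∈ CongruenceSubgroup.Gamma0 N) (z : ℍ) :
    gen11Theta N r (β • z) = gen11Theta N r z :=
  Fermat.Agent.H82.cg_theta_invariant N gen11Iota (gen11Theta N) (gen11Theta_algebraMap N)
    (fun d hd hdN h => by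
      have := hd
      exact gen11Theta_jBarD N d hdN h) r β hβ z

theorem gen11Theta_expGrowth (r : ↥(Rsub N)) (γ : SL(2, ℤ)) :
    ExpGrowth (fun z => gen11Theta N r (γ • z)) :=
  Fermat.Agent.H82.cg_theta_growth N gen11Iota (gen11Theta N) (gen11Theta_algebraMap N)
    (fun d hd hdN h => by
      have := hd
      exact gen11Theta_jBarD N d hdN h) r γ

/-- Relation transfer for a finset-indexed family. -/
theorem gen11Theta_transfer_finset {I : Type} (s : Finset I) (c : I → ℂ) (x : I → ↥(Rsub N))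
    (h : (∑ i ∈ s, c i • gen11Theta N (x i)) = 0) :
    ∑ i ∈ s, HahnSeries.C (c i) * ModularCurve.coeffMap gen11Iota
      (((x i : ↥(ModularCurve.modularFunctionFieldBar N)) : LaurentSeries (AlgebraicClosure ℚ))) = 0 := by
  have h1 : LaurentRel (∑ i ∈ s, c i • gen11Theta N (x i))
      (∑ i ∈ s, c i • gen11PhiR N (x i)) :=
    LaurentRel.sum _ (fun i _ => (gen11Theta_rel N (x i)).smul (c i))
  rw [h] at h1
  have h2 := h1.unique_right laurentRel_zero
  rw [← h2]
  refine Finset.sum_congr rfl fun i _ => ?_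
  rw [HahnSeries.C_mul_eq_smul]
  rfl

/-- The complex polynomial relation satisfied by `Θ r`. -/
theorem exists_complex_relation (r : ↥(Rsub N)) :
    ∃ (D : ℕ) (c : ℕ × ℕ → ℂ),
      c (Nat.card (SL(2, ℤ) ⧸ CongruenceSubgroup.Gamma0 N), 0) = 1 ∧
      (∑ i ∈ Finset.range (Nat.card (SL(2, ℤ) ⧸ CongruenceSubgroup.Gamma0 N) + 1)
          ×ˢ Finset.range (D + 1),
        c i • gen11Theta N (jRsub N ^ i.2 * r ^ i.1)) = 0 := by
  classical
  obtain ⟨P, hPμ, hP⟩ := exists_poly_relation (Γ := CongruenceSubgroup.Gamma0 N)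
    (gen11Theta_mdifferentiable N r) (fun β hβ z => gen11Theta_invariant N r β hβ z)
    (fun γ => gen11Theta_expGrowth N r γ)
  set μ := Nat.card (SL(2, ℤ) ⧸ CongruenceSubgroup.Gamma0 N) with hμ
  set D := (Finset.range (μ + 1)).sup (fun k => (P k).natDegree) with hD
  refine ⟨D, fun i => (P i.1).coeff i.2, ?_, ?_⟩
  · show (P μ).coeff 0 = 1
    rw [hPμ, coeff_one_zero]
  · funext z
    rw [Finset.sum_apply, Pi.zero_apply, Finset.sum_product, ← hP z]
    refine Finset.sum_congr rfl fun k hk => ?_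
    have hdeg : (P k).natDegree < D + 1 :=
      Nat.lt_succ_of_le (Finset.le_sup (f := fun k => (P k).natDegree) hk)
    rw [eval_eq_sum_range' hdeg, Finset.sum_mul]
    refine Finset.sum_congr rfl fun a _ => ?_
    rw [Pi.smul_apply, map_mul, map_pow, map_pow, gen11Theta_jRsub, Pi.mul_apply, Pi.pow_apply,
      Pi.pow_apply, smul_eq_mul]
    ring

omit [NeZero N] in
theorem coe_algebraMap_FN (a : (AlgebraicClosure ℚ)) :
    ((algebraMap (AlgebraicClosure ℚ) ↥(ModularCurve.modularFunctionFieldBar N) a : ↥(ModularCurve.modularFunctionFieldBar N)) : LaurentSeries (AlgebraicClosure ℚ)) = HahnSeries.C a := by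
  have h : ((algebraMap (AlgebraicClosure ℚ) ↥(ModularCurve.modularFunctionFieldBar N) a : ↥(ModularCurve.modularFunctionFieldBar N)) : LaurentSeries (AlgebraicClosure ℚ))
      = algebraMap (AlgebraicClosure ℚ) (LaurentSeries (AlgebraicClosure ℚ)) a := rfl
  rw [h, ModularCurve.algebraMap_laurentSeries_eq_single]
  rfl

/-- The `ℚ̄`-linear relation among the `j^a r^k`. -/
theorem exists_rational_relation (r : ↥(Rsub N)) :
    ∃ (D : ℕ) (a : ℕ × ℕ → (AlgebraicClosure ℚ)),
      (∃ i ∈ Finset.range (Nat.card (SL(2, ℤ) ⧸ CongruenceSubgroup.Gamma0 N) + 1)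
          ×ˢ Finset.range (D + 1), a i ≠ 0) ∧
      (∑ i ∈ Finset.range (Nat.card (SL(2, ℤ) ⧸ CongruenceSubgroup.Gamma0 N) + 1)
          ×ˢ Finset.range (D + 1),
        algebraMap (AlgebraicClosure ℚ) ↥(ModularCurve.modularFunctionFieldBar N) (a i) * (jBar N ^ i.2 * (r : ↥(ModularCurve.modularFunctionFieldBar N)) ^ i.1)) = 0 := by
  classical
  obtain ⟨D, c, hc1, hrel⟩ := exists_complex_relation N r
  set μ := Nat.card (SL(2, ℤ) ⧸ CongruenceSubgroup.Gamma0 N) with hμ
  set s := Finset.range (μ + 1) ×ˢ Finset.range (D + 1) with hs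
  have h1 := gen11Theta_transfer_finset N s c (fun i => jRsub N ^ i.2 * r ^ i.1) hrel
  refine ⟨D, ?_⟩
  by_contra hno
  push Not at hno
  have hmem : ((μ, 0) : ℕ × ℕ) ∈ s := by
    rw [hs, Finset.mem_product]
    exact ⟨Finset.mem_range.mpr (Nat.lt_succ_self μ), Finset.mem_range.mpr (Nat.succ_pos D)⟩
  have h0 := Fermat.Agent.H69.coeffMap_rel_descent gen11Iota s
    (fun i => (((jRsub N ^ i.2 * r ^ i.1 : ↥(Rsub N)) : ↥(ModularCurve.modularFunctionFieldBar N)) : LaurentSeries (AlgebraicClosure ℚ))) c h1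
    (fun a ha i hi => by
      by_contra hne
      refine hno a ⟨i, hi, hne⟩ ?_
      apply Subtype.ext
      have e : ((∑ i ∈ s, algebraMap (AlgebraicClosure ℚ)
            ↥(ModularCurve.modularFunctionFieldBar N) (a i) * (jBar N ^ i.2 * (r : ↥(ModularCurve.modularFunctionFieldBar N)) ^ i.1) :
            ↥(ModularCurve.modularFunctionFieldBar N)) : LaurentSeries (AlgebraicClosure ℚ))
          = ∑ i ∈ s, HahnSeries.C (a i) *
              (((jRsub N ^ i.2 * r ^ i.1 : ↥(Rsub N)) :
                ↥(ModularCurve.modularFunctionFieldBar N)) : LaurentSeries (AlgebraicClosure ℚ)) := by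
        rw [AddSubmonoidClass.coe_finset_sum]
        refine Finset.sum_congr rfl fun i _ => ?_
        rw [MulMemClass.coe_mul, coe_algebraMap_FN]
        rfl
      exact e.trans ha) (μ, 0) hmem
  rw [hc1] at h0
  exact one_ne_zero h0

/-- **GEN-16, elementwise relation**: every element of `Rsub N` is a root of a nonzero
polynomial of degree at most the index over `ℚ̄(j)`. -/
theorem exists_polynomial_over_adjoin (r : ↥(Rsub N)) :
    ∃ P : Polynomial ↥((AlgebraicClosure ℚ)⟮jBar N⟯), P ≠ 0 ∧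
      P.natDegree ≤ Nat.card (SL(2, ℤ) ⧸ CongruenceSubgroup.Gamma0 N) ∧
      Polynomial.aeval (r : ↥(ModularCurve.modularFunctionFieldBar N)) P = 0 := by
  classical
  obtain ⟨D, a, ⟨i₀, hi₀, hai₀⟩, hrel⟩ := exists_rational_relation N r
  set μ := Nat.card (SL(2, ℤ) ⧸ CongruenceSubgroup.Gamma0 N) with hμ
  set g : ↥((AlgebraicClosure ℚ)⟮jBar N⟯) := AdjoinSimple.gen (AlgebraicClosure ℚ) (jBar N) with hg
  have hgcoe : ((g : ↥((AlgebraicClosure ℚ)⟮jBar N⟯)) : ↥(ModularCurve.modularFunctionFieldBar N)) = jBar N := AdjoinSimple.coe_gen (AlgebraicClosure ℚ) (jBar N)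
  -- coefficients
  let A : ℕ → ↥((AlgebraicClosure ℚ)⟮jBar N⟯) := fun k =>
    ∑ b ∈ Finset.range (D + 1), algebraMap (AlgebraicClosure ℚ) ↥((AlgebraicClosure ℚ)⟮jBar N⟯) (a (k, b)) * g ^ b
  have hA : ∀ k, ((A k : ↥((AlgebraicClosure ℚ)⟮jBar N⟯)) : ↥(ModularCurve.modularFunctionFieldBar N))
      = ∑ b ∈ Finset.range (D + 1), algebraMap (AlgebraicClosure ℚ) ↥(ModularCurve.modularFunctionFieldBar N) (a (k, b)) * jBar N ^ b := by
    intro k
    simp only [A]
    rw [AddSubmonoidClass.coe_finset_sum]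
    refine Finset.sum_congr rfl fun b _ => ?_
    rw [MulMemClass.coe_mul, SubmonoidClass.coe_pow, hgcoe]
    rfl
  refine ⟨∑ k ∈ Finset.range (μ + 1), C (A k) * X ^ k, ?_, ?_, ?_⟩
  · -- nonzero
    intro hP
    rw [Finset.mem_product] at hi₀
    have hcoeff := congrArg (fun p : Polynomial ↥((AlgebraicClosure ℚ)⟮jBar N⟯) => p.coeff i₀.1) hP
    simp only [finset_sum_coeff, coeff_C_mul, coeff_X_pow, coeff_zero] at hcoeff
    rw [Finset.sum_eq_single i₀.1 (fun k _ hk => by rw [if_neg (Ne.symm hk), mul_zero])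
      (fun h => absurd hi₀.1 h)] at hcoeff
    rw [if_pos rfl, mul_one] at hcoeff
    have h2 : ((A i₀.1 : ↥((AlgebraicClosure ℚ)⟮jBar N⟯)) : ↥(ModularCurve.modularFunctionFieldBar N)) = 0 := by rw [hcoeff]; rfl
    rw [hA] at h2
    -- transcendence
    have htr := Fermat.Agent.H69.transcendental_jBar N
    rw [transcendental_iff] at htr
    have h3 := htr (∑ b ∈ Finset.range (D + 1), C (a (i₀.1, b)) * X ^ b) (by
      rw [map_sum, ← h2]
      refine Finset.sum_congr rfl fun b _ => ?_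
      rw [map_mul, aeval_C, map_pow, aeval_X])
    have h4 := congrArg (fun p : Polynomial (AlgebraicClosure ℚ) => p.coeff i₀.2) h3
    simp only [finset_sum_coeff, coeff_C_mul, coeff_X_pow, coeff_zero] at h4
    rw [Finset.sum_eq_single i₀.2 (fun k _ hk => by rw [if_neg (Ne.symm hk), mul_zero])
      (fun h => absurd hi₀.2 h)] at h4
    rw [if_pos rfl, mul_one] at h4
    exact hai₀ h4
  · -- degree
    refine natDegree_sum_le_of_forall_le _ _ fun k hk => ?_
    refine (natDegree_C_mul_X_pow_le _ _).trans ?_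
    exact Nat.lt_succ_iff.mp (Finset.mem_range.mp hk)
  · -- relation
    rw [map_sum, ← hrel, Finset.sum_product]
    refine Finset.sum_congr rfl fun k _ => ?_
    rw [map_mul, aeval_C, map_pow, aeval_X]
    have : (algebraMap ↥((AlgebraicClosure ℚ)⟮jBar N⟯) ↥(ModularCurve.modularFunctionFieldBar N)) (A k) = ((A k : ↥((AlgebraicClosure ℚ)⟮jBar N⟯)) : ↥(ModularCurve.modularFunctionFieldBar N)) := rfl
    rw [this, hA, Finset.sum_mul]
    refine Finset.sum_congr rfl fun b _ => ?_
    ring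

/-- **GEN-16**: the degree statement. -/
theorem degreeStatement : DegreeStatement N :=
  Fermat.Agent.H69.degreeStatement_of_core N (Fermat.Agent.H44.core N)
    (exists_polynomial_over_adjoin N)

end

end Fermat.Agent.H85

end
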