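/-
helper85: P-ES / KEY LEMMA route B, row KL-N-F (429): `ChartBasicsStatement`.
Everything lives in namespace `Fermat.Agent.H85`.
-/
import Fermat.Agent.H22.ES.KLSetting2

set_option autoImplicit false

noncomputable section

open Polynomial
open Fermat.Agent.H67.KLConn (PiDvd)
open Fermat.Agent.H22.KL

namespace Fermat.Agent.H85

section basics

variable {A : Type} [CommRing A] {E : Type} [Field E] [Algebra A E]

theorem klc_mem_chartClosure_iff (x r : E) :
    r ∈ chartClosure A E x ↔ IsIntegral ↥(chartRing A E x) r :=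
  Iff.rfl

theorem klc_mem_chartRing_iff (x c : E) :
    c ∈ chartRing A E x ↔ ∃ p : A[X], aeval x p = c := by
  rw [chartRing, Algebra.adjoin_singleton_eq_range_aeval]
  rfl

/-- A monic polynomial over `E` with coefficients in a subalgebra and root `z` shows that `z`
is integral over the subalgebra. -/
theorem klc_isIntegral_of_poly (R' : Subalgebra A E) (Q : E[X]) (hQ : Q.Monic)
    (hcoeff : ∀ i, Q.coeff i ∈ R') (z : E) (hz : Q.eval z = 0) : IsIntegral ↥R' z := by
  have hl : Q ∈ Polynomial.lifts (algebraMap ↥R' E) := by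
    rw [Polynomial.lifts_iff_coeff_lifts]
    intro i
    exact ⟨⟨Q.coeff i, hcoeff i⟩, rfl⟩
  obtain ⟨q, hq, -, hqm⟩ := Polynomial.lifts_and_natDegree_eq_and_monic hl hQ
  refine ⟨q, hqm, ?_⟩
  rw [Polynomial.eval₂_eq_eval_map, hq, hz]

theorem klc_pow_mul_inv_pow {x : E} (hx : x ≠ 0) {i n : ℕ} (hi : i ≤ n) :
    x ^ i * x⁻¹ ^ n = x⁻¹ ^ (n - i) := by
  obtain ⟨k, rfl⟩ := Nat.exists_eq_add_of_le hi
  rw [Nat.add_sub_cancel_left, pow_add, ← mul_assoc, ← mul_pow, mul_inv_cancel₀ hx, one_pow,
    one_mul]

theorem klc_aeval_mul_inv_pow_mem {x : E} (hx : x ≠ 0) (p : A[X]) (n : ℕ)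
    (hn : p.natDegree ≤ n) : aeval x p * x⁻¹ ^ n ∈ chartRing A E x⁻¹ := by
  show aeval x p * x⁻¹ ^ n ∈ Algebra.adjoin A ({x⁻¹} : Set E)
  have hmem : x⁻¹ ∈ Algebra.adjoin A ({x⁻¹} : Set E) := Algebra.subset_adjoin rfl
  rw [Polynomial.aeval_eq_sum_range, Finset.sum_mul]
  refine Subalgebra.sum_mem _ (fun i hi => ?_)
  have hi' : i ≤ n := le_trans (Nat.lt_succ_iff.mp (Finset.mem_range.mp hi)) hn
  rw [smul_mul_assoc, klc_pow_mul_inv_pow hx hi']
  exact Subalgebra.smul_mem _ (Subalgebra.pow_mem _ hmem _) _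

/-- Overlap of the charts: an element integral over `A[x]` becomes integral over `A[x⁻¹]` after
multiplication by a power of `x⁻¹`. -/
theorem klc_overlap {x : E} (hx : x ≠ 0) (r : E) (hr : r ∈ chartClosure A E x) :
    ∃ k : ℕ, x⁻¹ ^ k * r ∈ chartClosure A E x⁻¹ := by
  classical
  obtain ⟨P, hPm, hPr⟩ := (klc_mem_chartClosure_iff x r).mp hr
  set PE : E[X] := P.map (algebraMap ↥(chartRing A E x) E) with hPE
  have hPEm : PE.Monic := hPm.map _
  have hPEr : PE.eval r = 0 := by
    rw [hPE, ← Polynomial.eval₂_eq_eval_map]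
    exact hPr
  have hc : ∀ i, ∃ p : A[X], aeval x p = PE.coeff i := by
    intro i
    rw [hPE, Polynomial.coeff_map]
    exact (klc_mem_chartRing_iff x _).mp (P.coeff i).2
  choose p hp using hc
  set d := PE.natDegree with hd
  set m := (Finset.range (d + 1)).sup (fun i => (p i).natDegree) with hm
  refine ⟨m, ?_⟩
  rw [klc_mem_chartClosure_iff]
  refine klc_isIntegral_of_poly _ (PE.scaleRoots (x⁻¹ ^ m)) ?_ ?_ _ ?_
  · exact (Polynomial.monic_scaleRoots_iff _).mpr hPEm
  · intro i
    rw [Polynomial.coeff_scaleRoots]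
    rcases lt_trichotomy i d with hi | hi | hi
    · rw [← hp i, ← pow_mul]
      refine klc_aeval_mul_inv_pow_mem hx (p i) _ ?_
      have h1 : (p i).natDegree ≤ m :=
        Finset.le_sup (f := fun i => (p i).natDegree) (Finset.mem_range.mpr (by omega))
      have h2 : 1 ≤ d - i := by omega
      calc (p i).natDegree ≤ m := h1
        _ = m * 1 := (mul_one m).symm
        _ ≤ m * (PE.natDegree - i) := Nat.mul_le_mul_left m h2
    · rw [hi, hd, Nat.sub_self, pow_zero, mul_one, Polynomial.coeff_natDegree,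
        hPEm.leadingCoeff]
      exact Subalgebra.one_mem _
    · rw [Polynomial.coeff_eq_zero_of_natDegree_lt hi, zero_mul]
      exact Subalgebra.zero_mem _
  · have h := Polynomial.scaleRoots_eval₂_mul (p := PE) (RingHom.id E) r (x⁻¹ ^ m)
    rw [Polynomial.eval₂_id, Polynomial.eval₂_id, RingHom.id_apply, hPEr, mul_zero] at h
    exact h

end basics

section saturation

variable {A : Type} [CommRing A] [IsDomain A] [IsDiscreteValuationRing A]
  {E : Type} [Field E] [Algebra A E]

/-- Constants are `ϖ`-saturated in `B(x)`. -/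
theorem klc_saturation {ϖ : A}
    (hϖ : Irreducible ϖ) {x : E} (hx : Transcendental A x) (α : A)
    (h : PiDvd ϖ (chartClosure A E x) 1 (algebraMap A E α)) : ϖ ∣ α := by
  classical
  obtain ⟨c, hcB, hc⟩ := h
  rw [pow_one, Algebra.smul_def] at hc
  obtain ⟨P, hPm, hPr⟩ := (klc_mem_chartClosure_iff x c).mp hcB
  have hxinj : Function.Injective (aeval (R := A) x) := transcendental_iff_injective.mp hx
  have hcoef : ∀ i, ∃ p : A[X], aeval x p = ((P.coeff i : ↥(chartRing A E x)) : E) :=
    fun i => (klc_mem_chartRing_iff x _).mp (P.coeff i).2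
  choose p hp using hcoef
  set d := P.natDegree with hd
  have hpd : p d = 1 := by
    apply hxinj
    rw [hp, hd, Polynomial.coeff_natDegree, hPm.leadingCoeff, map_one]
    rfl
  -- the equation
  have heq : ∑ i ∈ Finset.range (d + 1), ((P.coeff i : ↥(chartRing A E x)) : E) * c ^ i = 0 := by
    rw [Polynomial.eval₂_eq_sum_range] at hPr
    exact hPr
  -- multiply by `ϖ ^ d`
  set F : A[X] := ∑ i ∈ Finset.range (d + 1), p i * C (α ^ i * ϖ ^ (d - i)) with hF
  have hF0 : aeval x F = 0 := by
    rw [hF, map_sum]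
    have : ∀ i ∈ Finset.range (d + 1), aeval x (p i * C (α ^ i * ϖ ^ (d - i)))
        = algebraMap A E ϖ ^ d * (((P.coeff i : ↥(chartRing A E x)) : E) * c ^ i) := by
      intro i hi
      have hid : i ≤ d := Nat.lt_succ_iff.mp (Finset.mem_range.mp hi)
      rw [map_mul, hp, Polynomial.aeval_C, map_mul, map_pow, map_pow, hc]
      have : d = i + (d - i) := by omega
      conv_rhs => rw [this, pow_add]
      ring
    rw [Finset.sum_congr rfl this, ← Finset.mul_sum, heq, mul_zero]
  have hFz : F = 0 := hxinj (by rw [hF0, map_zero])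
  have hev : ∑ i ∈ Finset.range (d + 1), (p i).eval 0 * (α ^ i * ϖ ^ (d - i)) = 0 := by
    have := congrArg (Polynomial.eval 0) hFz
    rw [hF, Polynomial.eval_finsetSum, Polynomial.eval_zero] at this
    refine Eq.trans (Finset.sum_congr rfl (fun i _ => ?_)) this
    rw [Polynomial.eval_mul, Polynomial.eval_C]
  rw [Finset.sum_range_succ, hpd, Polynomial.eval_one, one_mul, Nat.sub_self, pow_zero,
    mul_one] at hev
  have hdvd : ϖ ∣ α ^ d := by
    have h1 : α ^ d = - ∑ i ∈ Finset.range d, (p i).eval 0 * (α ^ i * ϖ ^ (d - i)) := by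
      rw [eq_neg_iff_add_eq_zero, add_comm]
      exact hev
    rw [h1]
    refine (dvd_neg).mpr (Finset.dvd_sum (fun i hi => ?_))
    have hid : i < d := Finset.mem_range.mp hi
    have : ϖ ∣ ϖ ^ (d - i) := dvd_pow_self ϖ (by omega)
    exact Dvd.dvd.mul_left (Dvd.dvd.mul_left this _) _
  exact hϖ.prime.dvd_of_dvd_pow hdvd

end saturation

section fraction

variable {A : Type} [CommRing A] {E : Type} [Field E] [Algebra A E]

theorem klc_chartField_surj (x : E) (z : E) (hz : z ∈ chartField A E x) :
    ∃ y ∈ chartRing A E x, ∃ w ∈ chartRing A E x, y / w = z := by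
  have hz' : z ∈ Subfield.closure ((chartRing A E x).toSubring : Set E) := hz
  obtain ⟨y, hy, w, hw, hyw⟩ := Subfield.mem_closure_iff.mp hz'
  rw [Subring.closure_eq] at hy hw
  exact ⟨y, hy, w, hw, hyw⟩

theorem klc_chartRing_le_chartField (x : E) :
    (chartRing A E x).toSubring ≤ (chartField A E x).toSubring := by
  intro z hz
  exact Subfield.subset_closure hz

/-- The algebra structure of `K₀(x)` over `A[x]`. -/
@[reducible] def klcAlg (x : E) : Algebra ↥(chartRing A E x) ↥(chartField A E x) :=
  (Subring.inclusion (klc_chartRing_le_chartField (A := A) x)).toAlgebra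

theorem klc_isFractionRing (x : E) :
    let _ := klcAlg (A := A) x
    IsFractionRing ↥(chartRing A E x) ↥(chartField A E x) := by
  let _ := klcAlg (A := A) x
  have hinj : Function.Injective (algebraMap ↥(chartRing A E x) ↥(chartField A E x)) := by
    intro a a' h
    apply Subtype.ext
    have := congrArg (fun z : ↥(chartField A E x) => (z : E)) h
    exact this
  have hFS : FaithfulSMul ↥(chartRing A E x) ↥(chartField A E x) :=
    (faithfulSMul_iff_algebraMap_injective _ _).mpr hinj
  refine IsFractionRing.of_field _ _ (fun z => ?_)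
  obtain ⟨y, hy, w, hw, hyw⟩ := klc_chartField_surj x (z : E) z.2
  refine ⟨⟨y, hy⟩, ⟨w, hw⟩, ?_⟩
  apply Subtype.ext
  rw [← hyw]
  rfl

theorem klc_isScalarTower (x : E) :
    let _ := klcAlg (A := A) x
    IsScalarTower ↥(chartRing A E x) ↥(chartField A E x) E := by
  let _ := klcAlg (A := A) x
  exact IsScalarTower.of_algebraMap_eq (fun _ => rfl)

end fraction

section finiteness

variable {A : Type} [CommRing A] [IsDomain A] [IsDiscreteValuationRing A]
  {E : Type} [Field E] [Algebra A E] [CharZero E]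

/-- `A[X] ≃ A[x]` for transcendental `x`. -/
def klcEquiv {x : E} (hx : Transcendental A x) : A[X] ≃ₐ[A] ↥(chartRing A E x) :=
  (AlgEquiv.ofInjective (aeval x) (transcendental_iff_injective.mp hx)).trans
    (Subalgebra.equivOfEq _ _ (Algebra.adjoin_singleton_eq_range_aeval A x).symm)

/-- `B(x)` is a finitely generated `A[x]`-module. -/
theorem klc_finite {x : E} (hx : Transcendental A x)
    (hfin : ∃ (n : ℕ), Nonempty (Module.Basis (Fin n) (chartField A E x) E)) :
    Module.Finite ↥(chartRing A E x) ↥(integralClosure ↥(chartRing A E x) E) := by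
  obtain ⟨n, ⟨b⟩⟩ := hfin
  have e := klcEquiv (A := A) (E := E) hx
  have hIC : IsIntegrallyClosed ↥(chartRing A E x) := IsIntegrallyClosed.of_equiv e.toRingEquiv
  have hNoeth : IsNoetherianRing ↥(chartRing A E x) :=
    isNoetherianRing_of_ringEquiv A[X] e.toRingEquiv
  let _ := klcAlg (A := A) x
  have hST := klc_isScalarTower (A := A) x
  have hFR := klc_isFractionRing (A := A) x
  have hFD : FiniteDimensional ↥(chartField A E x) E := Module.Finite.of_basis b
  have hC0 : CharZero ↥(chartField A E x) :=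
    ⟨fun n m h => Nat.cast_injective (R := E) (by
      have := congrArg (fun z : ↥(chartField A E x) => (z : E)) h
      simpa using this)⟩
  have hSep : Algebra.IsSeparable ↥(chartField A E x) E :=
    Algebra.IsSeparable.of_integral _ _
  exact IsIntegralClosure.finite ↥(chartRing A E x) ↥(chartField A E x) E
    ↥(integralClosure ↥(chartRing A E x) E)

/-- The finiteness statement in the shape used by the connectedness lemma. -/
theorem klc_finite' {x : E} (hx : Transcendental A x)
    (hfin : ∃ (n : ℕ), Nonempty (Module.Basis (Fin n) (chartField A E x) E)) :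
    ∃ s : Finset E, (∀ b ∈ s, b ∈ chartClosure A E x) ∧
      ∀ r ∈ chartClosure A E x, ∃ p : E → Polynomial A,
        r = ∑ b ∈ s, Polynomial.aeval x (p b) * b := by
  classical
  have hfg := klc_finite hx hfin
  obtain ⟨t, ht⟩ := hfg.fg_top
  refine ⟨t.image (fun b : ↥(integralClosure ↥(chartRing A E x) E) => (b : E)), ?_, ?_⟩
  · intro b hb
    obtain ⟨b', -, rfl⟩ := Finset.mem_image.mp hb
    exact b'.2
  · intro r hr
    have hmem : (⟨r, hr⟩ : ↥(integralClosure ↥(chartRing A E x) E))
        ∈ Submodule.span ↥(chartRing A E x) (t : Set _) := by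
      rw [ht]; exact Submodule.mem_top
    obtain ⟨f, -, hf⟩ := Submodule.mem_span_finset.mp hmem
    have hq : ∀ b' : ↥(integralClosure ↥(chartRing A E x) E),
        ∃ q : A[X], aeval x q = ((f b' : ↥(chartRing A E x)) : E) :=
      fun b' => (klc_mem_chartRing_iff x _).mp (f b').2
    choose q hq' using hq
    refine ⟨fun e => if h : e ∈ integralClosure ↥(chartRing A E x) E then q ⟨e, h⟩ else 0, ?_⟩
    rw [Finset.sum_image (fun a _ b _ h => Subtype.ext h)]
    have h1 := congrArg (fun z : ↥(integralClosure ↥(chartRing A E x) E) => (z : E)) hf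
    simp only at h1
    rw [← h1]
    rw [AddSubmonoidClass.coe_finsetSum]
    refine Finset.sum_congr rfl (fun b' _ => ?_)
    show ((f b' • b' : ↥(integralClosure ↥(chartRing A E x) E)) : E)
      = aeval x (if h : (b' : E) ∈ integralClosure ↥(chartRing A E x) E then q ⟨(b' : E), h⟩
          else 0) * (b' : E)
    rw [dif_pos b'.2, hq']
    rfl

end finiteness

/-- **CHART BASICS** (row KL-N-F). -/
theorem chartBasics : ChartBasicsStatement := by
  intro A _ _ _ E _ _ _ _hinj ϖ hϖ x hx hfin
  have hx0 : x ≠ 0 := by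
    rintro rfl
    exact hx (isAlgebraic_zero)
  refine ⟨klc_finite' hx hfin, fun r hr => klc_overlap hx0 r hr, fun r hr => ?_,
    fun α hα => klc_saturation hϖ hx α hα⟩
  have h := klc_overlap (A := A) (inv_ne_zero hx0) r hr
  rw [inv_inv] at h
  exact h

end Fermat.Agent.H85

end
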