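import Mathlib

/-!
# Combinatorial lemmas for the lifting of parabolic classes (helper85, P-S16)

* `lift_invol`, `lift_order3`: integral lifts of `ZMod n`-valued functions killed by the norm of
  a permutation of order 2 resp. 3;
* `exists_potential`: a function whose sums over all closed orbit segments of a permutation vanish
  is a coboundary.
-/

set_option autoImplicit false

namespace Fermat.Agent.H85

section Lifts

variable {X : Type*} {n : ℕ} [NeZero n]

lemma zmodLift_cast (a : ZMod n) : (((a.val : ℤ)) : ZMod n) = a := by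
  rw [Int.cast_natCast, ZMod.natCast_zmod_val]

/-- Integral lift of a function killed by `1 + σ`, `σ` an involution. -/
lemma lift_invol [Countable X] (σ : X → X) (hσ : ∀ x, σ (σ x) = x) (α : X → ZMod n)
    (hα : ∀ x, α x + α (σ x) = 0) (hfix : ∀ x, σ x = x → α x = 0) :
    ∃ a : X → ℤ, (∀ x, a x + a (σ x) = 0) ∧ ∀ x, ((a x : ℤ) : ZMod n) = α x := by
  classical
  obtain ⟨ι, hι⟩ := Countable.exists_injective_nat X
  let L : X → ℤ := fun x => ((α x).val : ℤ)
  have hL : ∀ x, ((L x : ℤ) : ZMod n) = α x := fun x => zmodLift_cast (α x)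
  refine ⟨fun x => if ι x < ι (σ x) then L x else if ι (σ x) < ι x then - L (σ x) else 0,
    ?_, ?_⟩
  · intro x
    simp only [hσ]
    split_ifs <;> omega
  · intro x
    simp only
    split_ifs with h1 h2
    · exact hL x
    · rw [Int.cast_neg, hL]
      have := hα x
      linear_combination (-1 : ZMod n) * this
    · have h3 : ι x = ι (σ x) := by omega
      have h4 : σ x = x := (hι h3).symm
      rw [Int.cast_zero]
      exact (hfix x h4).symm

/-- Integral lift of a function killed by `1 + τ + τ²`, `τ` of order 3. -/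
lemma lift_order3 [Countable X] (τ : X → X) (hτ : ∀ x, τ (τ (τ x)) = x) (β : X → ZMod n)
    (hβ : ∀ x, β x + β (τ x) + β (τ (τ x)) = 0) (hfix : ∀ x, τ x = x → β x = 0) :
    ∃ b : X → ℤ, (∀ x, b x + b (τ x) + b (τ (τ x)) = 0) ∧ ∀ x, ((b x : ℤ) : ZMod n) = β x := by
  classical
  obtain ⟨ι, hι⟩ := Countable.exists_injective_nat X
  let L : X → ℤ := fun x => ((β x).val : ℤ)
  have hL : ∀ x, ((L x : ℤ) : ZMod n) = β x := fun x => zmodLift_cast (β x)
  let b : X → ℤ := fun x =>
    if τ x = x then 0
    else if ι x < ι (τ x) ∧ ι x < ι (τ (τ x)) then L x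
    else if ι (τ (τ x)) < ι x ∧ ι (τ (τ x)) < ι (τ x) then L x
    else - L (τ x) - L (τ (τ x))
  have hb : ∀ x, b x =
    if τ x = x then 0
    else if ι x < ι (τ x) ∧ ι x < ι (τ (τ x)) then L x
    else if ι (τ (τ x)) < ι x ∧ ι (τ (τ x)) < ι (τ x) then L x
    else - L (τ x) - L (τ (τ x)) := fun x => rfl
  refine ⟨b, ?_, ?_⟩
  · intro x
    by_cases hx : τ x = x
    · have h1 : b x = 0 := by rw [hb, if_pos hx]
      rw [hx, hx, h1]; rfl
    · have hx1 : τ (τ x) ≠ τ x := by
        intro h
        apply hx
        have := congrArg τ h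
        rw [hτ] at this
        rw [← h, ← this]
      have hx3 : x ≠ τ (τ x) := by
        intro h
        apply hx
        have := congrArg τ h
        rw [hτ] at this
        exact this
      have hx2 : τ (τ (τ x)) ≠ τ (τ x) := by
        rw [hτ]; exact hx3
      have d1 : ι x ≠ ι (τ x) := fun h => hx (hι h).symm
      have d2 : ι (τ x) ≠ ι (τ (τ x)) := fun h => hx1 (hι h).symm
      have d3 : ι x ≠ ι (τ (τ x)) := fun h => hx3 (hι h)
      rw [hb x, hb (τ x), hb (τ (τ x)), if_neg hx, if_neg hx1, if_neg hx2]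
      simp only [hτ]
      split_ifs <;> omega
  · intro x
    rw [hb]
    split_ifs with h1 h2 h3
    · rw [Int.cast_zero]; exact (hfix x h1).symm
    · exact hL x
    · exact hL x
    · rw [Int.cast_sub, Int.cast_neg, hL, hL]
      have := hβ x
      linear_combination (-1 : ZMod n) * this

end Lifts

section Potential

open Equiv.Perm

/-- A function whose sums over all closed orbit segments of `τ` vanish is a `τ`-coboundary. -/
lemma exists_potential {X A : Type*} [Finite X] [AddCommGroup A] (τ : Equiv.Perm X) (f : X → A)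
    (hf : ∀ x (k : ℕ), (τ ^ k) x = x → ∑ i ∈ Finset.range k, f ((τ ^ i) x) = 0) :
    ∃ h : X → A, ∀ x, f x = h (τ x) - h x := by
  classical
  let P : X → ℕ → A := fun b m => ∑ i ∈ Finset.range m, f ((τ ^ i) b)
  have hP_add : ∀ b m k, P b (m + k) = P b m + ∑ i ∈ Finset.range k, f ((τ ^ i) ((τ ^ m) b)) := by
    intro b m k
    show ∑ i ∈ Finset.range (m + k), f ((τ ^ i) b) = _
    rw [Finset.sum_range_add]
    congr 1
    apply Finset.sum_congr rfl
    intro i _
    rw [add_comm m i, pow_add]; rfl
  have hP_le : ∀ b m m', m ≤ m' → (τ ^ m) b = (τ ^ m') b → P b m = P b m' := by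
    intro b m m' hmm h
    obtain ⟨k, rfl⟩ := Nat.exists_eq_add_of_le hmm
    rw [hP_add]
    have h2 : (τ ^ k) ((τ ^ m) b) = (τ ^ m) b := by
      have h3 : (τ ^ (m + k)) b = (τ ^ k) ((τ ^ m) b) := by
        rw [add_comm, pow_add, Equiv.Perm.mul_apply]
      rw [← h3, ← h]
    rw [hf _ k h2, add_zero]
  have hP : ∀ b m m', (τ ^ m) b = (τ ^ m') b → P b m = P b m' := by
    intro b m m' h
    rcases le_total m m' with hle | hle
    · exact hP_le b m m' hle h
    · exact (hP_le b m' m hle h.symm).symm
  let base : X → X := fun x => Quotient.out (Quotient.mk (SameCycle.setoid τ) x)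
  have hbase : ∀ x, SameCycle τ (base x) x := fun x =>
    Quotient.exact (Quotient.out_eq (Quotient.mk (SameCycle.setoid τ) x))
  have hbase_eq : ∀ x, base (τ x) = base x := by
    intro x
    show Quotient.out (Quotient.mk (SameCycle.setoid τ) (τ x)) =
      Quotient.out (Quotient.mk (SameCycle.setoid τ) x)
    congr 1
    apply Quotient.sound
    show SameCycle τ (τ x) x
    exact sameCycle_apply_left.mpr (SameCycle.refl τ x)
  have hex : ∀ x, ∃ i : ℕ, (τ ^ i) (base x) = x := fun x => (hbase x).exists_nat_pow_eq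
  choose e he using hex
  refine ⟨fun x => P (base x) (e x), ?_⟩
  intro x
  show f x = P (base (τ x)) (e (τ x)) - P (base x) (e x)
  rw [hbase_eq]
  have h1 : (τ ^ (e (τ x))) (base x) = (τ ^ (e x + 1)) (base x) := by
    have := he (τ x)
    rw [hbase_eq] at this
    rw [this, add_comm, pow_add, pow_one]
    show τ x = τ ((τ ^ e x) (base x))
    rw [he x]
  rw [hP _ _ _ h1, hP_add]
  simp [he x]

end Potential

end Fermat.Agent.H85
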