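import Mathlib

/-!
# `PSL₂(ℤ) = C₂ * C₃` by ping-pong, as a universal property of `SL(2, ℤ)` (helper85, P-S16)

Main result: `Fermat.Agent.H85.exists_hom_of_relations`: for every group `W` and `s u : W` with
`s ^ 2 = 1`, `u ^ 3 = 1` there is a homomorphism `F : SL(2, ℤ) →* W` with `F S = s` and
`F (S * T) = u`.
-/

set_option autoImplicit false

open scoped MatrixGroups Pointwise
open UpperHalfPlane ModularGroup

namespace Fermat.Agent.H85

/-- The family consisting of `C₂` (index `false`) and `C₃` (index `true`). -/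
abbrev CycFam (b : Bool) : Type := Multiplicative (ZMod (cond b 3 2))

/-- The homomorphism from a cyclic group of order `n` determined by an element killed by `n`. -/
noncomputable def cycHom {G : Type*} [Group G] (n : ℕ) (g : G) (h : g ^ n = 1) :
    Multiplicative (ZMod n) →* G :=
  AddMonoidHom.toMultiplicativeLeft (ZMod.lift n ⟨zmultiplesHom (Additive G) (Additive.ofMul g), by
    show (n : ℤ) • Additive.ofMul g = 0
    rw [natCast_zsmul, ← ofMul_pow, h]; rfl⟩)

lemma cycHom_ofAdd_intCast {G : Type*} [Group G] (n : ℕ) (g : G) (h : g ^ n = 1) (k : ℤ) :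
    cycHom n g h (Multiplicative.ofAdd (k : ZMod n)) = g ^ k := by
  unfold cycHom
  rw [AddMonoidHom.coe_toMultiplicativeLeft]
  simp only [Function.comp_apply, toAdd_ofAdd]
  rw [ZMod.lift_coe]
  show Additive.toMul (k • Additive.ofMul g) = g ^ k
  rfl

lemma cycHom_ofAdd_one {G : Type*} [Group G] (n : ℕ) (g : G) (h : g ^ n = 1) :
    cycHom n g h (Multiplicative.ofAdd (1 : ZMod n)) = g := by
  have := cycHom_ofAdd_intCast n g h 1
  simpa using this

lemma cycHom_ofAdd_two {G : Type*} [Group G] (n : ℕ) (g : G) (h : g ^ n = 1) :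
    cycHom n g h (Multiplicative.ofAdd (2 : ZMod n)) = g ^ 2 := by
  have := cycHom_ofAdd_intCast n g h 2
  simpa using this

/-! ### Matrix identities -/

lemma S_mul_S_eq : (S * S : SL(2, ℤ)) = -1 := by
  decide

lemma ST_pow_three_eq : ((S * T) ^ 3 : SL(2, ℤ)) = -1 := by
  have h : (S * T) * (S * T) * (S * T) = (-1 : SL(2, ℤ)) := by decide
  rw [pow_succ, pow_two, h]

/-! ### The two permutations of `ℍ` -/

/-- The permutation of `ℍ` induced by `S`. -/
noncomputable def permS : Equiv.Perm ℍ := MulAction.toPerm (S : SL(2, ℤ))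

/-- The permutation of `ℍ` induced by `S * T`. -/
noncomputable def permU : Equiv.Perm ℍ := MulAction.toPerm (S * T : SL(2, ℤ))

lemma toPerm_neg_one : (MulAction.toPerm (-1 : SL(2, ℤ)) : Equiv.Perm ℍ) = 1 := by
  refine Equiv.ext (fun z => ?_)
  show ((-1 : SL(2, ℤ)) • z : ℍ) = z
  rw [ModularGroup.SL_neg_smul, one_smul]

lemma permS_sq : permS ^ 2 = 1 := by
  have h : permS ^ 2 = (MulAction.toPermHom SL(2, ℤ) ℍ) (S * S) := by
    rw [map_mul, pow_two]; rfl
  rw [h, S_mul_S_eq]
  exact toPerm_neg_one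

lemma permU_cube : permU ^ 3 = 1 := by
  have h : permU ^ 3 = (MulAction.toPermHom SL(2, ℤ) ℍ) ((S * T) ^ 3) := by
    rw [map_pow]; rfl
  rw [h, ST_pow_three_eq]
  exact toPerm_neg_one

/-- The two homomorphisms `C₂ → Perm ℍ`, `C₃ → Perm ℍ`. -/
noncomputable def pingHom : ∀ b : Bool, CycFam b →* Equiv.Perm ℍ
  | false => cycHom 2 permS permS_sq
  | true => cycHom 3 permU permU_cube

/-- Ping-pong sets. -/
def pingSet : Bool → Set ℍ
  | false => {z | 0 < z.re}
  | true => {z | z.re < 0}

lemma re_S_smul (z : ℍ) : ((S : SL(2, ℤ)) • z).re = -z.re / Complex.normSq z := by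
  rw [UpperHalfPlane.modular_S_smul]
  show ((-(z : ℂ))⁻¹).re = _
  rw [Complex.inv_re, Complex.neg_re, Complex.normSq_neg]
  rfl

lemma re_T_smul (z : ℍ) : ((T : SL(2, ℤ)) • z).re = z.re + 1 := by
  rw [UpperHalfPlane.modular_T_smul]
  show ((((1 : ℝ) +ᵥ z : ℍ) : ℂ)).re = _
  rw [UpperHalfPlane.coe_vadd]
  simp [add_comm]

lemma normSq_pos' (z : ℍ) : 0 < Complex.normSq (z : ℂ) :=
  Complex.normSq_pos.mpr z.ne_zero

lemma permS_maps {z : ℍ} (hz : z.re < 0) : 0 < (permS z).re := by
  show 0 < ((S : SL(2, ℤ)) • z).re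
  rw [re_S_smul]
  exact div_pos (by linarith) (normSq_pos' z)

lemma permS_maps' {z : ℍ} (hz : 0 < z.re) : (permS z).re < 0 := by
  show ((S : SL(2, ℤ)) • z).re < 0
  rw [re_S_smul]
  exact div_neg_of_neg_of_pos (by linarith) (normSq_pos' z)

lemma permU_apply (z : ℍ) : permU z = (S : SL(2, ℤ)) • ((T : SL(2, ℤ)) • z) := by
  show ((S * T : SL(2, ℤ)) • z) = _
  rw [mul_smul]

lemma permU_maps {z : ℍ} (hz : 0 < z.re) : (permU z).re < 0 := by
  rw [permU_apply, re_S_smul]
  have h1 : 0 < ((T : SL(2, ℤ)) • z).re := by rw [re_T_smul]; linarith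
  exact div_neg_of_neg_of_pos (by linarith) (normSq_pos' _)

/-- `T S z` has real part `> 1` when `Re z < 0`... we only need: `Re z < 0 → Re (T S z) ...`.
Here: if `Re w < 0` then `Re (S (T w)) < 0` provided `Re (T w) > 0`; we use instead the direct
formula for `U² = S T S T`. -/
lemma permU_sq_maps {z : ℍ} (hz : 0 < z.re) : ((permU ^ 2) z).re < 0 := by
  have h : (permU ^ 2) z = permU (permU z) := by rw [pow_two]; rfl
  rw [h]
  -- `permU z = S (T z)`, then `T (S (T z))` has real part `1 - (re z + 1)/|z+1|²`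
  set w : ℍ := (T : SL(2, ℤ)) • z with hw
  have hwre : w.re = z.re + 1 := re_T_smul z
  have hwpos : 0 < w.re := by rw [hwre]; linarith
  rw [permU_apply, permU_apply, ← hw, re_S_smul, re_T_smul, re_S_smul]
  -- goal: -(-w.re / normSq w + 1) / normSq (T • S • w) < 0
  have hN := normSq_pos' w
  have hkey : w.re / Complex.normSq (w : ℂ) < 1 := by
    rw [div_lt_one hN]
    have him := w.im_pos
    have : Complex.normSq (w : ℂ) = w.re * w.re + w.im * w.im := by
      rw [Complex.normSq_apply]; rfl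
    rw [this]
    have hre1 : 1 < w.re := by rw [hwre]; linarith
    nlinarith
  apply div_neg_of_neg_of_pos _ (normSq_pos' _)
  have : -w.re / Complex.normSq (w : ℂ) = -(w.re / Complex.normSq (w : ℂ)) := by ring
  rw [this]
  linarith

lemma cycFam_false_eq (h : CycFam false) (hne : h ≠ 1) :
    h = Multiplicative.ofAdd (1 : ZMod 2) := by
  have key : ∀ x : ZMod 2, x ≠ 0 → x = 1 := by decide
  have h0 : Multiplicative.toAdd h ≠ 0 := fun h0 => hne (by
    rw [← ofAdd_toAdd h, h0]; rfl)
  rw [← ofAdd_toAdd h]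
  exact congrArg Multiplicative.ofAdd (key _ h0)

lemma cycFam_true_eq (h : CycFam true) (hne : h ≠ 1) :
    h = Multiplicative.ofAdd (1 : ZMod 3) ∨ h = Multiplicative.ofAdd (2 : ZMod 3) := by
  have key : ∀ x : ZMod 3, x ≠ 0 → x = 1 ∨ x = 2 := by decide
  have h0 : Multiplicative.toAdd h ≠ 0 := fun h0 => hne (by
    rw [← ofAdd_toAdd h, h0]; rfl)
  rcases key _ h0 with h1 | h1
  · left; rw [← ofAdd_toAdd h]; exact congrArg Multiplicative.ofAdd h1
  · right; rw [← ofAdd_toAdd h]; exact congrArg Multiplicative.ofAdd h1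

lemma pingHom_pp : Pairwise fun i j : Bool =>
    ∀ h : CycFam i, h ≠ 1 → pingHom i h • pingSet j ⊆ pingSet i := by
  intro i j hij h hne
  rcases i with _ | _ <;> rcases j with _ | _
  · exact absurd rfl hij
  · -- i = false, j = true
    rw [cycFam_false_eq h hne]
    have : pingHom false (Multiplicative.ofAdd (1 : ZMod 2)) = permS :=
      cycHom_ofAdd_one 2 permS permS_sq
    rw [this]
    rintro _ ⟨z, hz, rfl⟩
    exact permS_maps hz
  · -- i = true, j = false
    rcases cycFam_true_eq h hne with rfl | rfl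
    · have : pingHom true (Multiplicative.ofAdd (1 : ZMod 3)) = permU :=
        cycHom_ofAdd_one 3 permU permU_cube
      rw [this]
      rintro _ ⟨z, hz, rfl⟩
      exact permU_maps hz
    · have : pingHom true (Multiplicative.ofAdd (2 : ZMod 3)) = permU ^ 2 :=
        cycHom_ofAdd_two 3 permU permU_cube
      rw [this]
      rintro _ ⟨z, hz, rfl⟩
      exact permU_sq_maps hz
  · exact absurd rfl hij

lemma pingSet_nonempty : ∀ i, (pingSet i).Nonempty
  | false => ⟨(1 : ℝ) +ᵥ UpperHalfPlane.I, by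
      show 0 < ((1 : ℝ) +ᵥ UpperHalfPlane.I).re
      rw [UpperHalfPlane.vadd_re, UpperHalfPlane.I_re]; norm_num⟩
  | true => ⟨(-1 : ℝ) +ᵥ UpperHalfPlane.I, by
      show ((-1 : ℝ) +ᵥ UpperHalfPlane.I).re < 0
      rw [UpperHalfPlane.vadd_re, UpperHalfPlane.I_re]; norm_num⟩

lemma pingSet_disj : Pairwise (Function.onFun Disjoint pingSet) := by
  intro i j hij
  rcases i with _ | _ <;> rcases j with _ | _
  · exact absurd rfl hij
  · show Disjoint {z : ℍ | 0 < z.re} {z : ℍ | z.re < 0}
    rw [Set.disjoint_left]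
    intro z (h1 : 0 < z.re) (h2 : z.re < 0)
    linarith
  · show Disjoint {z : ℍ | z.re < 0} {z : ℍ | 0 < z.re}
    rw [Set.disjoint_left]
    intro z (h1 : z.re < 0) (h2 : 0 < z.re)
    linarith
  · exact absurd rfl hij

lemma ping_card : 3 ≤ Cardinal.mk Bool ∨ ∃ i, 3 ≤ Cardinal.mk (CycFam i) := by
  right
  refine ⟨true, ?_⟩
  show (3 : Cardinal) ≤ Cardinal.mk (Multiplicative (ZMod 3))
  rw [Cardinal.mk_fintype]
  have : Fintype.card (Multiplicative (ZMod 3)) = 3 := by
    rw [Fintype.card_multiplicative, ZMod.card]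
  rw [this]
  norm_num

/-- Ping-pong: the natural map `C₂ * C₃ → Perm ℍ` is injective. -/
theorem pingLift_injective : Function.Injective (Monoid.CoprodI.lift pingHom) :=
  Monoid.CoprodI.lift_injective_of_ping_pong pingHom ping_card pingSet pingSet_nonempty
    pingSet_disj pingHom_pp

/-- The family of homomorphisms to `W` determined by `s` (order 2) and `u` (order 3). -/
noncomputable def relHom {W : Type*} [Group W] (s u : W) (hs : s ^ 2 = 1) (hu : u ^ 3 = 1) :
    ∀ b : Bool, CycFam b →* W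
  | false => cycHom 2 s hs
  | true => cycHom 3 u hu

/-- **Universal property of `SL(2, ℤ)` modulo `±1`** (equivalent to `PSL₂(ℤ) = C₂ * C₃`):
for `s, u` in a group `W` with `s ^ 2 = 1` and `u ^ 3 = 1` there is a homomorphism
`F : SL(2, ℤ) →* W` with `F S = s` and `F (S * T) = u`. -/
theorem exists_hom_of_relations {W : Type*} [Group W] (s u : W) (hs : s ^ 2 = 1)
    (hu : u ^ 3 = 1) :
    ∃ F : SL(2, ℤ) →* W, F S = s ∧ F (S * T) = u := by
  classical
  set ρ : Monoid.CoprodI CycFam →* Equiv.Perm ℍ := Monoid.CoprodI.lift pingHom with hρdef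
  have hρ : Function.Injective ρ := pingLift_injective
  set act : SL(2, ℤ) →* Equiv.Perm ℍ := MulAction.toPermHom SL(2, ℤ) ℍ with hact
  set cS : Monoid.CoprodI CycFam :=
    Monoid.CoprodI.of (i := false) (Multiplicative.ofAdd (1 : ZMod 2)) with hcS
  set cU : Monoid.CoprodI CycFam :=
    Monoid.CoprodI.of (i := true) (Multiplicative.ofAdd (1 : ZMod 3)) with hcU
  have hS : ρ cS = act S := by
    rw [hρdef, hcS, Monoid.CoprodI.lift_of]
    exact cycHom_ofAdd_one 2 permS permS_sq
  have hU : ρ cU = act (S * T) := by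
    rw [hρdef, hcU, Monoid.CoprodI.lift_of]
    exact cycHom_ofAdd_one 3 permU permU_cube
  have hrange : ∀ g, act g ∈ ρ.range := by
    intro g
    have hg : g ∈ Subgroup.closure ({S, T} : Set SL(2, ℤ)) := by
      rw [SpecialLinearGroup.SL2Z_generators]; trivial
    have hle : Subgroup.closure ({S, T} : Set SL(2, ℤ)) ≤ ρ.range.comap act := by
      rw [Subgroup.closure_le]
      rintro x (rfl | hx)
      · exact ⟨cS, hS⟩
      · rw [Set.mem_singleton_iff] at hx
        subst hx
        refine ⟨cS⁻¹ * cU, ?_⟩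
        rw [map_mul, map_inv, hS, hU, ← map_inv, ← map_mul, inv_mul_cancel_left]
    exact hle hg
  let e := MonoidHom.ofInjective hρ
  let F₀ : Monoid.CoprodI CycFam →* W := Monoid.CoprodI.lift (relHom s u hs hu)
  have he : ∀ (c : Monoid.CoprodI CycFam) (g : SL(2, ℤ)), ρ c = act g →
      e.symm ((act.codRestrict ρ.range hrange) g) = c := by
    intro c g hcg
    rw [MulEquiv.symm_apply_eq]
    apply Subtype.ext
    rw [MonoidHom.ofInjective_apply]
    exact hcg.symm
  refine ⟨F₀.comp (e.symm.toMonoidHom.comp (act.codRestrict ρ.range hrange)), ?_, ?_⟩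
  · show F₀ (e.symm ((act.codRestrict ρ.range hrange) S)) = s
    rw [he cS S hS]
    show Monoid.CoprodI.lift (relHom s u hs hu) cS = s
    rw [hcS, Monoid.CoprodI.lift_of]
    exact cycHom_ofAdd_one 2 s hs
  · show F₀ (e.symm ((act.codRestrict ρ.range hrange) (S * T))) = u
    rw [he cU (S * T) hU]
    show Monoid.CoprodI.lift (relHom s u hs hu) cU = u
    rw [hcU, Monoid.CoprodI.lift_of]
    exact cycHom_ofAdd_one 3 u hu

end Fermat.Agent.H85
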