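import Mathlib
import Fermat.Prelude.Def_ModularCurve_PeriodMap
import Fermat.Agent.H28.Cocycle
import Fermat.Agent.H97.ParabolicPeriod
import Fermat.Agent.H85.S16Free
import Fermat.Agent.H85.S16Comb

/-!
# Lifting parabolic classes from `ℤ/n` to `ℤ` (helper85, P-S16, block LB-LIFT)

Main result: `Fermat.Agent.H85.exists_parabolic_lift`.
-/

set_option autoImplicit false

open scoped MatrixGroups
open ModularGroup CongruenceSubgroup

namespace Fermat.Agent.H85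

section Cocycles

variable (Γ : Subgroup SL(2, ℤ)) {A : Type*} [AddCommGroup A]

/-- The cocycle identity for functions `SL(2, ℤ) → (SL(2, ℤ) ⧸ Γ → A)`. -/
def IsCoc (c : SL(2, ℤ) → SL(2, ℤ) ⧸ Γ → A) : Prop :=
  ∀ g h x, c (g * h) x = c g (h • x) + c h x

variable {Γ}

lemma IsCoc.one {c : SL(2, ℤ) → SL(2, ℤ) ⧸ Γ → A} (hc : IsCoc Γ c) (x : SL(2, ℤ) ⧸ Γ) :
    c 1 x = 0 := by
  have := hc 1 1 x
  rw [one_mul, one_smul] at this
  exact left_eq_add.mp this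

lemma IsCoc.inv {c : SL(2, ℤ) → SL(2, ℤ) ⧸ Γ → A} (hc : IsCoc Γ c) (g : SL(2, ℤ))
    (x : SL(2, ℤ) ⧸ Γ) : c g⁻¹ x = - c g (g⁻¹ • x) := by
  have := hc g g⁻¹ x
  rw [mul_inv_cancel, hc.one] at this
  exact eq_neg_of_add_eq_zero_right this.symm

lemma IsCoc.sub {c c' : SL(2, ℤ) → SL(2, ℤ) ⧸ Γ → A} (hc : IsCoc Γ c) (hc' : IsCoc Γ c') :
    IsCoc Γ (fun g x => c g x - c' g x) := by
  intro g h x
  show c (g * h) x - c' (g * h) x = c g (h • x) - c' g (h • x) + (c h x - c' h x)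
  rw [hc, hc']; abel

lemma IsCoc.add {c c' : SL(2, ℤ) → SL(2, ℤ) ⧸ Γ → A} (hc : IsCoc Γ c) (hc' : IsCoc Γ c') :
    IsCoc Γ (fun g x => c g x + c' g x) := by
  intro g h x
  show c (g * h) x + c' (g * h) x = c g (h • x) + c' g (h • x) + (c h x + c' h x)
  rw [hc, hc']; abel

lemma IsCoc.zsmul {c : SL(2, ℤ) → SL(2, ℤ) ⧸ Γ → A} (hc : IsCoc Γ c) (m : ℤ) :
    IsCoc Γ (fun g x => m • c g x) := by
  intro g h x
  show m • c (g * h) x = m • c g (h • x) + m • c h x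
  rw [hc, smul_add]

lemma isCoc_cob (h : SL(2, ℤ) ⧸ Γ → A) : IsCoc Γ (fun g x => h (g • x) - h x) := by
  intro g k x
  show h ((g * k) • x) - h x = h (g • k • x) - h (k • x) + (h (k • x) - h x)
  rw [mul_smul]; abel

/-- A cocycle vanishing on `S` and `S * T` vanishes. -/
lemma IsCoc.eq_zero {c : SL(2, ℤ) → SL(2, ℤ) ⧸ Γ → A} (hc : IsCoc Γ c)
    (hS : ∀ x, c S x = 0) (hU : ∀ x, c (S * T) x = 0) (g : SL(2, ℤ)) (x : SL(2, ℤ) ⧸ Γ) :
    c g x = 0 := by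
  have hT : ∀ x, c T x = 0 := by
    intro x
    have h1 : (T : SL(2, ℤ)) = S⁻¹ * (S * T) := by rw [inv_mul_cancel_left]
    rw [h1, hc, hU, add_zero, hc.inv, hS, neg_zero]
  have hg : g ∈ Subgroup.closure ({S, T} : Set SL(2, ℤ)) := by
    rw [SpecialLinearGroup.SL2Z_generators]; trivial
  revert x
  induction hg using Subgroup.closure_induction with
  | mem y hy =>
    rcases hy with rfl | hy
    · exact hS
    · rw [Set.mem_singleton_iff] at hy; subst hy; exact hT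
  | one => exact fun x => hc.one x
  | mul a b _ _ iha ihb =>
    intro x
    rw [hc, iha, ihb, add_zero]
  | inv a _ iha =>
    intro x
    rw [hc.inv, iha, neg_zero]

/-- Two cocycles agreeing on `S` and `S * T` agree. -/
lemma IsCoc.ext {c c' : SL(2, ℤ) → SL(2, ℤ) ⧸ Γ → A} (hc : IsCoc Γ c) (hc' : IsCoc Γ c')
    (hS : ∀ x, c S x = c' S x) (hU : ∀ x, c (S * T) x = c' (S * T) x) (g : SL(2, ℤ))
    (x : SL(2, ℤ) ⧸ Γ) : c g x = c' g x := by
  have := (hc.sub hc').eq_zero (fun x => sub_eq_zero.mpr (hS x)) (fun x => sub_eq_zero.mpr (hU x))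
    g x
  exact sub_eq_zero.mp this

/-- Values on powers. -/
lemma IsCoc.pow {c : SL(2, ℤ) → SL(2, ℤ) ⧸ Γ → A} (hc : IsCoc Γ c) (g : SL(2, ℤ)) (k : ℕ)
    (x : SL(2, ℤ) ⧸ Γ) : c (g ^ k) x = ∑ i ∈ Finset.range k, c g (g ^ i • x) := by
  induction k with
  | zero => simp [hc.one]
  | succ k ih =>
    rw [pow_succ', hc, Finset.sum_range_succ, ih, add_comm]

/-- The twisted permutation of `X × A` attached to `g` and `c : X → A`. -/
def twistPerm (g : SL(2, ℤ)) (c : SL(2, ℤ) ⧸ Γ → A) : Equiv.Perm ((SL(2, ℤ) ⧸ Γ) × A) where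
  toFun p := (g • p.1, p.2 + c p.1)
  invFun p := (g⁻¹ • p.1, p.2 - c (g⁻¹ • p.1))
  left_inv p := by
    apply Prod.ext
    · show g⁻¹ • g • p.1 = p.1
      rw [inv_smul_smul]
    · show p.2 + c p.1 - c (g⁻¹ • g • p.1) = p.2
      rw [inv_smul_smul]; abel
  right_inv p := by
    apply Prod.ext
    · show g • g⁻¹ • p.1 = p.1
      rw [smul_inv_smul]
    · show p.2 - c (g⁻¹ • p.1) + c (g⁻¹ • p.1) = p.2
      abel

@[simp] lemma twistPerm_apply (g : SL(2, ℤ)) (c : SL(2, ℤ) ⧸ Γ → A)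
    (p : (SL(2, ℤ) ⧸ Γ) × A) : twistPerm g c p = (g • p.1, p.2 + c p.1) := rfl

lemma twistPerm_mul (g h : SL(2, ℤ)) (c d : SL(2, ℤ) ⧸ Γ → A) :
    twistPerm g c * twistPerm h d = twistPerm (g * h) (fun x => d x + c (h • x)) := by
  refine Equiv.ext (fun p => ?_)
  show twistPerm g c (twistPerm h d p) = _
  simp only [twistPerm_apply]
  apply Prod.ext
  · show g • h • p.1 = (g * h) • p.1
    rw [mul_smul]
  · show p.2 + d p.1 + c (h • p.1) = p.2 + (d p.1 + c (h • p.1))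
    abel

lemma twistPerm_one : (twistPerm 1 (fun _ => 0) : Equiv.Perm ((SL(2, ℤ) ⧸ Γ) × A)) = 1 := by
  refine Equiv.ext (fun p => ?_)
  simp only [twistPerm_apply]
  apply Prod.ext
  · show (1 : SL(2, ℤ)) • p.1 = p.1
    rw [one_smul]
  · show p.2 + 0 = p.2
    rw [add_zero]

lemma twistPerm_inv (g : SL(2, ℤ)) (c : SL(2, ℤ) ⧸ Γ → A) :
    (twistPerm g c)⁻¹ = twistPerm g⁻¹ (fun x => - c (g⁻¹ • x)) := by
  rw [inv_eq_iff_mul_eq_one, twistPerm_mul]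
  refine Equiv.ext (fun p => ?_)
  simp only [twistPerm_apply]
  apply Prod.ext
  · show (g * g⁻¹) • p.1 = p.1
    rw [mul_inv_cancel, one_smul]
  · show p.2 + (-c (g⁻¹ • p.1) + c (g⁻¹ • p.1)) = p.2
    abel

lemma neg_one_smul_quot (hneg : (-1 : SL(2, ℤ)) ∈ Γ) (x : SL(2, ℤ) ⧸ Γ) :
    (-1 : SL(2, ℤ)) • x = x := by
  induction x using QuotientGroup.induction_on with
  | H g =>
    rw [MulAction.Quotient.smul_mk]
    rw [QuotientGroup.eq]
    have : ((-1 : SL(2, ℤ)) • g)⁻¹ * g = (-1 : SL(2, ℤ)) := by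
      rw [smul_eq_mul, inv_mul_eq_iff_eq_mul, neg_one_mul, neg_mul_neg, mul_one]
    rw [this]
    exact hneg

lemma S_smul_S_smul (hneg : (-1 : SL(2, ℤ)) ∈ Γ) (x : SL(2, ℤ) ⧸ Γ) :
    (S : SL(2, ℤ)) • (S : SL(2, ℤ)) • x = x := by
  rw [← mul_smul, S_mul_S_eq, neg_one_smul_quot hneg]

lemma S_inv_smul (hneg : (-1 : SL(2, ℤ)) ∈ Γ) (x : SL(2, ℤ) ⧸ Γ) :
    (S : SL(2, ℤ))⁻¹ • x = (S : SL(2, ℤ)) • x := by
  rw [inv_smul_eq_iff, S_smul_S_smul hneg]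

lemma U_smul_cube (hneg : (-1 : SL(2, ℤ)) ∈ Γ) (x : SL(2, ℤ) ⧸ Γ) :
    (S * T : SL(2, ℤ)) • (S * T : SL(2, ℤ)) • (S * T : SL(2, ℤ)) • x = x := by
  rw [← mul_smul, ← mul_smul]
  have : (S * T : SL(2, ℤ)) * (S * T) * (S * T) = -1 := by decide
  rw [this, neg_one_smul_quot hneg]

/-- **Shapiro by hand**: cocycle data `(α, β)` extend to a cocycle on `SL(2, ℤ)`. -/
theorem exists_cocycle (hneg : (-1 : SL(2, ℤ)) ∈ Γ) (α β : SL(2, ℤ) ⧸ Γ → A)
    (hα : ∀ x, α x + α ((S : SL(2, ℤ)) • x) = 0)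
    (hβ : ∀ x, β x + β ((S * T : SL(2, ℤ)) • x) +
      β ((S * T : SL(2, ℤ)) • (S * T : SL(2, ℤ)) • x) = 0) :
    ∃ c : SL(2, ℤ) → SL(2, ℤ) ⧸ Γ → A, IsCoc Γ c ∧ c S = α ∧ c (S * T) = β := by
  have hs : (twistPerm S α : Equiv.Perm ((SL(2, ℤ) ⧸ Γ) × A)) ^ 2 = 1 := by
    rw [pow_two]
    refine Equiv.ext (fun p => ?_)
    show twistPerm S α (twistPerm S α p) = p
    simp only [twistPerm_apply]
    apply Prod.ext
    · exact S_smul_S_smul hneg p.1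
    · show p.2 + α p.1 + α ((S : SL(2, ℤ)) • p.1) = p.2
      rw [add_assoc, hα, add_zero]
  have hu : (twistPerm (S * T) β : Equiv.Perm ((SL(2, ℤ) ⧸ Γ) × A)) ^ 3 = 1 := by
    rw [pow_succ, pow_two]
    refine Equiv.ext (fun p => ?_)
    show twistPerm (S * T) β (twistPerm (S * T) β (twistPerm (S * T) β p)) = p
    simp only [twistPerm_apply]
    apply Prod.ext
    · exact U_smul_cube hneg p.1
    · show p.2 + β p.1 + β ((S * T : SL(2, ℤ)) • p.1) +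
        β ((S * T : SL(2, ℤ)) • (S * T : SL(2, ℤ)) • p.1) = p.2
      rw [add_assoc, add_assoc, ← add_assoc (β p.1), hβ, add_zero]
  obtain ⟨F, hFS, hFU⟩ := exists_hom_of_relations _ _ hs hu
  have hform : ∀ g : SL(2, ℤ), ∃ c : SL(2, ℤ) ⧸ Γ → A, F g = twistPerm g c := by
    intro g
    have hg : g ∈ Subgroup.closure ({S, T} : Set SL(2, ℤ)) := by
      rw [SpecialLinearGroup.SL2Z_generators]; trivial
    induction hg using Subgroup.closure_induction with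
    | mem y hy =>
      rcases hy with rfl | hy
      · exact ⟨α, hFS⟩
      · rw [Set.mem_singleton_iff] at hy; subst hy
        have h1 : (T : SL(2, ℤ)) = S⁻¹ * (S * T) := by rw [inv_mul_cancel_left]
        have h2 : F T = (twistPerm S α)⁻¹ * twistPerm (S * T) β := by
          conv_lhs => rw [h1]
          rw [map_mul, map_inv, hFS, hFU]
        rw [twistPerm_inv, twistPerm_mul, ← h1] at h2
        exact ⟨_, h2⟩
    | one => exact ⟨fun _ => 0, by rw [map_one, twistPerm_one]⟩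
    | mul a b _ _ iha ihb =>
      obtain ⟨ca, hca⟩ := iha
      obtain ⟨cb, hcb⟩ := ihb
      exact ⟨_, by rw [map_mul, hca, hcb, twistPerm_mul]⟩
    | inv a _ iha =>
      obtain ⟨ca, hca⟩ := iha
      exact ⟨_, by rw [map_inv, hca, twistPerm_inv]⟩
  have hF : ∀ g x a, F g (x, a) = (g • x, a + (F g (x, 0)).2) := by
    intro g x a
    obtain ⟨c, hc⟩ := hform g
    rw [hc]
    simp only [twistPerm_apply, zero_add]
  refine ⟨fun g x => (F g (x, 0)).2, ?_, ?_, ?_⟩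
  · intro g h x
    show (F (g * h) (x, 0)).2 = (F g (h • x, 0)).2 + (F h (x, 0)).2
    rw [map_mul, Equiv.Perm.mul_apply, hF h x 0, hF g (h • x)]
    show 0 + (F h (x, 0)).2 + (F g (h • x, 0)).2 =
      (F g (h • x, 0)).2 + (0 + (F h (x, 0)).2)
    rw [zero_add, add_comm]
  · funext x
    show (F S (x, 0)).2 = α x
    rw [hFS]
    simp only [twistPerm_apply, zero_add]
  · funext x
    show (F (S * T) (x, 0)).2 = β x
    rw [hFU]
    simp only [twistPerm_apply, zero_add]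

end Cocycles

section Lift

open ModularCurve.Period Fermat.Agent.H28

variable {Γ : Subgroup SL(2, ℤ)} {A : Type*} [AddCommGroup A]

/-- The base point of `SL(2, ℤ) ⧸ Γ`. -/
def basePt (Γ : Subgroup SL(2, ℤ)) : SL(2, ℤ) ⧸ Γ := ((1 : SL(2, ℤ)) : SL(2, ℤ) ⧸ Γ)

lemma smul_basePt (γ : Γ) : (γ : SL(2, ℤ)) • basePt Γ = basePt Γ := by
  show (γ : SL(2, ℤ)) • ((1 : SL(2, ℤ)) : SL(2, ℤ) ⧸ Γ) = ((1 : SL(2, ℤ)) : SL(2, ℤ) ⧸ Γ)
  rw [MulAction.Quotient.smul_mk, smul_eq_mul, mul_one, QuotientGroup.eq, mul_one]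
  exact Γ.inv_mem γ.2

lemma exists_smul_basePt (x : SL(2, ℤ) ⧸ Γ) : ∃ g : SL(2, ℤ), g • basePt Γ = x := by
  induction x using QuotientGroup.induction_on with
  | H g =>
    refine ⟨g, ?_⟩
    show g • ((1 : SL(2, ℤ)) : SL(2, ℤ) ⧸ Γ) = _
    rw [MulAction.Quotient.smul_mk, smul_eq_mul, mul_one]

/-- The homomorphism `Γ → A` attached to a cocycle. -/
def cocHom (c : SL(2, ℤ) → SL(2, ℤ) ⧸ Γ → A) (hc : IsCoc Γ c) : Additive Γ →+ A where
  toFun γ := c ((Additive.toMul γ : Γ) : SL(2, ℤ)) (basePt Γ)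
  map_zero' := hc.one _
  map_add' γ δ := by
    show c (((Additive.toMul γ * Additive.toMul δ : Γ)) : SL(2, ℤ)) (basePt Γ) = _
    rw [Subgroup.coe_mul, hc, smul_basePt]

lemma cocHom_apply (c : SL(2, ℤ) → SL(2, ℤ) ⧸ Γ → A) (hc : IsCoc Γ c) (γ : Γ) :
    cocHom c hc (Additive.ofMul γ) = c (γ : SL(2, ℤ)) (basePt Γ) := rfl

lemma IsCoc.zpow_eq_zero {c : SL(2, ℤ) → SL(2, ℤ) ⧸ Γ → A} (hc : IsCoc Γ c) (g : SL(2, ℤ))
    (hg : ∀ x, c g x = 0) (m : ℤ) (x : SL(2, ℤ) ⧸ Γ) : c (g ^ m) x = 0 := by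
  have hnat : ∀ (k : ℕ) (x : SL(2, ℤ) ⧸ Γ), c (g ^ k) x = 0 := by
    intro k x
    rw [hc.pow]
    exact Finset.sum_eq_zero (fun i _ => hg _)
  obtain ⟨k, rfl | rfl⟩ := m.eq_nat_or_neg
  · rw [zpow_natCast]; exact hnat k x
  · rw [zpow_neg, zpow_natCast, hc.inv, hnat, neg_zero]

lemma trace_conj_eq (a g : SL(2, ℤ)) :
    ((a⁻¹ * g * a : SL(2, ℤ)) : Matrix (Fin 2) (Fin 2) ℤ).trace
      = (g : Matrix (Fin 2) (Fin 2) ℤ).trace := by
  rw [Matrix.SpecialLinearGroup.coe_mul, Matrix.SpecialLinearGroup.coe_mul,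
    Matrix.trace_mul_cycle, ← Matrix.SpecialLinearGroup.coe_mul, mul_inv_cancel,
    Matrix.SpecialLinearGroup.coe_one, one_mul]

/-- If `g` conjugates into a power of `T` fixing the relevant coset, the cocycle value is a
value on that power of `T`. -/
lemma IsCoc.apply_of_conj {c : SL(2, ℤ) → SL(2, ℤ) ⧸ Γ → A} (hc : IsCoc Γ c)
    (γ δ t : SL(2, ℤ)) (h : γ * δ = δ * t) (x : SL(2, ℤ) ⧸ Γ) (hx : γ • x = x) :
    c γ x = c t (δ⁻¹ • x) ∧ t • (δ⁻¹ • x) = δ⁻¹ • x := by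
  have ht : t = δ⁻¹ * γ * δ := by rw [mul_assoc, h, inv_mul_cancel_left]
  have hfix : t • (δ⁻¹ • x) = δ⁻¹ • x := by
    rw [ht, ← mul_smul, mul_assoc, mul_assoc, mul_inv_cancel, mul_one, mul_smul, hx]
  refine ⟨?_, hfix⟩
  have h1 := hc γ δ (δ⁻¹ • x)
  have h2 := hc δ t (δ⁻¹ • x)
  rw [smul_inv_smul] at h1
  rw [hfix] at h2
  rw [h] at h1
  rw [h1, add_comm (c δ (δ⁻¹ • x))] at h2
  exact add_right_cancel h2

/-- **Parabolic criterion**: if `c T` is a `T`-coboundary and `c (-1) = 0`, the homomorphism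
attached to `c` is parabolic. -/
lemma cocHom_isParabolicHom (hneg : (-1 : SL(2, ℤ)) ∈ Γ)
    (c : SL(2, ℤ) → SL(2, ℤ) ⧸ Γ → A) (hc : IsCoc Γ c) (h : SL(2, ℤ) ⧸ Γ → A)
    (hT : ∀ x, c T x = h ((T : SL(2, ℤ)) • x) - h x) (hm : ∀ x, c (-1) x = 0) :
    IsParabolicHom Γ (cocHom c hc) := by
  -- the cocycle `c'` vanishes on `T`
  have hc' : IsCoc Γ (fun g x => c g x - (h (g • x) - h x)) := hc.sub (isCoc_cob h)
  have hzero : ∀ (m : ℤ) (y : SL(2, ℤ) ⧸ Γ), (T : SL(2, ℤ)) ^ m • y = y → c (T ^ m) y = 0 := by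
    intro m y hy
    have := hc'.zpow_eq_zero T (fun x => by
      show c T x - (h ((T : SL(2, ℤ)) • x) - h x) = 0
      rw [hT, sub_self]) m y
    have h2 : c (T ^ m) y - (h ((T : SL(2, ℤ)) ^ m • y) - h y) = 0 := this
    rw [hy, sub_self, sub_zero] at h2
    exact h2
  have key : ∀ γ : SL(2, ℤ), γ • basePt Γ = basePt Γ →
      (γ : Matrix (Fin 2) (Fin 2) ℤ).trace = 2 → c γ (basePt Γ) = 0 := by
    intro γ hγ htr
    obtain ⟨δ, m, hδ⟩ := Fermat.Agent.H97.exists_mul_eq_mul_T_zpow_of_trace_eq_two γ htr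
    obtain ⟨h1, h2⟩ := hc.apply_of_conj γ δ (T ^ m) hδ (basePt Γ) hγ
    rw [h1]
    exact hzero m _ h2
  intro γ htr
  show c (γ : SL(2, ℤ)) (basePt Γ) = 0
  have htr' : ((γ : SL(2, ℤ)) : Matrix (Fin 2) (Fin 2) ℤ).trace = 2 ∨
      ((γ : SL(2, ℤ)) : Matrix (Fin 2) (Fin 2) ℤ).trace = -2 := by
    have : (((γ : SL(2, ℤ)) : Matrix (Fin 2) (Fin 2) ℤ).trace - 2) *
        (((γ : SL(2, ℤ)) : Matrix (Fin 2) (Fin 2) ℤ).trace + 2) = 0 := by
      linear_combination htr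
    rcases mul_eq_zero.mp this with h1 | h1
    · left; linarith
    · right; linarith
  rcases htr' with h2 | h2
  · exact key _ (smul_basePt γ) h2
  · have h3 : ((-(γ : SL(2, ℤ)) : SL(2, ℤ)) : Matrix (Fin 2) (Fin 2) ℤ).trace = 2 := by
      rw [Matrix.SpecialLinearGroup.coe_neg, Matrix.trace_neg, h2]; norm_num
    have h4 : (-(γ : SL(2, ℤ))) • basePt Γ = basePt Γ := by
      rw [← neg_one_mul, mul_smul, smul_basePt, neg_one_smul_quot hneg]
    have h5 := key _ h4 h3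
    rw [← neg_one_mul, hc, smul_basePt, hm, zero_add] at h5
    exact h5

/-- The subgroup of functions `r` that are, up to a `T`-coboundary, of the form `-α'` with
`α' + α' ∘ S = 0`. -/
def bdryGroup (Γ : Subgroup SL(2, ℤ)) : AddSubgroup (SL(2, ℤ) ⧸ Γ → ℤ) where
  carrier := {r | ∃ α' h' : SL(2, ℤ) ⧸ Γ → ℤ, (∀ x, α' x + α' ((S : SL(2, ℤ)) • x) = 0) ∧
    ∀ x, r x + α' x = h' ((T : SL(2, ℤ)) • x) - h' x}
  zero_mem' := ⟨0, 0, fun x => by simp, fun x => by simp⟩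
  add_mem' := by
    rintro r r' ⟨α, h, hα, hr⟩ ⟨α', h', hα', hr'⟩
    refine ⟨α + α', h + h', fun x => ?_, fun x => ?_⟩
    · have := hα x; have := hα' x
      simp only [Pi.add_apply]; linarith
    · have := hr x; have := hr' x
      simp only [Pi.add_apply]; linarith
  neg_mem' := by
    rintro r ⟨α, h, hα, hr⟩
    refine ⟨-α, -h, fun x => ?_, fun x => ?_⟩
    · have := hα x
      simp only [Pi.neg_apply]; linarith
    · have := hr x
      simp only [Pi.neg_apply]; linarith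

lemma mem_bdryGroup_iff (r : SL(2, ℤ) ⧸ Γ → ℤ) : r ∈ bdryGroup Γ ↔
    ∃ α' h' : SL(2, ℤ) ⧸ Γ → ℤ, (∀ x, α' x + α' ((S : SL(2, ℤ)) • x) = 0) ∧
    ∀ x, r x + α' x = h' ((T : SL(2, ℤ)) • x) - h' x := Iff.rfl

open Classical in
lemma single_sub_T_mem (x : SL(2, ℤ) ⧸ Γ) :
    (Pi.single x 1 - Pi.single ((T : SL(2, ℤ)) • x) 1 : SL(2, ℤ) ⧸ Γ → ℤ) ∈ bdryGroup Γ := by
  refine ⟨0, Pi.single ((T : SL(2, ℤ)) • x) 1, fun y => by simp, fun y => ?_⟩
  simp only [Pi.sub_apply, Pi.zero_apply, add_zero, Pi.single_apply]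
  have : ((T : SL(2, ℤ)) • y = (T : SL(2, ℤ)) • x) ↔ y = x := (MulAction.injective _).eq_iff
  simp only [this]

open Classical in
lemma single_sub_S_mem (hneg : (-1 : SL(2, ℤ)) ∈ Γ) (x : SL(2, ℤ) ⧸ Γ) :
    (Pi.single x 1 - Pi.single ((S : SL(2, ℤ)) • x) 1 : SL(2, ℤ) ⧸ Γ → ℤ) ∈ bdryGroup Γ := by
  refine ⟨Pi.single ((S : SL(2, ℤ)) • x) 1 - Pi.single x 1, 0, fun y => ?_, fun y => ?_⟩
  · simp only [Pi.sub_apply, Pi.single_apply]
    have h1 : ((S : SL(2, ℤ)) • y = (S : SL(2, ℤ)) • x) ↔ y = x := (MulAction.injective _).eq_iff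
    have h2 : ((S : SL(2, ℤ)) • y = x) ↔ y = (S : SL(2, ℤ)) • x := by
      constructor
      · intro h; rw [← h, S_smul_S_smul hneg]
      · intro h; rw [h, S_smul_S_smul hneg]
    simp only [h1, h2]
    ring
  · simp only [Pi.sub_apply, Pi.zero_apply]
    ring

open Classical in
lemma single_sub_smul_mem (hneg : (-1 : SL(2, ℤ)) ∈ Γ) (g : SL(2, ℤ)) :
    ∀ x : SL(2, ℤ) ⧸ Γ, (Pi.single (g • x) 1 - Pi.single x 1 : SL(2, ℤ) ⧸ Γ → ℤ) ∈
      bdryGroup Γ := by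
  have hg : g ∈ Subgroup.closure ({S, T} : Set SL(2, ℤ)) := by
    rw [SpecialLinearGroup.SL2Z_generators]; trivial
  induction hg using Subgroup.closure_induction with
  | mem y hy =>
    intro x
    rcases hy with rfl | hy
    · have := (bdryGroup Γ).neg_mem (single_sub_S_mem hneg x)
      rwa [neg_sub] at this
    · rw [Set.mem_singleton_iff] at hy; subst hy
      have := (bdryGroup Γ).neg_mem (single_sub_T_mem x)
      rwa [neg_sub] at this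
  | one =>
    intro x
    rw [one_smul, sub_self]
    exact (bdryGroup Γ).zero_mem
  | mul a b _ _ iha ihb =>
    intro x
    have := (bdryGroup Γ).add_mem (iha (b • x)) (ihb x)
    rwa [sub_add_sub_cancel, ← mul_smul] at this
  | inv a _ iha =>
    intro x
    have := (bdryGroup Γ).neg_mem (iha (a⁻¹ • x))
    rwa [neg_sub, smul_inv_smul] at this

/-- **Connectivity**: every function of total sum zero lies in `bdryGroup`. -/
lemma mem_bdryGroup_of_sum_eq_zero [Fintype (SL(2, ℤ) ⧸ Γ)] (hneg : (-1 : SL(2, ℤ)) ∈ Γ)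
    (r : SL(2, ℤ) ⧸ Γ → ℤ) (hr : ∑ x, r x = 0) : r ∈ bdryGroup Γ := by
  classical
  have hrep : r = ∑ x, r x • (Pi.single x 1 - Pi.single (basePt Γ) 1 :
      SL(2, ℤ) ⧸ Γ → ℤ) := by
    funext y
    rw [Finset.sum_apply]
    simp only [Pi.smul_apply, Pi.sub_apply, Pi.single_apply, smul_eq_mul, mul_sub,
      mul_ite, mul_one, mul_zero]
    rw [Finset.sum_sub_distrib, Finset.sum_ite_eq Finset.univ y r, if_pos (Finset.mem_univ y)]
    have : ∑ x, (if y = basePt Γ then r x else 0) = 0 := by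
      split_ifs
      · exact hr
      · simp
    rw [this, sub_zero]
  rw [hrep]
  refine (bdryGroup Γ).sum_mem (fun x _ => (bdryGroup Γ).zsmul_mem ?_ _)
  obtain ⟨g, rfl⟩ := exists_smul_basePt x
  exact single_sub_smul_mem hneg g (basePt Γ)

end Lift

section Main

open ModularCurve.Period Fermat.Agent.H28

variable {Γ : Subgroup SL(2, ℤ)} {A : Type*} [AddCommGroup A]

lemma coch_isCoc (ψ : Additive Γ →+ A) : IsCoc Γ (coch Γ ψ) :=
  fun g h x => coch_mul Γ ψ g h x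

lemma coch_eq_zero_of_trace (ψ : Additive Γ →+ A) (hpar : IsParabolicHom Γ ψ) (g : SL(2, ℤ))
    (x : SL(2, ℤ) ⧸ Γ) (hx : g • x = x)
    (htr : (g : Matrix (Fin 2) (Fin 2) ℤ).trace ^ 2 = 4) : coch Γ ψ g x = 0 := by
  unfold coch
  apply hpar
  rw [coe_cocyc_of_smul_eq Γ hx, trace_conj_eq]
  exact htr

lemma coch_eq_zero_of_finOrder (ψ : Additive Γ →+ A)
    (hell : ∀ γ : Γ, IsOfFinOrder γ → ψ (Additive.ofMul γ) = 0) (g : SL(2, ℤ))
    (x : SL(2, ℤ) ⧸ Γ) (hx : g • x = x) (hg : IsOfFinOrder g) : coch Γ ψ g x = 0 := by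
  unfold coch
  apply hell
  obtain ⟨k, hk, hgk⟩ := isOfFinOrder_iff_pow_eq_one.mp hg
  rw [isOfFinOrder_iff_pow_eq_one]
  refine ⟨k, hk, Subtype.ext ?_⟩
  rw [Subgroup.coe_pow, coe_cocyc_of_smul_eq Γ hx]
  have h1 : (Quotient.out x)⁻¹ * g * Quotient.out x =
      (Quotient.out x)⁻¹ * g * ((Quotient.out x)⁻¹)⁻¹ := by rw [inv_inv]
  rw [h1, conj_pow, hgk, mul_one, inv_inv, inv_mul_cancel]
  rfl

lemma coch_basePt (ψ : Additive Γ →+ A) (γ : Γ) :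
    coch Γ ψ (γ : SL(2, ℤ)) (basePt Γ) = ψ (Additive.ofMul γ) := by
  unfold coch
  have hout : (Quotient.out (basePt Γ) : SL(2, ℤ)) ∈ Γ := by
    have h1 : ((Quotient.out (basePt Γ) : SL(2, ℤ)) : SL(2, ℤ) ⧸ Γ) =
        ((1 : SL(2, ℤ)) : SL(2, ℤ) ⧸ Γ) := QuotientGroup.out_eq' (basePt Γ)
    rw [QuotientGroup.eq, mul_one] at h1
    have := Γ.inv_mem h1
    rwa [inv_inv] at this
  set δ : Γ := ⟨Quotient.out (basePt Γ), hout⟩ with hδ
  have h2 : cocyc Γ (γ : SL(2, ℤ)) (basePt Γ) = δ⁻¹ * γ * δ := by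
    apply Subtype.ext
    rw [coe_cocyc, smul_basePt]
    rfl
  rw [h2, ofMul_mul, ofMul_mul, map_add, map_add, ofMul_inv, map_neg]
  abel

lemma toPerm_pow_apply (g : SL(2, ℤ)) (k : ℕ) (x : SL(2, ℤ) ⧸ Γ) :
    ((MulAction.toPerm g : Equiv.Perm (SL(2, ℤ) ⧸ Γ)) ^ k) x = g ^ k • x := by
  have : (MulAction.toPerm g : Equiv.Perm (SL(2, ℤ) ⧸ Γ)) ^ k = MulAction.toPerm (g ^ k) := by
    rw [← MulAction.toPermHom_apply, ← map_pow]; rfl
  rw [this]; rfl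

lemma trace_T_pow_sq (k : ℕ) :
    (((T : SL(2, ℤ)) ^ k : SL(2, ℤ)) : Matrix (Fin 2) (Fin 2) ℤ).trace ^ 2 = 4 := by
  rw [← zpow_natCast, ModularGroup.coe_T_zpow]
  simp [Matrix.trace_fin_two]

/-- Value on `T` of a cocycle with prescribed values on `S` and `S * T`. -/
lemma IsCoc.apply_T {c : SL(2, ℤ) → SL(2, ℤ) ⧸ Γ → A} (hc : IsCoc Γ c) (x : SL(2, ℤ) ⧸ Γ) :
    c T x = - c S ((T : SL(2, ℤ)) • x) + c (S * T) x := by
  have h1 : (T : SL(2, ℤ)) = S⁻¹ * (S * T) := by rw [inv_mul_cancel_left]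
  conv_lhs => rw [h1]
  rw [hc, hc.inv, ← mul_smul, inv_mul_cancel_left]

lemma IsCoc.apply_neg_one {c : SL(2, ℤ) → SL(2, ℤ) ⧸ Γ → A} (hc : IsCoc Γ c)
    (hS : ∀ x, c S x + c S ((S : SL(2, ℤ)) • x) = 0) (x : SL(2, ℤ) ⧸ Γ) : c (-1) x = 0 := by
  rw [← S_mul_S_eq, hc, add_comm]
  exact hS x

lemma sum_eq_zero_of_invol [Fintype (SL(2, ℤ) ⧸ Γ)] (a : SL(2, ℤ) ⧸ Γ → ℤ)
    (ha : ∀ x, a x + a ((S : SL(2, ℤ)) • x) = 0) : ∑ x, a x = 0 := by
  have h1 : ∑ x, a ((S : SL(2, ℤ)) • x) = ∑ x, a x :=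
    Equiv.sum_comp (MulAction.toPerm (S : SL(2, ℤ))) a
  have h2 : ∑ x, (a x + a ((S : SL(2, ℤ)) • x)) = 0 :=
    Finset.sum_eq_zero (fun x _ => ha x)
  rw [Finset.sum_add_distrib, h1] at h2
  omega

lemma sum_eq_zero_of_order3 [Fintype (SL(2, ℤ) ⧸ Γ)] (b : SL(2, ℤ) ⧸ Γ → ℤ)
    (hb : ∀ x, b x + b ((S * T : SL(2, ℤ)) • x) +
      b ((S * T : SL(2, ℤ)) • (S * T : SL(2, ℤ)) • x) = 0) : ∑ x, b x = 0 := by
  have h1 : ∑ x, b ((S * T : SL(2, ℤ)) • x) = ∑ x, b x :=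
    Equiv.sum_comp (MulAction.toPerm (S * T : SL(2, ℤ))) b
  have h1' : ∑ x, b ((S * T : SL(2, ℤ)) • (S * T : SL(2, ℤ)) • x) = ∑ x, b x := by
    rw [← h1]
    exact Equiv.sum_comp (MulAction.toPerm (S * T : SL(2, ℤ)))
      (fun x => b ((S * T : SL(2, ℤ)) • x))
  have h2 : ∑ x, (b x + b ((S * T : SL(2, ℤ)) • x) +
      b ((S * T : SL(2, ℤ)) • (S * T : SL(2, ℤ)) • x)) = 0 :=
    Finset.sum_eq_zero (fun x _ => hb x)
  rw [Finset.sum_add_distrib, Finset.sum_add_distrib, h1, h1'] at h2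
  omega

/-- **Lifting of parabolic classes**, core version: the hypotheses on elliptic elements are
stated as the vanishing of the cocycle of `ψ` at the fixed points of `S` and `S * T`. -/
theorem exists_parabolic_lift_core (Γ : Subgroup SL(2, ℤ)) [Finite (SL(2, ℤ) ⧸ Γ)]
    (hneg : (-1 : SL(2, ℤ)) ∈ Γ) (n : ℕ) [NeZero n] (ψ : Additive Γ →+ ZMod n)
    (hpar : IsParabolicHom Γ ψ)
    (hfixα : ∀ x : SL(2, ℤ) ⧸ Γ, (S : SL(2, ℤ)) • x = x → coch Γ ψ S x = 0)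
    (hfixβ : ∀ x : SL(2, ℤ) ⧸ Γ, (S * T : SL(2, ℤ)) • x = x → coch Γ ψ (S * T) x = 0) :
    ∃ Ψ : Additive Γ →+ ℤ, IsParabolicHom Γ Ψ ∧ ∀ γ, ((Ψ γ : ℤ) : ZMod n) = ψ γ := by
  classical
  have : Fintype (SL(2, ℤ) ⧸ Γ) := Fintype.ofFinite _
  have hcψ : IsCoc Γ (coch Γ ψ) := coch_isCoc ψ
  -- Step 1: the data mod `n`
  have hα : ∀ x, coch Γ ψ S x + coch Γ ψ S ((S : SL(2, ℤ)) • x) = 0 := by
    intro x
    have := hcψ S S x
    rw [add_comm, ← this, S_mul_S_eq]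
    exact coch_eq_zero_of_trace ψ hpar (-1) x (neg_one_smul_quot hneg x) (by decide)
  have hβ : ∀ x, coch Γ ψ (S * T) x + coch Γ ψ (S * T) ((S * T : SL(2, ℤ)) • x) +
      coch Γ ψ (S * T) ((S * T : SL(2, ℤ)) • (S * T : SL(2, ℤ)) • x) = 0 := by
    intro x
    have h1 := hcψ (S * T) (S * T) x
    have h2 := hcψ (S * T) ((S * T) * (S * T)) x
    rw [h1, mul_smul] at h2
    have h3 : (S * T : SL(2, ℤ)) * ((S * T) * (S * T)) = -1 := by decide
    rw [h3] at h2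
    have h4 := coch_eq_zero_of_trace ψ hpar (-1) x (neg_one_smul_quot hneg x) (by decide)
    rw [h4] at h2
    rw [h2]; abel
  -- Step 2: integral lifts
  obtain ⟨a, ha, ha'⟩ := lift_invol (fun x : SL(2, ℤ) ⧸ Γ => (S : SL(2, ℤ)) • x)
    (S_smul_S_smul hneg) (coch Γ ψ S) hα hfixα
  obtain ⟨b, hb, hb'⟩ := lift_order3 (fun x : SL(2, ℤ) ⧸ Γ => (S * T : SL(2, ℤ)) • x)
    (U_smul_cube hneg) (coch Γ ψ (S * T)) hβ hfixβ
  obtain ⟨c, hc, hcS, hcU⟩ := exists_cocycle hneg a b ha hb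
  -- Step 3: `c` reduces to `coch ψ`
  have hcn : IsCoc Γ (fun g x => ((c g x : ℤ) : ZMod n)) := by
    intro g h x
    show ((c (g * h) x : ℤ) : ZMod n) = ((c g (h • x) : ℤ) : ZMod n) + ((c h x : ℤ) : ZMod n)
    rw [hc, Int.cast_add]
  have hred : ∀ g x, ((c g x : ℤ) : ZMod n) = coch Γ ψ g x := by
    intro g x
    refine hcn.ext hcψ (fun x => ?_) (fun x => ?_) g x
    · show ((c S x : ℤ) : ZMod n) = _
      rw [hcS]; exact ha' x
    · show ((c (S * T) x : ℤ) : ZMod n) = _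
      rw [hcU]; exact hb' x
  -- Step 4: a potential mod `n` for `coch ψ T`
  have hf : ∀ (x : SL(2, ℤ) ⧸ Γ) (k : ℕ),
      ((MulAction.toPerm (T : SL(2, ℤ)) : Equiv.Perm (SL(2, ℤ) ⧸ Γ)) ^ k) x = x →
      ∑ i ∈ Finset.range k, coch Γ ψ T
        (((MulAction.toPerm (T : SL(2, ℤ)) : Equiv.Perm (SL(2, ℤ) ⧸ Γ)) ^ i) x) = 0 := by
    intro x k hk
    rw [toPerm_pow_apply] at hk
    have h1 : ∑ i ∈ Finset.range k, coch Γ ψ T
        (((MulAction.toPerm (T : SL(2, ℤ)) : Equiv.Perm (SL(2, ℤ) ⧸ Γ)) ^ i) x) =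
        ∑ i ∈ Finset.range k, coch Γ ψ T ((T : SL(2, ℤ)) ^ i • x) :=
      Finset.sum_congr rfl (fun i _ => by rw [toPerm_pow_apply])
    rw [h1, ← hcψ.pow]
    exact coch_eq_zero_of_trace ψ hpar _ x hk (trace_T_pow_sq k)
  obtain ⟨hn, hhn⟩ := exists_potential _ (coch Γ ψ T) hf
  set ht : SL(2, ℤ) ⧸ Γ → ℤ := fun x => ((hn x).val : ℤ) with hht
  have hht' : ∀ x, ((ht x : ℤ) : ZMod n) = hn x := fun x => zmodLift_cast (hn x)
  have hdvd : ∀ x, ∃ r : ℤ, c T x - (ht ((T : SL(2, ℤ)) • x) - ht x) = n * r := by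
    intro x
    have h1 : (((c T x - (ht ((T : SL(2, ℤ)) • x) - ht x) : ℤ)) : ZMod n) = 0 := by
      rw [Int.cast_sub, Int.cast_sub, hred, hht', hht', hhn x]
      show hn ((T : SL(2, ℤ)) • x) - hn x - (hn ((T : SL(2, ℤ)) • x) - hn x) = 0
      rw [sub_self]
    exact (ZMod.intCast_zmod_eq_zero_iff_dvd _ n).mp h1
  choose r hr using hdvd
  -- Step 5: total sum of `r` vanishes
  have hcT : ∀ x, c T x = - a ((T : SL(2, ℤ)) • x) + b x := by
    intro x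
    rw [hc.apply_T, hcS, hcU]
  have hsum_r : ∑ x, r x = 0 := by
    have h1 : ∑ x, a ((T : SL(2, ℤ)) • x) = ∑ x, a x :=
      Equiv.sum_comp (MulAction.toPerm (T : SL(2, ℤ))) a
    have h2 : ∑ x, ht ((T : SL(2, ℤ)) • x) = ∑ x, ht x :=
      Equiv.sum_comp (MulAction.toPerm (T : SL(2, ℤ))) ht
    have h3 : ∑ x, (c T x - (ht ((T : SL(2, ℤ)) • x) - ht x)) = 0 := by
      simp only [hcT]
      rw [Finset.sum_sub_distrib, Finset.sum_sub_distrib, Finset.sum_add_distrib,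
        Finset.sum_neg_distrib, h1, h2, sum_eq_zero_of_invol a ha,
        sum_eq_zero_of_order3 b hb]
      simp
    have h4 : (n : ℤ) * ∑ x, r x = 0 := by
      rw [Finset.mul_sum, ← h3]
      exact Finset.sum_congr rfl (fun x _ => (hr x).symm)
    rcases mul_eq_zero.mp h4 with h5 | h5
    · exact absurd (by exact_mod_cast h5) (NeZero.ne n)
    · exact h5
  -- Step 6: boundary correction
  obtain ⟨α', h', hα', hrα⟩ := (mem_bdryGroup_iff r).mp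
    (mem_bdryGroup_of_sum_eq_zero hneg r hsum_r)
  obtain ⟨c', hc', hc'S, hc'U⟩ := exists_cocycle hneg α' (fun _ => (0 : ℤ)) hα'
    (fun x => by simp)
  have hc'T : ∀ x, c' T x = - α' ((T : SL(2, ℤ)) • x) := by
    intro x
    rw [hc'.apply_T, hc'S, hc'U, add_zero]
  have hc'' : IsCoc Γ (fun g x => c g x - (n : ℤ) • c' g x) := hc.sub (hc'.zsmul n)
  have hpar'' : IsParabolicHom Γ (cocHom _ hc'') := by
    refine cocHom_isParabolicHom hneg _ hc''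
      (fun x => ht x + (n : ℤ) * (h' x + α' x)) (fun x => ?_) (fun x => ?_)
    · show c T x - (n : ℤ) • c' T x = _
      rw [hc'T, smul_eq_mul]
      have e1 := hr x
      have e2 := hrα x
      linear_combination e1 + (n : ℤ) * e2
    · show c (-1) x - (n : ℤ) • c' (-1) x = 0
      rw [hc.apply_neg_one (fun x => by rw [hcS]; exact ha x),
        hc'.apply_neg_one (fun x => by rw [hc'S]; exact hα' x)]
      simp
  refine ⟨cocHom _ hc'', hpar'', fun γ => ?_⟩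
  show (((c ((Additive.toMul γ : Γ) : SL(2, ℤ)) (basePt Γ) -
    (n : ℤ) • c' ((Additive.toMul γ : Γ) : SL(2, ℤ)) (basePt Γ)) : ℤ) : ZMod n) = ψ γ
  rw [Int.cast_sub, hred, smul_eq_mul, Int.cast_mul, Int.cast_natCast, ZMod.natCast_self,
    zero_mul, sub_zero, coch_basePt]
  rfl

/-- **Lifting of parabolic classes** for a finite-index subgroup of `SL(2, ℤ)` containing
`-1` (hypothesis: `ψ` kills the elements of finite order). -/
theorem exists_parabolic_lift_of_subgroup (Γ : Subgroup SL(2, ℤ)) [Finite (SL(2, ℤ) ⧸ Γ)]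
    (hneg : (-1 : SL(2, ℤ)) ∈ Γ) (n : ℕ) [NeZero n] (ψ : Additive Γ →+ ZMod n)
    (hpar : IsParabolicHom Γ ψ)
    (hell : ∀ γ : Γ, IsOfFinOrder γ → ψ (Additive.ofMul γ) = 0) :
    ∃ Ψ : Additive Γ →+ ℤ, IsParabolicHom Γ Ψ ∧ ∀ γ, ((Ψ γ : ℤ) : ZMod n) = ψ γ := by
  refine exists_parabolic_lift_core Γ hneg n ψ hpar ?_ ?_
  · intro x hx
    refine coch_eq_zero_of_finOrder ψ hell S x hx ?_
    rw [isOfFinOrder_iff_pow_eq_one]
    exact ⟨4, by norm_num, by decide⟩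
  · intro x hx
    refine coch_eq_zero_of_finOrder ψ hell (S * T) x hx ?_
    rw [isOfFinOrder_iff_pow_eq_one]
    refine ⟨6, by norm_num, ?_⟩
    have : ((S * T : SL(2, ℤ)) ^ 6) = ((S * T) ^ 3) ^ 2 := by rw [← pow_mul]
    rw [this, ST_pow_three_eq]
    decide

/-- **Lifting of parabolic classes** for a finite-index subgroup of `SL(2, ℤ)` containing
`-1` (hypothesis: `ψ` kills the elements of trace `0` and of trace `1`). -/
theorem exists_parabolic_lift_of_trace (Γ : Subgroup SL(2, ℤ)) [Finite (SL(2, ℤ) ⧸ Γ)]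
    (hneg : (-1 : SL(2, ℤ)) ∈ Γ) (n : ℕ) [NeZero n] (ψ : Additive Γ →+ ZMod n)
    (hpar : IsParabolicHom Γ ψ)
    (hell : ∀ γ : Γ, (((γ : SL(2, ℤ)) : Matrix (Fin 2) (Fin 2) ℤ).trace = 0 ∨
      ((γ : SL(2, ℤ)) : Matrix (Fin 2) (Fin 2) ℤ).trace = 1) → ψ (Additive.ofMul γ) = 0) :
    ∃ Ψ : Additive Γ →+ ℤ, IsParabolicHom Γ Ψ ∧ ∀ γ, ((Ψ γ : ℤ) : ZMod n) = ψ γ := by
  refine exists_parabolic_lift_core Γ hneg n ψ hpar ?_ ?_
  · intro x hx
    unfold coch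
    apply hell
    left
    rw [coe_cocyc_of_smul_eq Γ hx, trace_conj_eq]
    decide
  · intro x hx
    unfold coch
    apply hell
    right
    rw [coe_cocyc_of_smul_eq Γ hx, trace_conj_eq]
    decide

/-- **LB-LIFT** (P-S16): a parabolic homomorphism `Γ₀(N) → ℤ/n` that kills the elements of
finite order lifts to a parabolic homomorphism `Γ₀(N) → ℤ`. -/
theorem exists_parabolic_lift (N : ℕ) [NeZero N] (n : ℕ) [NeZero n]
    (ψ : Additive (Gamma0 N) →+ ZMod n)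
    (hpar : ModularCurve.Period.IsParabolicHom (Gamma0 N) ψ)
    (hell : ∀ γ : Gamma0 N, IsOfFinOrder γ → ψ (Additive.ofMul γ) = 0) :
    ∃ Ψ : Additive (Gamma0 N) →+ ℤ, ModularCurve.Period.IsParabolicHom (Gamma0 N) Ψ ∧
      ∀ γ, ((Ψ γ : ℤ) : ZMod n) = ψ γ := by
  have hneg : (-1 : SL(2, ℤ)) ∈ Gamma0 N := by
    rw [Gamma0_mem]
    simp
  exact exists_parabolic_lift_of_subgroup (Gamma0 N) hneg n ψ hpar hell

end Main

end Fermat.Agent.H85
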