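/-
helper85: P-ES / Q-EIG-A (row 389): `EigenTensorStatement` (pure algebra).
An eigenvector in `Hom(Γ, k)` whose `𝔽_p`-coordinates come from `P ↪ Hom(Γ, 𝔽_p)` gives an
eigenvector in `k ⊗ P`.  Everything lives in namespace `Fermat.Agent.H85`.
-/
import Fermat.Agent.H94.QEig.Interfaces

set_option autoImplicit false

noncomputable section

open scoped TensorProduct

namespace Fermat.Agent.H85

section core

variable {p : ℕ} {k : Type} [Field k] [Algebra (ZMod p) k]
  {Γ : Type} [Group Γ] {P : Type} [AddCommGroup P]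

/-- The coefficient map `𝔽_p → k`, `a ↦ c * a`. -/
def qeCoeff (c : k) : ZMod p →+ k :=
  (AddMonoidHom.mulLeft c).comp (algebraMap (ZMod p) k).toAddMonoidHom

@[simp]
theorem qeCoeff_apply (c : k) (a : ZMod p) : qeCoeff (p := p) c a = c * algebraMap (ZMod p) k a :=
  rfl

/-- The bilinear map underlying `qeMu`. -/
def qeMuAux (κ : P →+ (Additive Γ →+ ZMod p)) : k →+ P →+ (Additive Γ →+ k) :=
  AddMonoidHom.mk' (fun c =>
    AddMonoidHom.mk' (fun x => (qeCoeff (p := p) c).comp (κ x)) (fun x y => by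
      refine AddMonoidHom.ext fun γ => ?_
      simp [mul_add]))
    (fun c c' => by
      refine AddMonoidHom.ext fun x => AddMonoidHom.ext fun γ => ?_
      simp [add_mul])

@[simp]
theorem qeMuAux_apply (κ : P →+ (Additive Γ →+ ZMod p)) (c : k) (x : P) (γ : Additive Γ) :
    qeMuAux κ c x γ = c * algebraMap (ZMod p) k (κ x γ) := rfl

variable [Module (ZMod p) P]

/-- The comparison map `k ⊗ P → Hom(Γ, k)`, `c ⊗ x ↦ (γ ↦ c * κ x γ)`. -/
def qeMu (κ : P →+ (Additive Γ →+ ZMod p)) : k ⊗[ZMod p] P →+ (Additive Γ →+ k) :=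
  TensorProduct.liftAddHom (qeMuAux κ) (fun r c x => by
    refine AddMonoidHom.ext fun γ => ?_
    rw [qeMuAux_apply, qeMuAux_apply, ZMod.map_smul κ r x, AddMonoidHom.smul_apply,
      Algebra.smul_def, smul_eq_mul, map_mul]
    ring)

@[simp]
theorem qeMu_tmul (κ : P →+ (Additive Γ →+ ZMod p)) (c : k) (x : P) (γ : Additive Γ) :
    qeMu κ (c ⊗ₜ[ZMod p] x) γ = c * algebraMap (ZMod p) k (κ x γ) := rfl

theorem qeMu_tmul' (κ : P →+ (Additive Γ →+ ZMod p)) (c : k) (x : P) :
    qeMu κ (c ⊗ₜ[ZMod p] x) = (qeCoeff (p := p) c).comp (κ x) := rfl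

theorem qeMu_smul (κ : P →+ (Additive Γ →+ ZMod p)) (c : k) (v : k ⊗[ZMod p] P) :
    qeMu κ (c • v) = c • qeMu κ v := by
  induction v using TensorProduct.induction_on with
  | zero => simp
  | tmul c' x =>
    refine AddMonoidHom.ext fun γ => ?_
    rw [TensorProduct.smul_tmul', qeMu_tmul, AddMonoidHom.smul_apply, qeMu_tmul, smul_eq_mul,
      smul_eq_mul, mul_assoc]
  | add v w hv hw => rw [smul_add, map_add, hv, hw, map_add, smul_add]

theorem qeMu_injective {ι : Type} (b : Module.Basis ι (ZMod p) k)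
    (κ : P →+ (Additive Γ →+ ZMod p)) (hκ : Function.Injective κ) :
    Function.Injective (qeMu (k := k) κ) := by
  rw [injective_iff_map_eq_zero]
  intro v hv
  obtain ⟨c, rfl⟩ := TensorProduct.eq_repr_basis_left b v
  have hc : c = 0 := by
    ext i
    rw [Finsupp.coe_zero, Pi.zero_apply]
    apply hκ
    rw [map_zero]
    refine AddMonoidHom.ext fun γ => ?_
    have h1 := DFunLike.congr_fun hv γ
    rw [Finsupp.sum, map_sum, AddMonoidHom.finsetSum_apply] at h1
    simp only [qeMu_tmul, AddMonoidHom.zero_apply] at h1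
    have h2 : ∑ j ∈ c.support, (κ (c j) γ) • b j = 0 := by
      rw [← h1]
      refine Finset.sum_congr rfl (fun j _ => ?_)
      rw [Algebra.smul_def, mul_comm]
    have h3 := (linearIndependent_iff'.mp b.linearIndependent) c.support
      (fun j => κ (c j) γ) h2
    by_cases hi : i ∈ c.support
    · simpa using h3 i hi
    · rw [Finsupp.notMem_support_iff.mp hi]
      simp
  rw [hc]
  simp

end core

open Fermat.Agent.H94.QEig in
/-- **Q-EIG-A** -/
theorem eigenTensor : EigenTensorStatement := by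
  intro p _ k _ _ Γ _ _ P _ _ κ hκ ι T S₀ S₁ hnat hT ψ hψ hrange c hc
  classical
  -- basis of `k` over `𝔽_p`
  let b := Module.Basis.ofVectorSpace (ZMod p) k
  -- generators of `Γ`
  obtain ⟨G0, hG0, hG0fin⟩ := Group.fg_iff.mp (inferInstance : Group.FG Γ)
  let I0 : Finset (Module.Basis.ofVectorSpaceIndex (ZMod p) k) :=
    hG0fin.toFinset.biUnion (fun g => (b.repr (ψ (Additive.ofMul g))).support)
  -- coordinates of `ψ`
  let ψc : Module.Basis.ofVectorSpaceIndex (ZMod p) k → (Additive Γ →+ ZMod p) :=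
    fun i => (b.coord i).toAddMonoidHom.comp ψ
  have hψc_apply : ∀ i γ, ψc i γ = b.repr (ψ γ) i := fun i γ => rfl
  have hψc_zero : ∀ i, i ∉ I0 → ψc i = 0 := by
    intro i hi
    have h1 : (AddMonoidHom.toMultiplicativeRight (ψc i)) = 1 := by
      refine MonoidHom.eq_of_eqOn_dense hG0 ?_
      intro g hg
      show Multiplicative.ofAdd (ψc i (Additive.ofMul g)) = 1
      rw [hψc_apply]
      have : i ∉ (b.repr (ψ (Additive.ofMul g))).support := by
        intro hmem
        exact hi (Finset.mem_biUnion.mpr ⟨g, hG0fin.mem_toFinset.mpr hg, hmem⟩)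
      rw [Finsupp.notMem_support_iff.mp this]
      rfl
    refine AddMonoidHom.ext fun γ => ?_
    have h2 := DFunLike.congr_fun h1 (Additive.toMul γ)
    exact Multiplicative.ofAdd.injective h2
  -- preimages under `κ`
  have hx : ∀ i, ∃ x : P, κ x = ψc i := fun i => hrange (b.coord i)
  choose x hxκ using hx
  let v : k ⊗[ZMod p] P := ∑ i ∈ I0, b i ⊗ₜ[ZMod p] x i
  have hμv : qeMu κ v = ψ := by
    refine AddMonoidHom.ext fun γ => ?_
    rw [map_sum, AddMonoidHom.finsetSum_apply]
    simp only [qeMu_tmul, hxκ, hψc_apply]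
    have h1 : ∑ i ∈ I0, b i * algebraMap (ZMod p) k (b.repr (ψ γ) i)
        = ∑ i ∈ I0, (b.repr (ψ γ) i) • b i := by
      refine Finset.sum_congr rfl (fun j _ => ?_)
      rw [Algebra.smul_def, mul_comm]
    rw [h1]
    have h2 : (b.repr (ψ γ)).support ⊆ I0 := by
      intro i hi
      by_contra hi0
      have := DFunLike.congr_fun (hψc_zero i hi0) γ
      rw [hψc_apply] at this
      exact (Finsupp.mem_support_iff.mp hi) this
    have h3 : ∑ i ∈ I0, (b.repr (ψ γ) i) • b i
        = (b.repr (ψ γ)).sum (fun i a => a • b i) := by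
      rw [Finsupp.sum]
      refine (Finset.sum_subset h2 (fun i _ hi => ?_)).symm
      rw [Finsupp.notMem_support_iff.mp hi, zero_smul]
    rw [h3]
    exact b.linearCombination_repr (ψ γ)
  have hv0 : v ≠ 0 := by
    intro h0
    apply hψ
    rw [← hμv, h0, map_zero]
  refine ⟨v, hv0, fun i => ?_⟩
  -- compatibility of `qeMu` with the operators
  have hcomm : ∀ w : k ⊗[ZMod p] P, qeMu κ ((T i).baseChange k w) = S₁ i (qeMu κ w) := by
    intro w
    induction w using TensorProduct.induction_on with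
    | zero => simp
    | tmul c' y =>
      rw [LinearMap.baseChange_tmul, qeMu_tmul', qeMu_tmul', hT, hnat]
    | add w w' hw hw' => rw [map_add, map_add, hw, hw', map_add, map_add]
  apply qeMu_injective b κ hκ
  rw [hcomm, hμv, hc, qeMu_smul, hμv]

end Fermat.Agent.H85

end
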