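import Fermat.Agent.H85.S16Lift
import Fermat.Agent.H63.S16LB.Interfaces

/-!
# LB-LIFT in the interface form of helper63 (helper85, P-S16)

`Fermat.Agent.H85.liftStatement N m : Fermat.Agent.H63.LiftStatement N m` for every `N ≠ 0` and
every `m` (for `m = 0` the statement is trivial since `ZMod 0 = ℤ`).
-/

set_option autoImplicit false

open scoped MatrixGroups
open CongruenceSubgroup

namespace Fermat.Agent.H85

/-- **LB-LIFT**, interface form. -/
theorem liftStatement (N : ℕ) [NeZero N] (m : ℕ) : Fermat.Agent.H63.LiftStatement N m := by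
  intro c hpar hell
  rcases Nat.eq_zero_or_pos m with hm | hm
  · subst hm
    exact ⟨c, hpar, fun γ => Int.cast_id⟩
  · have : NeZero m := ⟨hm.ne'⟩
    have hneg : (-1 : SL(2, ℤ)) ∈ Gamma0 N := by
      rw [Gamma0_mem]
      simp
    obtain ⟨Ψ, hΨ, hΨc⟩ := exists_parabolic_lift_of_trace (Gamma0 N) hneg m c hpar
      (fun γ h => hell γ (by
        rcases h with h | h
        · exact Or.inl h
        · exact Or.inr (Or.inl h)))
    exact ⟨Ψ, hΨ, fun γ => hΨc (Additive.ofMul γ)⟩

end Fermat.Agent.H85
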