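/-
helper85: P-FF row FF-G1 (618): `DiscEquivStatement` -- the decomposition group permutes the
residue discs.  In fact we prove the full Galois equivariance of the place reduction map,
`r (σ • P) = σ̄ • r P`, from the Gauss-ring hypotheses `RvHyp` and the lifting theorem
(no isolation property, no centre property of `j`).
Everything lives in namespace `Fermat.Agent.H85`.
-/
import Fermat.Agent.H72.FF.GeoBlocks
import Fermat.Agent.H77.EsEGalois

set_option autoImplicit false
set_option synthInstance.maxHeartbeats 400000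
set_option linter.style.haveILetI false
set_option linter.unusedSectionVars false

noncomputable section

open AlgebraicCurve ModularCurve HahnSeries IntermediateField
open Fermat.Agent.H18 Fermat.Agent.H27.ESD Fermat.Agent.H36 Fermat.Agent.H77

namespace Fermat.Agent.H85

section GaussGalois

variable {L : Type*} [Field L] [Algebra ℚ L] {A : ValuationSubring L}
variable {k : Type*} [Field k] {π : A →+* k} {N : ℕ}

set_option maxHeartbeats 400000 in
/-- An automorphism `σ` of `L` inducing `σ̄` on the residue field preserves the Gauss ring and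
commutes with the reduction map. -/
theorem ffd_smul_mem_rvRing (σ : L ≃ₐ[ℚ] L) (σbar : k ≃+* k) (hσ : IsInducedAut A π σ σbar)
    (u : rvRing A π N) :
    ∃ h : arithmeticGalois (modularFunctionFieldFull N) σ • (u : ↥(rvFL L N)) ∈ rvRing A π N,
      rvRed A π N ⟨arithmeticGalois (modularFunctionFieldFull N) σ • (u : ↥(rvFL L N)), h⟩
        = coeffAutC N σbar • rvRed A π N u := by
  have hσA : ∀ a : A, σ (a : L) ∈ A := by
    intro a
    obtain ⟨b, hb, -⟩ := hσ a
    rw [← hb]
    exact b.2
  have hπσ : ∀ a : A, π (esegRestrict A σ hσA a) = σbar (π a) := by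
    intro a
    obtain ⟨b, hb, hπb⟩ := hσ a
    have : esegRestrict A σ hσA a = b := Subtype.ext hb.symm
    rw [this, hπb]
  obtain ⟨yp, ym, hm, hp, h⟩ := mem_rvRing.mp u.2
  have e1 : ∀ y : LaurentSeries A, rvIota A (coeffMap (esegRestrict A σ hσA) y)
      = coeffMap (σ : L →+* L) (rvIota A y) := fun y => eseg_coeffMap_subtype_restrict A σ hσA y
  have e2 : ∀ y : LaurentSeries A, rvRho A π (coeffMap (esegRestrict A σ hσA) y)
      = coeffMap (σbar : k →+* k) (rvRho A π y) :=
    fun y => eseg_coeffMap_pi_restrict A π σ hσA σbar hπσ y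
  have hm' : RvGood A π N (coeffMap (esegRestrict A σ hσA) ym) := by
    refine ⟨?_, ?_, ?_⟩
    · rw [e1]
      exact coeffMap_mem_laurentBaseChange σ hm.1
    · rw [e2]
      exact coeffMap_mem_modularFunctionFieldFullC N _ hm.2.1
    · rw [e2]
      exact eseg_coeffMap_equiv_ne_zero σbar hm.2.2
  have hp' : RvNum A π N (coeffMap (esegRestrict A σ hσA) yp) := by
    refine ⟨?_, ?_⟩
    · rw [e1]
      exact coeffMap_mem_laurentBaseChange σ hp.1
    · rw [e2]
      exact coeffMap_mem_modularFunctionFieldFullC N _ hp.2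
  have hrep : RvRep A π N
      ((arithmeticGalois (modularFunctionFieldFull N) σ • (u : ↥(rvFL L N)) : ↥(rvFL L N)) :
        LaurentSeries L)
      (coeffMap (esegRestrict A σ hσA) yp) (coeffMap (esegRestrict A σ hσA) ym) := by
    refine ⟨hm', hp', ?_⟩
    rw [coe_arithmeticGalois_smul, e1, e1, ← map_mul (coeffMap (σ : L →+* L)), h]
  have hmem : arithmeticGalois (modularFunctionFieldFull N) σ • (u : ↥(rvFL L N)) ∈
      rvRing A π N := ⟨_, _, hrep⟩
  refine ⟨hmem, ?_⟩
  refine rvRed_eq_of (⟨arithmeticGalois (modularFunctionFieldFull N) σ • (u : ↥(rvFL L N)),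
    hmem⟩ : rvRing A π N) hrep (coeffAutC N σbar • rvRed A π N u) ?_
  rw [coe_coeffAutC_smul, e2, e2, ← map_mul (coeffMap (σbar : k →+* k)),
    rvRed_spec u ⟨hm, hp, h⟩]

variable {r : Place L ↥(rvFL L N) → Place k ↥(rvFk k N)}

set_option maxHeartbeats 400000 in
/-- **Galois equivariance of the place reduction map** from the Gauss-ring hypotheses and the
lifting theorem: `r (σ • P) = σ̄ • r P`. -/
theorem ffd_galoisEquivariant (H : RvHyp A π N r) (hArch : RvArch A)
    (hsurj : Function.Surjective π) {gL gk : ℕ} (hL : RiemannPackage L ↥(rvFL L N) gL)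
    (hk : RiemannPackage k ↥(rvFk k N) gk) (hg : gL ≤ gk)
    (σ : L ≃ₐ[ℚ] L) (σbar : k ≃+* k) (hσ : IsInducedAut A π σ σbar) :
    GaloisEquivariantAt N r σ σbar := by
  classical
  intro P
  set g := arithmeticGalois (modularFunctionFieldFull N) σ with hgdef
  set gbar := coeffAutC (k := k) N σbar with hgbar
  set Q := r P with hQ
  by_contra hne
  obtain ⟨c, hc⟩ := H.lifting hArch hsurj hL hk hg
  obtain ⟨ck, hck⟩ := hk.eq_of_large
  set n : ℤ := max (max c ck) 0 + 2 with hn
  have hn1 : c ≤ n := by
    have := le_max_left c ck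
    have := le_max_left (max c ck) 0
    omega
  have hn2 : ck ≤ n - 1 := by
    have := le_max_right c ck
    have := le_max_left (max c ck) 0
    omega
  have hn3 : 2 ≤ n := by
    have := le_max_right (max c ck) 0
    omega
  set D : Divisor L ↥(rvFL L N) := Finsupp.single P n with hD
  set E : Divisor k ↥(rvFk k N) := Finsupp.single Q n with hE
  set E' : Divisor k ↥(rvFk k N) := Finsupp.single Q (n - 1) with hE'
  have hDE : Finsupp.mapDomain r D = E := by
    rw [hD, hE, Finsupp.mapDomain_single]
  have hdegD : Divisor.degree D = n := by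
    rw [hD, Divisor.degree_single, hL.deg_one]
    simp
  have hdegE : Divisor.degree E = n := by
    rw [hE, Divisor.degree_single, hk.deg_one]
    simp
  have hdegE' : Divisor.degree E' = n - 1 := by
    rw [hE', Divisor.degree_single, hk.deg_one]
    simp
  have e1 := hck E (by rw [hdegE]; omega)
  have e2 := hck E' (by rw [hdegE']; exact hn2)
  rw [hdegE] at e1
  rw [hdegE'] at e2
  have hEQ : E Q = n := by
    rw [hE, Finsupp.single_apply, if_pos rfl]
  have hE'Q : E' Q = n - 1 := by
    rw [hE', Finsupp.single_apply, if_pos rfl]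
  have hEE' : ∀ v, v ≠ Q → E' v = E v := by
    intro v hv
    rw [hE, hE', Finsupp.single_apply, Finsupp.single_apply, if_neg (Ne.symm hv),
      if_neg (Ne.symm hv)]
  have hle : riemannRochSpace E' ≤ riemannRochSpace E := by
    intro x hx
    rw [mem_riemannRochSpace_iff] at hx ⊢
    intro v
    rcases hx v with h | h
    · exact Or.inl h
    · right
      by_cases hv : v = Q
      · subst hv
        rw [hE'Q] at h
        rw [hEQ]
        omega
      · rw [hEE' v hv] at h
        exact h
  obtain ⟨x, hxE, hxE'⟩ : ∃ x, x ∈ riemannRochSpace E ∧ x ∉ riemannRochSpace E' := by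
    by_contra hcon
    push Not at hcon
    have heq : riemannRochSpace E = riemannRochSpace E' := le_antisymm hcon hle
    rw [heq] at e1
    omega
  have hx0 : x ≠ 0 := fun h0 => hxE' (h0 ▸ Submodule.zero_mem _)
  have hxQ : Q.ord x < 0 := by
    by_contra hcon
    push Not at hcon
    have h2 : Q.ord x < -(n - 1) := by
      by_contra hcon2
      push Not at hcon2
      apply hxE'
      rw [mem_riemannRochSpace_iff]
      intro v
      right
      by_cases hv : v = Q
      · subst hv
        rw [hE'Q]
        exact hcon2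
      · rw [hEE' v hv]
        rcases (mem_riemannRochSpace_iff.mp hxE) v with h | h
        · exact absurd h hx0
        · exact h
    omega
  -- the lift
  obtain ⟨u, huD, hux⟩ := hc D (by rw [hdegD]; exact hn1) x (by rw [hDE]; exact hxE)
  have hured : rvRed A π N u ≠ 0 := by rw [hux]; exact hx0
  have hu0 : (u : ↥(rvFL L N)) ≠ 0 := rv_coe_ne_zero_of_red_ne_zero hured
  have hupole : ∀ P1, P1 ≠ P → 0 ≤ P1.ord (u : ↥(rvFL L N)) := by
    intro P1 hP1
    rcases (mem_riemannRochSpace_iff.mp huD) P1 with h | h
    · exact absurd h hu0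
    · rw [hD, Finsupp.single_apply, if_neg (Ne.symm hP1), neg_zero] at h
      exact h
  -- its divisor
  obtain ⟨Dv, hDv⟩ := H.hdiv _ hu0
  have h1 : ∀ Q1, Finsupp.mapDomain r Dv Q1 = Q1.ord (rvRed A π N u) :=
    fun Q1 => H.mapDomain_eq u hured Dv hDv Q1
  -- the conjugate function
  obtain ⟨hmem, hred⟩ := ffd_smul_mem_rvRing (N := N) σ σbar hσ u
  have hkey : Finsupp.mapDomain r (g • Dv) = gbar • Finsupp.mapDomain r Dv := by
    refine eseg_mapDomain_smul_of_div r g gbar (u : ↥(rvFL L N)) (rvRed A π N u) Dv hDv h1 ?_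
    intro E1 hE1 Q1
    have hred0 : rvRed A π N ⟨g • (u : ↥(rvFL L N)), hmem⟩ ≠ 0 := by
      rw [hred]
      intro h0
      apply hured
      have := congrArg (fun z => gbar⁻¹ • z) h0
      simpa using this
    have := H.mapDomain_eq ⟨g • (u : ↥(rvFL L N)), hmem⟩ hred0 E1 hE1 Q1
    rw [this, hred]
  -- evaluate at `gbar • Q`
  have hR : (gbar • Finsupp.mapDomain r Dv) (gbar • Q) < 0 := by
    rw [SemilinearAut.divisor_smul_apply, inv_smul_smul, h1 Q, hux]
    exact hxQ
  have hLn : 0 ≤ Finsupp.mapDomain r (g • Dv) (gbar • Q) := by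
    refine rv_mapDomain_nonneg_fibre r (g • Dv) (gbar • Q) ?_
    intro P1 hP1
    rw [SemilinearAut.divisor_smul_apply, hDv]
    refine hupole _ ?_
    intro hcon
    apply hne
    rw [← hcon, smul_inv_smul]
    exact hP1
  rw [hkey] at hLn
  omega

end GaussGalois

section DiscEquiv

open Fermat.Agent.H72.FF Fermat.Agent.H10.FF

set_option maxHeartbeats 400000 in
/-- Under the standing hypotheses of the geometric blocks, the place reduction map is
equivariant for the decomposition group. -/
theorem ffd_geoSetup_equivariant {N ℓ : ℕ} {A : ValuationSubring Qb}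
    {r : Place Qb (FLb N) → Place (kRes A) (Fkb A N)} {g : ℕ} (hS : GeoSetup N ℓ A r g)
    (σ : A.decompositionSubgroup ℚ) (P : Place Qb (FLb N)) :
    r (galF N (σ : GQ) • P) = coeffAutC N (residueAut (K := ℚ) A σ) • r P :=
  ffd_galoisEquivariant hS.rv (rvArch_algebraicClosure A hS.prime hS.liesOver)
    (rv_residue_surjective A) hS.pkgL hS.pkgk le_rfl _ _ (isInducedAut_residueAut A σ) P

set_option maxHeartbeats 400000 in
/-- **FF-G1.** The decomposition group permutes the residue discs. -/
theorem discEquiv : DiscEquivStatement := by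
  intro N ℓ A r g hS σ hσ P P' hPP'
  have h1 := ffd_geoSetup_equivariant hS ⟨σ, hσ⟩ P
  have h2 := ffd_geoSetup_equivariant hS ⟨σ, hσ⟩ P'
  rw [hPP'] at h1
  exact h1.trans h2.symm

end DiscEquiv

end Fermat.Agent.H85

end
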