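/-
helper85: P-ES / ES-B, row ESB-8 (`FiniteOrbitStatement`): a place of `FK` whose orbit under a
subgroup of finite index of the Galois group is finite is the extension of a place of `Fk`.
Everything lives in namespace `Fermat.Agent.H85`.
-/
import Fermat.Agent.H29.ESB.Interfaces
import Fermat.Agent.H29.ResidueConst

set_option autoImplicit false

noncomputable section

open AlgebraicCurve IntermediateField

namespace Fermat.Agent.H85

section residue

variable {K F : Type*} [Field K] [Field F] [Algebra K F]

/-- A place determines the residue of an element: two constants `d`, `d'` such that both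
`X - d` and `X - d'` have positive order coincide. -/
theorem esb_residue_unique (w : Place K F) (X : F) (d d' : K)
    (hd : 0 < w.ord (X - algebraMap K F d)) (hd' : 0 < w.ord (X - algebraMap K F d')) :
    d = d' := by
  by_contra hne
  have h1 := Fermat.Agent.H29.place_ord_add_nonneg_sub w
    (f := X - algebraMap K F d') (g := -(X - algebraMap K F d)) (Or.inl hd') ?_
  · have h2 : X - algebraMap K F d' + -(X - algebraMap K F d) = algebraMap K F (d - d') := by
      rw [map_sub]; ring
    rw [h2, Fermat.Agent.H29.place_ord_algebraMap] at h1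
    rcases h1 with h1 | h1
    · exact lt_irrefl _ h1
    · have h3 : d - d' = 0 := by
        have := (algebraMap K F).injective (h1.trans (map_zero _).symm)
        exact this
      exact hne (sub_eq_zero.mp h3)
  · left
    have h4 : -(X - algebraMap K F d) = algebraMap K F (-1) * (X - algebraMap K F d) := by
      rw [map_neg, map_one]; ring
    have hX : X - algebraMap K F d ≠ 0 := by
      intro h0
      rw [h0, Place.ord_zero] at hd
      exact lt_irrefl _ hd
    have hm1 : algebraMap K F (-1) ≠ 0 := by
      rw [map_neg, map_one]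
      exact neg_ne_zero.mpr one_ne_zero
    rw [h4, w.ord_mul hm1 hX, Fermat.Agent.H29.place_ord_algebraMap, zero_add]
    exact hd

end residue

open Fermat.Agent.H29 in
/-- **ESB-8** A place of `FK` with finite orbit under a subgroup of finite index of the Galois
group is rational. -/
theorem finiteOrbit (h3 : RationalPlaceStatement) : FiniteOrbitStatement := by
  intro k K Fk FK _ _ _ _ _ _ _ _ _ _ E Gd H hH w hfin
  -- the coordinate
  have hx0 : ∀ a : k, E.x - algebraMap k Fk a ≠ 0 := by
    intro a h0
    apply E.x_transc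
    rw [sub_eq_zero.mp h0]
    exact isAlgebraic_algebraMap a
  have hX0 : ∀ c : K, E.bc E.x - algebraMap K FK c ≠ 0 := by
    intro c h0
    apply E.bcx_transc
    rw [sub_eq_zero.mp h0]
    exact isAlgebraic_algebraMap c
  have hbcsub : ∀ a : k, E.bc (E.x - algebraMap k Fk a)
      = E.bc E.x - algebraMap K FK (E.ι a) := by
    intro a
    rw [map_sub, E.bc_algebraMap]
  by_cases hneg : w.ord (E.bc E.x) < 0
  · -- pole of the coordinate
    refine h3 k K Fk FK E w ⟨E.x, ?_, ne_of_lt hneg⟩
    have := hx0 0
    simpa using this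
  · have hmem : E.bc E.x ∈ w.toValuationSubring :=
      place_mem_of_ord_nonneg w (not_lt.mp hneg)
    have hfinX : FiniteDimensional K⟮E.bc E.x⟯ FK := E.bcx_fin
    have halg : Algebra.IsAlgebraic K⟮E.bc E.x⟯ FK := Algebra.IsAlgebraic.of_finite _ _
    obtain ⟨c, hc⟩ := place_exists_const_sub (y := E.bc E.x) w hmem
    have hc' : 0 < w.ord (E.bc E.x - algebraMap K FK c) := by
      rcases hc with hc | hc
      · exact absurd (sub_eq_zero.mpr hc) (hX0 c)
      · exact hc
    by_cases hcr : c ∈ Set.range E.ι
    · obtain ⟨a, rfl⟩ := hcr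
      refine h3 k K Fk FK E w ⟨E.x - algebraMap k Fk a, hx0 a, ?_⟩
      rw [hbcsub a]
      exact ne_of_gt hc'
    · exfalso
      have hinf := Gd.orbit c hcr H hH
      -- for every `d` in the orbit of `c` choose `g ∈ H` moving `c` to `d`
      have key : ∀ g : Gd.G, 0 < (Gd.ρ g • w).ord
          (E.bc E.x - algebraMap K FK (SemilinearAut.baseAut (Gd.ρ g) c)) := by
        intro g
        have h1 : Gd.ρ g • (E.bc E.x - algebraMap K FK c)
            = E.bc E.x - algebraMap K FK (SemilinearAut.baseAut (Gd.ρ g) c) := by
          rw [smul_sub, Gd.fix_bc, SemilinearAut.smul_algebraMap]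
        rw [← h1, SemilinearAut.ord_smul]
        exact hc'
      classical
      let Φ : K → Place K FK := fun d =>
        if h : ∃ g ∈ H, SemilinearAut.baseAut (Gd.ρ g) c = d then Gd.ρ h.choose • w else w
      have hΦ : ∀ d, (∃ g ∈ H, SemilinearAut.baseAut (Gd.ρ g) c = d) →
          (∃ g ∈ H, Gd.ρ g • w = Φ d) ∧ 0 < (Φ d).ord (E.bc E.x - algebraMap K FK d) := by
        intro d hd
        have hΦd : Φ d = Gd.ρ hd.choose • w := dif_pos hd
        obtain ⟨hgH, hgd⟩ := hd.choose_spec
        refine ⟨⟨hd.choose, hgH, hΦd.symm⟩, ?_⟩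
        rw [hΦd]
        have := key hd.choose
        rwa [hgd] at this
      have hmaps : Set.MapsTo Φ {d : K | ∃ g ∈ H, SemilinearAut.baseAut (Gd.ρ g) c = d}
          {w' : Place K FK | ∃ g ∈ H, Gd.ρ g • w = w'} := fun d hd => (hΦ d hd).1
      have hinj : Set.InjOn Φ {d : K | ∃ g ∈ H, SemilinearAut.baseAut (Gd.ρ g) c = d} := by
        intro d hd d' hd' hdd
        have h1 := (hΦ d hd).2
        have h2 := (hΦ d' hd').2
        rw [hdd] at h1
        exact esb_residue_unique (Φ d') (E.bc E.x) d d' h1 h2
      exact (Set.infinite_of_injOn_mapsTo hinj hmaps hinf) hfin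

end Fermat.Agent.H85

end
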