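/-
helper85: P-LR (level raising, S41), Ihara block, part 1 (Mathlib only).
Abstract amalgam criterion: if two subgroups `G₁`, `G₂` of a group `G` satisfy the ping-pong
condition "no nonempty alternating product of elements outside `G₁ ⊓ G₂` lies in `G₁ ⊓ G₂`",
then `G₁ ⊔ G₂` is the amalgamated product of `G₁` and `G₂` over `G₁ ⊓ G₂`; in particular two
homomorphisms on `G₁` and `G₂` which agree on `G₁ ⊓ G₂` glue to a homomorphism on `G₁ ⊔ G₂`.
Everything lives in namespace `Fermat.Agent.H85`.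
-/
import Mathlib

set_option autoImplicit false

noncomputable section

open Monoid

namespace Fermat.Agent.H85

section amalgam

variable {G : Type*} [Group G]

/-- The two subgroups as a family indexed by `Bool` (`true ↦ G₁`, `false ↦ G₂`). -/
def amFam (G₁ G₂ : Subgroup G) : Bool → Subgroup G := fun i => cond i G₁ G₂

theorem amFam_inf_le (G₁ G₂ : Subgroup G) (i : Bool) : G₁ ⊓ G₂ ≤ amFam G₁ G₂ i := by
  cases i
  · exact inf_le_right
  · exact inf_le_left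

theorem amFam_le_sup (G₁ G₂ : Subgroup G) (i : Bool) : amFam G₁ G₂ i ≤ G₁ ⊔ G₂ := by
  cases i
  · exact le_sup_right
  · exact le_sup_left

/-- The inclusions of the intersection. -/
def amPhi (G₁ G₂ : Subgroup G) (i : Bool) : ↥(G₁ ⊓ G₂) →* ↥(amFam G₁ G₂ i) :=
  Subgroup.inclusion (amFam_inf_le G₁ G₂ i)

theorem amPhi_injective (G₁ G₂ : Subgroup G) (i : Bool) :
    Function.Injective (amPhi G₁ G₂ i) :=
  Subgroup.inclusion_injective _

/-- The abstract amalgamated product. -/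
abbrev AmPush (G₁ G₂ : Subgroup G) : Type _ := PushoutI (amPhi G₁ G₂)

/-- The canonical map from the amalgamated product to the ambient group. -/
def amPsi (G₁ G₂ : Subgroup G) : AmPush G₁ G₂ →* G :=
  PushoutI.lift (fun i => (amFam G₁ G₂ i).subtype) (G₁ ⊓ G₂).subtype
    (fun i => by ext x; rfl)

@[simp]
theorem amPsi_of (G₁ G₂ : Subgroup G) (i : Bool) (g : ↥(amFam G₁ G₂ i)) :
    amPsi G₁ G₂ (PushoutI.of i g) = (g : G) := by
  rw [amPsi, PushoutI.lift_of]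
  rfl

@[simp]
theorem amPsi_base (G₁ G₂ : Subgroup G) (h : ↥(G₁ ⊓ G₂)) :
    amPsi G₁ G₂ (PushoutI.base (amPhi G₁ G₂) h) = (h : G) := by
  rw [amPsi, PushoutI.lift_base]
  rfl

/-- The ping-pong condition: no nonempty alternating product of elements of
`(G₁ ∪ G₂) \ (G₁ ⊓ G₂)` lies in `G₁ ⊓ G₂`. -/
def AmPingPong (G₁ G₂ : Subgroup G) : Prop :=
  ∀ l : List (Bool × G), l ≠ [] → l.IsChain (fun x y => x.1 ≠ y.1) →
    (∀ x ∈ l, x.2 ∈ amFam G₁ G₂ x.1 ∧ x.2 ∉ G₁ ⊓ G₂) → (l.map Prod.snd).prod ∉ G₁ ⊓ G₂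

theorem amPsi_word_prod (G₁ G₂ : Subgroup G)
    (L : List (Σ i : Bool, ↥(amFam G₁ G₂ i))) :
    amPsi G₁ G₂ (PushoutI.ofCoprodI (L.map fun l => CoprodI.of l.2).prod)
      = ((L.map fun s => ((s.1, (s.2 : G)) : Bool × G)).map Prod.snd).prod := by
  induction L with
  | nil => simp
  | cons s L ih =>
    rw [List.map_cons, List.prod_cons, map_mul, map_mul, ih, PushoutI.ofCoprodI_of, amPsi_of]
    simp

theorem amPsi_injective {G₁ G₂ : Subgroup G} (hpp : AmPingPong G₁ G₂) :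
    Function.Injective (amPsi G₁ G₂) := by
  classical
  rw [injective_iff_map_eq_one]
  intro x hx
  obtain ⟨d⟩ := PushoutI.NormalWord.transversal_nonempty (amPhi G₁ G₂) (amPhi_injective G₁ G₂)
  set w := PushoutI.NormalWord.equiv (d := d) x with hw
  have hwx : w.prod = x := (PushoutI.NormalWord.equiv (d := d)).symm_apply_apply x
  have hval : amPsi G₁ G₂ w.prod = (w.head : G) *
      ((w.toList.map fun s => ((s.1, (s.2 : G)) : Bool × G)).map Prod.snd).prod := by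
    rw [PushoutI.NormalWord.prod, map_mul, amPsi_base, CoprodI.Word.prod, amPsi_word_prod]
  rw [hwx, hx] at hval
  by_cases hnil : w.toList = []
  · rw [hnil] at hval
    simp only [List.map_nil, List.prod_nil, mul_one] at hval
    have hh : w.head = 1 := Subtype.ext hval.symm
    rw [← hwx, PushoutI.NormalWord.prod, hh, map_one, one_mul, CoprodI.Word.prod, hnil]
    simp
  · exfalso
    refine hpp (w.toList.map fun s => ((s.1, (s.2 : G)) : Bool × G)) ?_ ?_ ?_ ?_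
    · simpa using hnil
    · rw [List.isChain_map]
      exact w.chain_ne
    · intro y hy
      obtain ⟨s, hs, rfl⟩ := List.mem_map.mp hy
      refine ⟨s.2.2, fun hmem => ?_⟩
      have hset : s.2 ∈ d.set s.1 := w.normalized s.1 s.2 (by simpa using hs)
      have hne : s.2 ≠ 1 := w.ne_one s hs
      have hrange : s.2 ∈ (amPhi G₁ G₂ s.1).range := ⟨⟨(s.2 : G), hmem⟩, rfl⟩
      -- uniqueness of the decomposition `range * set`
      have h2 := (d.compl s.1).injective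
        (a₁ := (⟨s.2, hrange⟩, ⟨1, d.one_mem s.1⟩))
        (a₂ := (⟨1, one_mem _⟩, ⟨s.2, hset⟩)) (by simp)
      exact hne (congrArg (fun p => (p.1 : ↥(amFam G₁ G₂ s.1))) h2)
    · have h3 : ((w.toList.map fun s => ((s.1, (s.2 : G)) : Bool × G)).map Prod.snd).prod
          = (((w.head)⁻¹ : ↥(G₁ ⊓ G₂)) : G) := by
        rw [Subgroup.coe_inv]
        exact eq_inv_of_mul_eq_one_right hval.symm
      rw [h3]
      exact SetLike.coe_mem _

theorem amPsi_range (G₁ G₂ : Subgroup G) : (amPsi G₁ G₂).range = G₁ ⊔ G₂ := by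
  apply le_antisymm
  · rintro _ ⟨x, rfl⟩
    induction x using PushoutI.induction_on with
    | of i g =>
      rw [amPsi_of]
      exact amFam_le_sup G₁ G₂ i g.2
    | base h =>
      rw [amPsi_base]
      exact (le_sup_left : G₁ ≤ G₁ ⊔ G₂) ((inf_le_left : G₁ ⊓ G₂ ≤ G₁) h.2)
    | mul x y hx hy =>
      rw [map_mul]
      exact mul_mem hx hy
  · refine sup_le ?_ ?_
    · intro x hx
      exact ⟨PushoutI.of true ⟨x, hx⟩, amPsi_of G₁ G₂ true ⟨x, hx⟩⟩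
    · intro x hx
      exact ⟨PushoutI.of false ⟨x, hx⟩, amPsi_of G₁ G₂ false ⟨x, hx⟩⟩

/-- The family of homomorphisms to be glued. -/
def amLiftFam {G₁ G₂ : Subgroup G} {A : Type*} [Group A] (f₁ : ↥G₁ →* A) (f₂ : ↥G₂ →* A) :
    ∀ i : Bool, ↥(amFam G₁ G₂ i) →* A
  | true => f₁
  | false => f₂

/-- **Amalgam extension property**: under the ping-pong condition, two homomorphisms on `G₁` and
`G₂` that agree on `G₁ ⊓ G₂` extend to a homomorphism on `G₁ ⊔ G₂`. -/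
theorem amalgam_extension {G₁ G₂ : Subgroup G} (hpp : AmPingPong G₁ G₂) {A : Type*} [Group A]
    (f₁ : ↥G₁ →* A) (f₂ : ↥G₂ →* A)
    (hf : ∀ (x : G) (h₁ : x ∈ G₁) (h₂ : x ∈ G₂), f₁ ⟨x, h₁⟩ = f₂ ⟨x, h₂⟩) :
    ∃ Φ : ↥(G₁ ⊔ G₂) →* A,
      (∀ (x : G) (h : x ∈ G₁), Φ ⟨x, (le_sup_left : G₁ ≤ G₁ ⊔ G₂) h⟩ = f₁ ⟨x, h⟩) ∧
      (∀ (x : G) (h : x ∈ G₂), Φ ⟨x, (le_sup_right : G₂ ≤ G₁ ⊔ G₂) h⟩ = f₂ ⟨x, h⟩) := by
  classical
  have hinj := amPsi_injective hpp
  let F : AmPush G₁ G₂ →* A :=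
    PushoutI.lift (amLiftFam f₁ f₂) (f₁.comp (Subgroup.inclusion inf_le_left)) (fun i => by
      cases i
      · ext x
        exact (hf (x : G) x.2.1 x.2.2).symm
      · ext x
        rfl)
  let e : AmPush G₁ G₂ ≃* ↥(G₁ ⊔ G₂) :=
    (MonoidHom.ofInjective hinj).trans (MulEquiv.subgroupCongr (amPsi_range G₁ G₂))
  have he : ∀ y : AmPush G₁ G₂, ((e y : ↥(G₁ ⊔ G₂)) : G) = amPsi G₁ G₂ y := fun y => rfl
  refine ⟨F.comp e.symm.toMonoidHom, ?_, ?_⟩
  · intro x h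
    have h1 : e (PushoutI.of true ⟨x, h⟩) = ⟨x, (le_sup_left : G₁ ≤ G₁ ⊔ G₂) h⟩ := by
      apply Subtype.ext
      rw [he, amPsi_of]
    rw [← h1]
    show F (e.symm (e _)) = _
    rw [MulEquiv.symm_apply_apply]
    show PushoutI.lift _ _ _ _ = _
    rw [PushoutI.lift_of]
    rfl
  · intro x h
    have h1 : e (PushoutI.of false ⟨x, h⟩) = ⟨x, (le_sup_right : G₂ ≤ G₁ ⊔ G₂) h⟩ := by
      apply Subtype.ext
      rw [he, amPsi_of]
    rw [← h1]
    show F (e.symm (e _)) = _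
    rw [MulEquiv.symm_apply_apply]
    show PushoutI.lift _ _ _ _ = _
    rw [PushoutI.lift_of]
    rfl

/-- Uniqueness of the glued homomorphism. -/
theorem amalgam_extension_unique {G₁ G₂ : Subgroup G} {A : Type*} [Group A]
    (Φ Φ' : ↥(G₁ ⊔ G₂) →* A)
    (h₁ : ∀ (x : G) (h : x ∈ G₁), Φ ⟨x, (le_sup_left : G₁ ≤ G₁ ⊔ G₂) h⟩
      = Φ' ⟨x, (le_sup_left : G₁ ≤ G₁ ⊔ G₂) h⟩)
    (h₂ : ∀ (x : G) (h : x ∈ G₂), Φ ⟨x, (le_sup_right : G₂ ≤ G₁ ⊔ G₂) h⟩
      = Φ' ⟨x, (le_sup_right : G₂ ≤ G₁ ⊔ G₂) h⟩) : Φ = Φ' := by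
  ext ⟨y, hy⟩
  have hle : G₁ ⊔ G₂ ≤ (Φ.eqLocus Φ').map (G₁ ⊔ G₂).subtype := by
    refine sup_le ?_ ?_
    · intro x hx
      exact ⟨⟨x, (le_sup_left : G₁ ≤ G₁ ⊔ G₂) hx⟩, h₁ x hx, rfl⟩
    · intro x hx
      exact ⟨⟨x, (le_sup_right : G₂ ≤ G₁ ⊔ G₂) hx⟩, h₂ x hx, rfl⟩
  obtain ⟨w, hw, hwy⟩ := hle hy
  have : w = ⟨y, hy⟩ := Subtype.ext hwy
  rw [← this]
  exact hw

end amalgam

end Fermat.Agent.H85

end
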