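/-
helper85: P-LR (level raising, S41), Ihara block, part 2 (Mathlib only).
The group `Γ₀(N)[1/q] ⊂ SL(2, ℚ)`, the two embeddings of `Γ₀(N)` and their images.
Everything lives in namespace `Fermat.Agent.H85`.
-/
import Fermat.Agent.H85.LRAmalgam

set_option autoImplicit false

noncomputable section

open Matrix MatrixGroups CongruenceSubgroup

namespace Fermat.Agent.H85

/-! ### Entries of products and inverses in `SL(2, R)` -/

section entries

variable {R : Type*} [CommRing R]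

theorem lri_mul_apply (g h : SL(2, R)) (i j : Fin 2) :
    (g * h) i j = g i 0 * h 0 j + g i 1 * h 1 j := by
  rw [Matrix.SpecialLinearGroup.coe_mul, Matrix.mul_apply, Fin.sum_univ_two]

theorem lri_det (g : SL(2, R)) : g 0 0 * g 1 1 - g 0 1 * g 1 0 = 1 := by
  have := g.2
  rw [Matrix.det_fin_two] at this
  exact this

theorem lri_inv_00 (g : SL(2, R)) : (g⁻¹) 0 0 = g 1 1 := by
  rw [Matrix.SpecialLinearGroup.SL2_inv_expl]; rfl

theorem lri_inv_01 (g : SL(2, R)) : (g⁻¹) 0 1 = - g 0 1 := by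
  rw [Matrix.SpecialLinearGroup.SL2_inv_expl]; rfl

theorem lri_inv_10 (g : SL(2, R)) : (g⁻¹) 1 0 = - g 1 0 := by
  rw [Matrix.SpecialLinearGroup.SL2_inv_expl]; rfl

theorem lri_inv_11 (g : SL(2, R)) : (g⁻¹) 1 1 = g 0 0 := by
  rw [Matrix.SpecialLinearGroup.SL2_inv_expl]; rfl

theorem lri_one_00 : (1 : SL(2, R)) 0 0 = 1 := by simp
theorem lri_one_01 : (1 : SL(2, R)) 0 1 = 0 := by simp
theorem lri_one_10 : (1 : SL(2, R)) 1 0 = 0 := by simp
theorem lri_one_11 : (1 : SL(2, R)) 1 1 = 1 := by simp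

theorem lri_ext {g h : SL(2, R)} (h00 : g 0 0 = h 0 0) (h01 : g 0 1 = h 0 1)
    (h10 : g 1 0 = h 1 0) (h11 : g 1 1 = h 1 1) : g = h := by
  apply Matrix.SpecialLinearGroup.ext
  intro i j
  fin_cases i <;> fin_cases j
  · exact h00
  · exact h01
  · exact h10
  · exact h11

/-- The element of `SL(2, R)` with given entries. -/
def lriMk (a b c d : R) (h : a * d - b * c = 1) : SL(2, R) :=
  ⟨!![a, b; c, d], by rw [Matrix.det_fin_two_of]; exact h⟩

@[simp] theorem lriMk_00 (a b c d : R) (h : a * d - b * c = 1) : lriMk a b c d h 0 0 = a := rfl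
@[simp] theorem lriMk_01 (a b c d : R) (h : a * d - b * c = 1) : lriMk a b c d h 0 1 = b := rfl
@[simp] theorem lriMk_10 (a b c d : R) (h : a * d - b * c = 1) : lriMk a b c d h 1 0 = c := rfl
@[simp] theorem lriMk_11 (a b c d : R) (h : a * d - b * c = 1) : lriMk a b c d h 1 1 = d := rfl

end entries

/-! ### The ring `ℤ[1/q]` inside `ℚ` -/

/-- `x ∈ ℤ[1/q]`. -/
def IsZq (q : ℕ) (x : ℚ) : Prop := ∃ (m : ℕ) (z : ℤ), x * (q : ℚ) ^ m = z

/-- `x ∈ N ℤ[1/q]`. -/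
def IsNZq (N q : ℕ) (x : ℚ) : Prop := ∃ (m : ℕ) (z : ℤ), x * (q : ℚ) ^ m = N * z

theorem isZq_intCast (q : ℕ) (z : ℤ) : IsZq q z := ⟨0, z, by simp⟩

theorem isZq_zero (q : ℕ) : IsZq q 0 := ⟨0, 0, by simp⟩

theorem isZq_one (q : ℕ) : IsZq q 1 := ⟨0, 1, by simp⟩

theorem IsZq.add {q : ℕ} {x y : ℚ} (hx : IsZq q x) (hy : IsZq q y) : IsZq q (x + y) := by
  obtain ⟨m, z, hz⟩ := hx
  obtain ⟨n, w, hw⟩ := hy
  refine ⟨m + n, z * q ^ n + w * q ^ m, ?_⟩
  push_cast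
  rw [← hz, ← hw, pow_add]
  ring

theorem IsZq.mul {q : ℕ} {x y : ℚ} (hx : IsZq q x) (hy : IsZq q y) : IsZq q (x * y) := by
  obtain ⟨m, z, hz⟩ := hx
  obtain ⟨n, w, hw⟩ := hy
  refine ⟨m + n, z * w, ?_⟩
  push_cast
  rw [← hz, ← hw, pow_add]
  ring

theorem IsZq.neg {q : ℕ} {x : ℚ} (hx : IsZq q x) : IsZq q (-x) := by
  obtain ⟨m, z, hz⟩ := hx
  refine ⟨m, -z, ?_⟩
  push_cast
  rw [← hz]
  ring

theorem IsZq.sub {q : ℕ} {x y : ℚ} (hx : IsZq q x) (hy : IsZq q y) : IsZq q (x - y) := by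
  rw [sub_eq_add_neg]
  exact hx.add hy.neg

theorem isZq_q (q : ℕ) : IsZq q (q : ℚ) := ⟨0, q, by simp⟩

theorem isZq_inv_q (q : ℕ) [NeZero q] : IsZq q ((q : ℚ)⁻¹) := by
  refine ⟨1, 1, ?_⟩
  have : (q : ℚ) ≠ 0 := Nat.cast_ne_zero.mpr (NeZero.ne q)
  rw [pow_one, inv_mul_cancel₀ this]
  simp

theorem IsZq.pow {q : ℕ} {x : ℚ} (hx : IsZq q x) (n : ℕ) : IsZq q (x ^ n) := by
  induction n with
  | zero => rw [pow_zero]; exact isZq_one q
  | succ n ih => rw [pow_succ]; exact ih.mul hx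

theorem isZq_of_mul_pow {q : ℕ} [NeZero q] {x : ℚ} (m : ℕ) (h : IsZq q (x * (q : ℚ) ^ m)) :
    IsZq q x := by
  have hq : (q : ℚ) ≠ 0 := Nat.cast_ne_zero.mpr (NeZero.ne q)
  have : x = x * (q : ℚ) ^ m * ((q : ℚ)⁻¹) ^ m := by
    rw [mul_assoc, ← mul_pow, mul_inv_cancel₀ hq, one_pow, mul_one]
  rw [this]
  exact h.mul ((isZq_inv_q q).pow m)

theorem IsNZq.isZq {N q : ℕ} {x : ℚ} (hx : IsNZq N q x) : IsZq q x := by
  obtain ⟨m, z, hz⟩ := hx
  exact ⟨m, N * z, by push_cast; exact hz⟩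

theorem isNZq_zero (N q : ℕ) : IsNZq N q 0 := ⟨0, 0, by simp⟩

theorem IsNZq.add {N q : ℕ} {x y : ℚ} (hx : IsNZq N q x) (hy : IsNZq N q y) :
    IsNZq N q (x + y) := by
  obtain ⟨m, z, hz⟩ := hx
  obtain ⟨n, w, hw⟩ := hy
  refine ⟨m + n, z * q ^ n + w * q ^ m, ?_⟩
  push_cast
  rw [pow_add]
  linear_combination (q : ℚ) ^ n * hz + (q : ℚ) ^ m * hw

theorem IsNZq.neg {N q : ℕ} {x : ℚ} (hx : IsNZq N q x) : IsNZq N q (-x) := by
  obtain ⟨m, z, hz⟩ := hx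
  refine ⟨m, -z, ?_⟩
  push_cast
  linear_combination -hz

theorem IsNZq.mul_left {N q : ℕ} {x y : ℚ} (hx : IsNZq N q x) (hy : IsZq q y) :
    IsNZq N q (y * x) := by
  obtain ⟨m, z, hz⟩ := hx
  obtain ⟨n, w, hw⟩ := hy
  refine ⟨m + n, z * w, ?_⟩
  push_cast
  rw [pow_add]
  linear_combination y * (q : ℚ) ^ n * hz + (N : ℚ) * z * hw

theorem IsNZq.mul_right {N q : ℕ} {x y : ℚ} (hx : IsNZq N q x) (hy : IsZq q y) :
    IsNZq N q (x * y) := by
  rw [mul_comm]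
  exact hx.mul_left hy

theorem isNZq_of_dvd {N q : ℕ} {c : ℤ} (h : (N : ℤ) ∣ c) : IsNZq N q c := by
  obtain ⟨z, rfl⟩ := h
  exact ⟨0, z, by simp⟩

/-! ### The group `Γ₀(N)[1/q]` -/

/-- **Ihara's group** `Γ₀(N)[1/q]`: matrices in `SL(2, ℚ)` with entries in `ℤ[1/q]` and lower
left entry in `N ℤ[1/q]`. -/
def iharaGroup (N q : ℕ) : Subgroup SL(2, ℚ) where
  carrier := {g | (∀ i j, IsZq q (g i j)) ∧ IsNZq N q (g 1 0)}
  one_mem' := by
    refine ⟨fun i j => ?_, ?_⟩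
    · fin_cases i <;> fin_cases j
      · simpa using isZq_one q
      · simpa using isZq_zero q
      · simpa using isZq_zero q
      · simpa using isZq_one q
    · simpa using isNZq_zero N q
  mul_mem' := by
    rintro g h ⟨hg, hg'⟩ ⟨hh, hh'⟩
    refine ⟨fun i j => ?_, ?_⟩
    · rw [lri_mul_apply]
      exact ((hg i 0).mul (hh 0 j)).add ((hg i 1).mul (hh 1 j))
    · rw [lri_mul_apply]
      exact (hg'.mul_right (hh 0 0)).add (hh'.mul_left (hg 1 1))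
  inv_mem' := by
    rintro g ⟨hg, hg'⟩
    refine ⟨fun i j => ?_, ?_⟩
    · fin_cases i <;> fin_cases j
      · show IsZq q ((g⁻¹) 0 0)
        rw [lri_inv_00]; exact hg 1 1
      · show IsZq q ((g⁻¹) 0 1)
        rw [lri_inv_01]; exact (hg 0 1).neg
      · show IsZq q ((g⁻¹) 1 0)
        rw [lri_inv_10]; exact (hg 1 0).neg
      · show IsZq q ((g⁻¹) 1 1)
        rw [lri_inv_11]; exact hg 0 0
    · rw [lri_inv_10]
      exact hg'.neg

/-- **Concrete membership** in `Γ₀(N)[1/q]`. -/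
theorem mem_iharaGroup_iff {N q : ℕ} {g : SL(2, ℚ)} :
    g ∈ iharaGroup N q ↔
      (∀ i j, ∃ (m : ℕ) (z : ℤ), g i j * (q : ℚ) ^ m = z) ∧
        ∃ (m : ℕ) (z : ℤ), g 1 0 * (q : ℚ) ^ m = N * z :=
  Iff.rfl

/-! ### The two embeddings of `Γ₀(N)` -/

/-- The first embedding `Γ₀(N) → SL(2, ℚ)` (the inclusion). -/
def iharaI1 (N : ℕ) : ↥(Gamma0 N) →* SL(2, ℚ) :=
  (Matrix.SpecialLinearGroup.map (Int.castRingHom ℚ)).comp (Gamma0 N).subtype

theorem iharaI1_apply (N : ℕ) (γ : ↥(Gamma0 N)) (i j : Fin 2) :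
    iharaI1 N γ i j = ((γ.1 i j : ℤ) : ℚ) := rfl

/-- Conjugation by `δ⁻¹`, `δ = diag(q, 1)`, on `SL(2, ℚ)` (as a function):
`[[a, b], [c, d]] ↦ [[a, b / q], [q c, d]]`. -/
def iharaConjFun (q : ℕ) [NeZero q] (g : SL(2, ℚ)) : SL(2, ℚ) :=
  lriMk (g 0 0) (g 0 1 / q) (q * g 1 0) (g 1 1) (by
    have hq : (q : ℚ) ≠ 0 := Nat.cast_ne_zero.mpr (NeZero.ne q)
    have := lri_det g
    have e : g 0 1 / q * (q * g 1 0) = g 0 1 * g 1 0 := by field_simp
    rw [e]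
    exact this)

theorem iharaConjFun_00 (q : ℕ) [NeZero q] (g : SL(2, ℚ)) : iharaConjFun q g 0 0 = g 0 0 := rfl
theorem iharaConjFun_01 (q : ℕ) [NeZero q] (g : SL(2, ℚ)) :
    iharaConjFun q g 0 1 = g 0 1 / q := rfl
theorem iharaConjFun_10 (q : ℕ) [NeZero q] (g : SL(2, ℚ)) :
    iharaConjFun q g 1 0 = q * g 1 0 := rfl
theorem iharaConjFun_11 (q : ℕ) [NeZero q] (g : SL(2, ℚ)) : iharaConjFun q g 1 1 = g 1 1 := rfl

theorem iharaConjFun_one (q : ℕ) [NeZero q] : iharaConjFun q 1 = 1 := by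
  apply lri_ext
  · rw [iharaConjFun_00]
  · rw [iharaConjFun_01, lri_one_01, zero_div]
  · rw [iharaConjFun_10, lri_one_10, mul_zero]
  · rw [iharaConjFun_11]

theorem iharaConjFun_mul (q : ℕ) [NeZero q] (g h : SL(2, ℚ)) :
    iharaConjFun q (g * h) = iharaConjFun q g * iharaConjFun q h := by
  have hq : (q : ℚ) ≠ 0 := Nat.cast_ne_zero.mpr (NeZero.ne q)
  apply lri_ext
  · rw [lri_mul_apply (iharaConjFun q g) (iharaConjFun q h), iharaConjFun_00, iharaConjFun_00,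
      iharaConjFun_00, iharaConjFun_01, iharaConjFun_10, lri_mul_apply g h]
    field_simp
  · rw [lri_mul_apply (iharaConjFun q g) (iharaConjFun q h), iharaConjFun_01, iharaConjFun_00,
      iharaConjFun_01, iharaConjFun_01, iharaConjFun_11, lri_mul_apply g h]
    field_simp
  · rw [lri_mul_apply (iharaConjFun q g) (iharaConjFun q h), iharaConjFun_10, iharaConjFun_10,
      iharaConjFun_00, iharaConjFun_11, iharaConjFun_10, lri_mul_apply g h]
    ring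
  · rw [lri_mul_apply (iharaConjFun q g) (iharaConjFun q h), iharaConjFun_11, iharaConjFun_10,
      iharaConjFun_01, iharaConjFun_11, iharaConjFun_11, lri_mul_apply g h]
    field_simp

/-- Conjugation by `δ⁻¹`, `δ = diag(q, 1)`, on `SL(2, ℚ)`:
`[[a, b], [c, d]] ↦ [[a, b / q], [q c, d]]`. -/
def iharaConj (q : ℕ) [NeZero q] : SL(2, ℚ) →* SL(2, ℚ) where
  toFun := iharaConjFun q
  map_one' := iharaConjFun_one q
  map_mul' := iharaConjFun_mul q

theorem iharaConj_00 (q : ℕ) [NeZero q] (g : SL(2, ℚ)) : iharaConj q g 0 0 = g 0 0 := rfl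
theorem iharaConj_01 (q : ℕ) [NeZero q] (g : SL(2, ℚ)) : iharaConj q g 0 1 = g 0 1 / q := rfl
theorem iharaConj_10 (q : ℕ) [NeZero q] (g : SL(2, ℚ)) : iharaConj q g 1 0 = q * g 1 0 := rfl
theorem iharaConj_11 (q : ℕ) [NeZero q] (g : SL(2, ℚ)) : iharaConj q g 1 1 = g 1 1 := rfl

/-- The second embedding `Γ₀(N) → SL(2, ℚ)`, `γ ↦ δ⁻¹ γ δ`. -/
def iharaI2 (N q : ℕ) [NeZero q] : ↥(Gamma0 N) →* SL(2, ℚ) :=
  (iharaConj q).comp (iharaI1 N)

theorem iharaI2_00 (N q : ℕ) [NeZero q] (γ : ↥(Gamma0 N)) :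
    iharaI2 N q γ 0 0 = ((γ.1 0 0 : ℤ) : ℚ) := rfl
theorem iharaI2_01 (N q : ℕ) [NeZero q] (γ : ↥(Gamma0 N)) :
    iharaI2 N q γ 0 1 = ((γ.1 0 1 : ℤ) : ℚ) / q := rfl
theorem iharaI2_10 (N q : ℕ) [NeZero q] (γ : ↥(Gamma0 N)) :
    iharaI2 N q γ 1 0 = q * ((γ.1 1 0 : ℤ) : ℚ) := rfl
theorem iharaI2_11 (N q : ℕ) [NeZero q] (γ : ↥(Gamma0 N)) :
    iharaI2 N q γ 1 1 = ((γ.1 1 1 : ℤ) : ℚ) := rfl

theorem gamma0_dvd {N : ℕ} (γ : ↥(Gamma0 N)) : (N : ℤ) ∣ γ.1 1 0 :=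
  (ZMod.intCast_zmod_eq_zero_iff_dvd _ N).mp (Gamma0_mem.mp γ.2)

/-- Construct an element of `Γ₀(N)` from its entries. -/
def gamma0Mk (N : ℕ) (a b c d : ℤ) (h : a * d - b * c = 1) (hc : (N : ℤ) ∣ c) : ↥(Gamma0 N) :=
  ⟨lriMk a b c d h, Gamma0_mem.mpr ((ZMod.intCast_zmod_eq_zero_iff_dvd _ N).mpr hc)⟩

@[simp] theorem gamma0Mk_00 (N : ℕ) (a b c d : ℤ) (h : a * d - b * c = 1) (hc : (N : ℤ) ∣ c) :
    (gamma0Mk N a b c d h hc).1 0 0 = a := rfl
@[simp] theorem gamma0Mk_01 (N : ℕ) (a b c d : ℤ) (h : a * d - b * c = 1) (hc : (N : ℤ) ∣ c) :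
    (gamma0Mk N a b c d h hc).1 0 1 = b := rfl
@[simp] theorem gamma0Mk_10 (N : ℕ) (a b c d : ℤ) (h : a * d - b * c = 1) (hc : (N : ℤ) ∣ c) :
    (gamma0Mk N a b c d h hc).1 1 0 = c := rfl
@[simp] theorem gamma0Mk_11 (N : ℕ) (a b c d : ℤ) (h : a * d - b * c = 1) (hc : (N : ℤ) ∣ c) :
    (gamma0Mk N a b c d h hc).1 1 1 = d := rfl

/-- Membership in the image of the first embedding. -/
theorem mem_range_iharaI1 {N : ℕ} {g : SL(2, ℚ)} :
    g ∈ (iharaI1 N).range ↔ ∃ a b c d : ℤ,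
      g 0 0 = a ∧ g 0 1 = b ∧ g 1 0 = c ∧ g 1 1 = d ∧ (N : ℤ) ∣ c := by
  constructor
  · rintro ⟨γ, rfl⟩
    exact ⟨γ.1 0 0, γ.1 0 1, γ.1 1 0, γ.1 1 1, rfl, rfl, rfl, rfl, gamma0_dvd γ⟩
  · rintro ⟨a, b, c, d, h00, h01, h10, h11, hc⟩
    have hdet : a * d - b * c = 1 := by
      have := lri_det g
      rw [h00, h01, h10, h11] at this
      exact_mod_cast this
    refine ⟨gamma0Mk N a b c d hdet hc, ?_⟩
    apply lri_ext
    · rw [h00]; rfl
    · rw [h01]; rfl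
    · rw [h10]; rfl
    · rw [h11]; rfl

/-- Membership in the image of the second embedding. -/
theorem mem_range_iharaI2 {N q : ℕ} [NeZero q] {g : SL(2, ℚ)} :
    g ∈ (iharaI2 N q).range ↔ ∃ a b c d : ℤ,
      g 0 0 = a ∧ g 0 1 * q = b ∧ g 1 0 = q * c ∧ g 1 1 = d ∧ (N : ℤ) ∣ c := by
  have hq : (q : ℚ) ≠ 0 := Nat.cast_ne_zero.mpr (NeZero.ne q)
  constructor
  · rintro ⟨γ, rfl⟩
    refine ⟨γ.1 0 0, γ.1 0 1, γ.1 1 0, γ.1 1 1, rfl, ?_, rfl, rfl, gamma0_dvd γ⟩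
    rw [iharaI2_01, div_mul_cancel₀ _ hq]
  · rintro ⟨a, b, c, d, h00, h01, h10, h11, hc⟩
    have hdet : a * d - b * c = 1 := by
      have := lri_det g
      rw [h00, h10, h11] at this
      have h2 : ((a : ℚ) * d - b * c) = 1 := by
        rw [← h01]
        linear_combination this
      exact_mod_cast h2
    refine ⟨gamma0Mk N a b c d hdet hc, ?_⟩
    apply lri_ext
    · rw [h00]; rfl
    · rw [iharaI2_01, gamma0Mk_01, ← h01, mul_div_cancel_right₀ _ hq]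
    · rw [h10]; rfl
    · rw [h11]; rfl

theorem iharaI1_injective (N : ℕ) : Function.Injective (iharaI1 N) := by
  intro γ γ' h
  apply Subtype.ext
  apply lri_ext
  · have := congrArg (fun g : SL(2, ℚ) => g 0 0) h
    simp only [iharaI1_apply] at this
    exact_mod_cast this
  · have := congrArg (fun g : SL(2, ℚ) => g 0 1) h
    simp only [iharaI1_apply] at this
    exact_mod_cast this
  · have := congrArg (fun g : SL(2, ℚ) => g 1 0) h
    simp only [iharaI1_apply] at this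
    exact_mod_cast this
  · have := congrArg (fun g : SL(2, ℚ) => g 1 1) h
    simp only [iharaI1_apply] at this
    exact_mod_cast this

theorem iharaConj_injective (q : ℕ) [NeZero q] : Function.Injective (iharaConj q) := by
  have hq : (q : ℚ) ≠ 0 := Nat.cast_ne_zero.mpr (NeZero.ne q)
  intro g g' h
  apply lri_ext
  · have := congrArg (fun g : SL(2, ℚ) => g 0 0) h
    exact this
  · have := congrArg (fun g : SL(2, ℚ) => g 0 1) h
    simp only [iharaConj_01] at this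
    field_simp at this
    exact this
  · have := congrArg (fun g : SL(2, ℚ) => g 1 0) h
    simp only [iharaConj_10] at this
    exact mul_left_cancel₀ hq this
  · have := congrArg (fun g : SL(2, ℚ) => g 1 1) h
    exact this

theorem iharaI2_injective (N q : ℕ) [NeZero q] : Function.Injective (iharaI2 N q) :=
  (iharaConj_injective q).comp (iharaI1_injective N)

theorem range_iharaI1_le (N q : ℕ) : (iharaI1 N).range ≤ iharaGroup N q := by
  intro g hg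
  obtain ⟨a, b, c, d, h00, h01, h10, h11, hc⟩ := mem_range_iharaI1.mp hg
  refine ⟨fun i j => ?_, ?_⟩
  · fin_cases i <;> fin_cases j
    · show IsZq q (g 0 0)
      rw [h00]; exact isZq_intCast q a
    · show IsZq q (g 0 1)
      rw [h01]; exact isZq_intCast q b
    · show IsZq q (g 1 0)
      rw [h10]; exact isZq_intCast q c
    · show IsZq q (g 1 1)
      rw [h11]; exact isZq_intCast q d
  · rw [h10]
    exact isNZq_of_dvd hc

theorem range_iharaI2_le (N q : ℕ) [NeZero q] : (iharaI2 N q).range ≤ iharaGroup N q := by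
  intro g hg
  obtain ⟨a, b, c, d, h00, h01, h10, h11, hc⟩ := mem_range_iharaI2.mp hg
  refine ⟨fun i j => ?_, ?_⟩
  · fin_cases i <;> fin_cases j
    · show IsZq q (g 0 0)
      rw [h00]; exact isZq_intCast q a
    · show IsZq q (g 0 1)
      exact ⟨1, b, by rw [pow_one]; exact h01⟩
    · show IsZq q (g 1 0)
      rw [h10]; exact (isZq_q q).mul (isZq_intCast q c)
    · show IsZq q (g 1 1)
      rw [h11]; exact isZq_intCast q d
  · rw [h10]
    exact (isNZq_of_dvd hc).mul_left (isZq_q q)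

end Fermat.Agent.H85

end
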