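/-
helper85: P-LR (level raising, S41), Ihara block, part 3 (Mathlib only).
Ping-pong for `Γ₀(N)` and `δ⁻¹ Γ₀(N) δ` inside `SL(2, ℚ)` (linear algebra mod `q`).
Everything lives in namespace `Fermat.Agent.H85`.
-/
import Fermat.Agent.H85.LRIhara

set_option autoImplicit false

noncomputable section

open Matrix MatrixGroups CongruenceSubgroup

namespace Fermat.Agent.H85

section pingpong

variable {N q : ℕ}

/-- `q ^ m • g` is the integral matrix `[[p00, p01], [p10, p11]]`. -/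
def QInt (q : ℕ) (g : SL(2, ℚ)) (m : ℕ) (p00 p01 p10 p11 : ℤ) : Prop :=
  g 0 0 * (q : ℚ) ^ m = p00 ∧ g 0 1 * (q : ℚ) ^ m = p01 ∧
    g 1 0 * (q : ℚ) ^ m = p10 ∧ g 1 1 * (q : ℚ) ^ m = p11

/-- Invariant for words not starting with a letter of the second kind. -/
def LrPA (q : ℕ) (g : SL(2, ℚ)) : Prop :=
  ∃ (m : ℕ) (p00 p01 p10 p11 : ℤ), QInt q g m p00 p01 p10 p11 ∧
    (¬ (q : ℤ) ∣ p10 ∨ ¬ (q : ℤ) ∣ p11)

/-- Invariant for words starting with a letter of the first kind. -/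
def LrPA' (q : ℕ) (g : SL(2, ℚ)) : Prop :=
  ∃ (m : ℕ) (p00 p01 p10 p11 : ℤ), QInt q g m p00 p01 p10 p11 ∧
    (¬ (q : ℤ) ∣ p10 ∨ ¬ (q : ℤ) ∣ p11) ∧ (1 ≤ m ∨ ¬ (q : ℤ) ∣ p10)

/-- Invariant for words starting with a letter of the second kind. -/
def LrPB (q : ℕ) (g : SL(2, ℚ)) : Prop :=
  ∃ (m : ℕ) (p00 p01 p10 p11 : ℤ), QInt q g m p00 p01 p10 p11 ∧ 1 ≤ m ∧
    (¬ (q : ℤ) ∣ p00 ∨ ¬ (q : ℤ) ∣ p01) ∧ (q : ℤ) ∣ p10 ∧ (q : ℤ) ∣ p11

theorem LrPA'.toPA {g : SL(2, ℚ)} (h : LrPA' q g) : LrPA q g := by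
  obtain ⟨m, p00, p01, p10, p11, hQ, h1, -⟩ := h
  exact ⟨m, p00, p01, p10, p11, hQ, h1⟩

theorem lrPA_one (hq : q.Prime) : LrPA q 1 := by
  refine ⟨0, 1, 0, 0, 1, ⟨?_, ?_, ?_, ?_⟩, Or.inr ?_⟩
  · rw [lri_one_00]; simp
  · rw [lri_one_01]; simp
  · rw [lri_one_10]; simp
  · rw [lri_one_11]; simp
  · intro h
    exact (Nat.prime_iff_prime_int.mp hq).not_isUnit (isUnit_of_dvd_one h)

/-- Letters of the first kind: integral with `q ∤ c`. -/
def LrT (q : ℕ) (g : SL(2, ℚ)) : Prop :=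
  ∃ a b c d : ℤ, g 0 0 = a ∧ g 0 1 = b ∧ g 1 0 = c ∧ g 1 1 = d ∧ ¬ (q : ℤ) ∣ c

/-- Letters of the second kind: `[[a, b / q], [q c, d]]` with `q ∤ b`. -/
def LrS (q : ℕ) (g : SL(2, ℚ)) : Prop :=
  ∃ a b c d : ℤ, g 0 0 = a ∧ g 0 1 * q = b ∧ g 1 0 = q * c ∧ g 1 1 = d ∧ ¬ (q : ℤ) ∣ b

theorem lrPA'_of_T {g : SL(2, ℚ)} (hg : LrT q g) : LrPA' q g := by
  obtain ⟨a, b, c, d, h00, h01, h10, h11, hc⟩ := hg
  refine ⟨0, a, b, c, d, ⟨?_, ?_, ?_, ?_⟩, Or.inl hc, Or.inr hc⟩
  · rw [h00]; simp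
  · rw [h01]; simp
  · rw [h10]; simp
  · rw [h11]; simp

theorem lrPA'_mul (hq : q.Prime) {g w : SL(2, ℚ)} (hg : LrT q g) (hw : LrPB q w) :
    LrPA' q (g * w) := by
  have hqp : Prime (q : ℤ) := Nat.prime_iff_prime_int.mp hq
  obtain ⟨a, b, c, d, h00, h01, h10, h11, hc⟩ := hg
  obtain ⟨m, p00, p01, p10, p11, ⟨e00, e01, e10, e11⟩, hm, hrow, hd10, hd11⟩ := hw
  refine ⟨m, a * p00 + b * p10, a * p01 + b * p11, c * p00 + d * p10, c * p01 + d * p11,
    ⟨?_, ?_, ?_, ?_⟩, ?_, Or.inl hm⟩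
  · rw [lri_mul_apply, h00, h01]
    push_cast
    linear_combination (a : ℚ) * e00 + (b : ℚ) * e10
  · rw [lri_mul_apply, h00, h01]
    push_cast
    linear_combination (a : ℚ) * e01 + (b : ℚ) * e11
  · rw [lri_mul_apply, h10, h11]
    push_cast
    linear_combination (c : ℚ) * e00 + (d : ℚ) * e10
  · rw [lri_mul_apply, h10, h11]
    push_cast
    linear_combination (c : ℚ) * e01 + (d : ℚ) * e11
  · rcases hrow with h | h
    · left
      intro hdvd
      have h1 : (q : ℤ) ∣ c * p00 := (dvd_add_left (Dvd.dvd.mul_left hd10 d)).mp hdvd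
      rcases hqp.dvd_or_dvd h1 with h2 | h2
      · exact hc h2
      · exact h h2
    · right
      intro hdvd
      have h1 : (q : ℤ) ∣ c * p01 := (dvd_add_left (Dvd.dvd.mul_left hd11 d)).mp hdvd
      rcases hqp.dvd_or_dvd h1 with h2 | h2
      · exact hc h2
      · exact h h2

theorem lrPB_mul (hq : q.Prime) {g w : SL(2, ℚ)} (hg : LrS q g) (hw : LrPA q w) :
    LrPB q (g * w) := by
  have hqp : Prime (q : ℤ) := Nat.prime_iff_prime_int.mp hq
  obtain ⟨a, b, c, d, h00, h01, h10, h11, hb⟩ := hg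
  obtain ⟨m, p00, p01, p10, p11, ⟨e00, e01, e10, e11⟩, hrow⟩ := hw
  refine ⟨m + 1, q * a * p00 + b * p10, q * a * p01 + b * p11,
    q * (q * c * p00 + d * p10), q * (q * c * p01 + d * p11),
    ⟨?_, ?_, ?_, ?_⟩, Nat.le_add_left 1 m, ?_, Dvd.intro _ rfl, Dvd.intro _ rfl⟩
  · rw [lri_mul_apply, h00, pow_succ]
    push_cast
    linear_combination (q : ℚ) * (a : ℚ) * e00 + (w 1 0 * (q : ℚ) ^ m) * h01 + (b : ℚ) * e10
  · rw [lri_mul_apply, h00, pow_succ]
    push_cast
    linear_combination (q : ℚ) * (a : ℚ) * e01 + (w 1 1 * (q : ℚ) ^ m) * h01 + (b : ℚ) * e11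
  · rw [lri_mul_apply, h10, h11, pow_succ]
    push_cast
    linear_combination (q : ℚ) * (q : ℚ) * (c : ℚ) * e00 + (q : ℚ) * (d : ℚ) * e10
  · rw [lri_mul_apply, h10, h11, pow_succ]
    push_cast
    linear_combination (q : ℚ) * (q : ℚ) * (c : ℚ) * e01 + (q : ℚ) * (d : ℚ) * e11
  · rcases hrow with h | h
    · left
      intro hdvd
      have h0 : (q : ℤ) ∣ q * a * p00 := Dvd.intro (a * p00) (by ring)
      have h1 : (q : ℤ) ∣ b * p10 := (dvd_add_right h0).mp hdvd
      rcases hqp.dvd_or_dvd h1 with h2 | h2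
      · exact hb h2
      · exact h h2
    · right
      intro hdvd
      have h0 : (q : ℤ) ∣ q * a * p01 := Dvd.intro (a * p01) (by ring)
      have h1 : (q : ℤ) ∣ b * p11 := (dvd_add_right h0).mp hdvd
      rcases hqp.dvd_or_dvd h1 with h2 | h2
      · exact hb h2
      · exact h h2

/-- An integral matrix `g` with `q ^ m • g = P`, `m ≥ 1`, has `q ∣ P`. -/
theorem lr_dvd_of_int {x : ℚ} {a p : ℤ} {m : ℕ} (hx : x = a) (hp : x * (q : ℚ) ^ m = p)
    (hm : 1 ≤ m) : (q : ℤ) ∣ p := by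
  have : p = a * (q : ℤ) ^ m := by
    rw [hx] at hp
    exact_mod_cast hp.symm
  rw [this]
  exact Dvd.dvd.mul_left (dvd_pow_self _ (by omega)) _

theorem lrPB_not_int {w : SL(2, ℚ)} (hw : LrPB q w) {a b : ℤ} (h00 : w 0 0 = a)
    (h01 : w 0 1 = b) : False := by
  obtain ⟨m, p00, p01, p10, p11, ⟨e00, e01, e10, e11⟩, hm, hrow, -, -⟩ := hw
  rcases hrow with h | h
  · exact h (lr_dvd_of_int h00 e00 hm)
  · exact h (lr_dvd_of_int h01 e01 hm)

theorem lrPA'_not_mem {w : SL(2, ℚ)} (hw : LrPA' q w) {c d c' : ℤ} (h10 : w 1 0 = c)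
    (h11 : w 1 1 = d) (hc : c = q * c') : False := by
  obtain ⟨m, p00, p01, p10, p11, ⟨e00, e01, e10, e11⟩, hrow, hm⟩ := hw
  have hp10 : (q : ℤ) ∣ p10 := by
    have : p10 = c * (q : ℤ) ^ m := by
      rw [h10] at e10
      exact_mod_cast e10.symm
    rw [this, hc]
    exact Dvd.intro (c' * (q : ℤ) ^ m) (by ring)
  rcases hm with hm | hm
  · rcases hrow with h | h
    · exact h hp10
    · exact h (lr_dvd_of_int h11 e11 hm)
  · exact hm hp10

variable [NeZero q]

theorem lrT_of_mem (hNq : Nat.Coprime N q) {g : SL(2, ℚ)} (h1 : g ∈ (iharaI1 N).range)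
    (h2 : g ∉ (iharaI2 N q).range) : LrT q g := by
  obtain ⟨a, b, c, d, h00, h01, h10, h11, hc⟩ := mem_range_iharaI1.mp h1
  refine ⟨a, b, c, d, h00, h01, h10, h11, fun hqc => h2 ?_⟩
  obtain ⟨c', rfl⟩ := hqc
  rw [mem_range_iharaI2]
  refine ⟨a, b * q, c', d, h00, ?_, ?_, h11, ?_⟩
  · rw [h01]; push_cast; ring
  · rw [h10]; push_cast; ring
  · have hcop : IsCoprime (N : ℤ) (q : ℤ) := Nat.isCoprime_iff_coprime.mpr hNq
    exact hcop.dvd_of_dvd_mul_left hc

theorem lrS_of_mem {g : SL(2, ℚ)} (h2 : g ∈ (iharaI2 N q).range)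
    (h1 : g ∉ (iharaI1 N).range) : LrS q g := by
  have hq0 : (q : ℚ) ≠ 0 := Nat.cast_ne_zero.mpr (NeZero.ne q)
  obtain ⟨a, b, c, d, h00, h01, h10, h11, hc⟩ := mem_range_iharaI2.mp h2
  refine ⟨a, b, c, d, h00, h01, h10, h11, fun hqb => h1 ?_⟩
  obtain ⟨b', rfl⟩ := hqb
  rw [mem_range_iharaI1]
  refine ⟨a, b', q * c, d, h00, ?_, ?_, h11, Dvd.dvd.mul_left hc _⟩
  · have : g 0 1 * q = b' * q := by
      rw [h01]; push_cast; ring
    exact mul_right_cancel₀ hq0 this
  · rw [h10]; push_cast; ring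

/-- **Ping-pong** for `Γ₀(N)` and `δ⁻¹ Γ₀(N) δ`. -/
theorem ihara_pingPong (hq : q.Prime) (hNq : Nat.Coprime N q) :
    AmPingPong (iharaI1 N).range (iharaI2 N q).range := by
  have key : ∀ l : List (Bool × SL(2, ℚ)), l.IsChain (fun x y => x.1 ≠ y.1) →
      (∀ x ∈ l, x.2 ∈ amFam (iharaI1 N).range (iharaI2 N q).range x.1 ∧
        x.2 ∉ (iharaI1 N).range ⊓ (iharaI2 N q).range) →
      ∀ x l', l = x :: l' → (x.1 = true → LrPA' q (l.map Prod.snd).prod) ∧
        (x.1 = false → LrPB q (l.map Prod.snd).prod) := by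
    intro l
    induction l with
    | nil => intro _ _ x l' h; exact absurd h (by simp)
    | cons y l ih =>
      intro hchain hmem x l' hxl
      obtain ⟨rfl, rfl⟩ := List.cons.inj hxl
      have hchain' : l.IsChain (fun x y => x.1 ≠ y.1) := hchain.tail
      have hmem' : ∀ x ∈ l, x.2 ∈ amFam (iharaI1 N).range (iharaI2 N q).range x.1 ∧
          x.2 ∉ (iharaI1 N).range ⊓ (iharaI2 N q).range :=
        fun x hx => hmem x (List.mem_cons_of_mem _ hx)
      have hy := hmem y List.mem_cons_self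
      rw [List.map_cons, List.prod_cons]
      constructor
      · intro hy1
        have hyT : LrT q y.2 := by
          have h1 : y.2 ∈ (iharaI1 N).range := by
            have := hy.1
            rw [hy1] at this
            exact this
          exact lrT_of_mem hNq h1 (fun h2 => hy.2 ⟨h1, h2⟩)
        cases l with
        | nil =>
          rw [List.map_nil, List.prod_nil, mul_one]
          exact lrPA'_of_T hyT
        | cons z l'' =>
          have hz : z.1 = false := by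
            have : y.1 ≠ z.1 := by
              have := hchain
              rw [List.isChain_cons_cons] at this
              exact this.1
            rw [hy1] at this
            cases hz : z.1
            · rfl
            · exact absurd hz.symm this
          exact lrPA'_mul hq hyT ((ih hchain' hmem' z l'' rfl).2 hz)
      · intro hy1
        have hyS : LrS q y.2 := by
          have h2 : y.2 ∈ (iharaI2 N q).range := by
            have := hy.1
            rw [hy1] at this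
            exact this
          exact lrS_of_mem h2 (fun h1 => hy.2 ⟨h1, h2⟩)
        cases l with
        | nil =>
          rw [List.map_nil, List.prod_nil]
          exact lrPB_mul hq hyS (lrPA_one hq)
        | cons z l'' =>
          have hz : z.1 = true := by
            have : y.1 ≠ z.1 := by
              have := hchain
              rw [List.isChain_cons_cons] at this
              exact this.1
            rw [hy1] at this
            cases hz : z.1
            · exact absurd hz.symm this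
            · rfl
          exact lrPB_mul hq hyS ((ih hchain' hmem' z l'' rfl).1 hz).toPA
  intro l hne hchain hmem hprod
  obtain ⟨x, l', rfl⟩ := List.exists_cons_of_ne_nil hne
  have hk := key _ hchain hmem x l' rfl
  obtain ⟨a, b, c, d, h00, h01, h10, h11, -⟩ := mem_range_iharaI1.mp hprod.1
  cases hx : x.1
  · exact lrPB_not_int (hk.2 hx) h00 h01
  · obtain ⟨a', b', c', d', -, -, h10', -, -⟩ := mem_range_iharaI2.mp hprod.2
    refine lrPA'_not_mem (hk.1 hx) h10 h11 (c' := c') ?_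
    rw [h10] at h10'
    exact_mod_cast h10'

end pingpong

end Fermat.Agent.H85

end
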