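/-
helper85: P-LR (level raising, S41), Ihara block, part 4 (Mathlib only).
Generation: `Γ₀(N)[1/q]` is generated by `Γ₀(N)` and `δ⁻¹ Γ₀(N) δ`
(induction on the `q`-denominator).
Everything lives in namespace `Fermat.Agent.H85`.
-/
import Fermat.Agent.H85.LRPingPong

set_option autoImplicit false

noncomputable section

open Matrix MatrixGroups CongruenceSubgroup

namespace Fermat.Agent.H85

section integers

/-- Rank one modulo `q`: the first row can be killed by adding a multiple of the second. -/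
theorem lrg_L2 {q : ℤ} (hqp : Prime q) (u v x y : ℤ) (hdet : q ∣ u * y - v * x)
    (hxy : ¬ (q ∣ x ∧ q ∣ y)) : ∃ t : ℤ, q ∣ u + t * x ∧ q ∣ v + t * y := by
  by_cases hx : q ∣ x
  · have hy : ¬ q ∣ y := fun hy => hxy ⟨hx, hy⟩
    obtain ⟨a, b, hab⟩ := (Prime.coprime_iff_not_dvd hqp).mpr hy
    have hu : q ∣ u := by
      have h1 : q ∣ u * y := by
        have : u * y = (u * y - v * x) + v * x := by ring
        rw [this]
        exact dvd_add hdet (Dvd.dvd.mul_left hx v)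
      rcases hqp.dvd_or_dvd h1 with h | h
      · exact h
      · exact absurd h hy
    refine ⟨-b * v, dvd_add hu (Dvd.dvd.mul_left hx _), ?_⟩
    refine ⟨v * a, ?_⟩
    linear_combination (-v) * hab
  · obtain ⟨a, b, hab⟩ := (Prime.coprime_iff_not_dvd hqp).mpr hx
    have h1 : q ∣ u + -b * u * x := by
      refine ⟨u * a, ?_⟩
      linear_combination (-u) * hab
    refine ⟨-b * u, h1, ?_⟩
    have h2 : q ∣ x * (v + -b * u * y) := by
      obtain ⟨k, hk⟩ := hdet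
      refine ⟨-k + u * a * y, ?_⟩
      linear_combination -hk - u * y * hab
    rcases hqp.dvd_or_dvd h2 with h | h
    · exact absurd h hx
    · exact h

/-- Rank one modulo `q`: the second row can be killed by an element of `Γ₀(N)`. -/
theorem lrg_L1 {q : ℤ} (hqp : Prime q) {N : ℤ} (hN : ¬ q ∣ N) (u v x y : ℤ)
    (hdet : q ∣ u * y - v * x) (hxy : ¬ (q ∣ x ∧ q ∣ y)) :
    ∃ t : ℤ, q ∣ N * u + (N * t + 1) * x ∧ q ∣ N * v + (N * t + 1) * y := by
  have hdet' : q ∣ (N * u) * y - (N * v) * x := by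
    have : (N * u) * y - (N * v) * x = N * (u * y - v * x) := by ring
    rw [this]
    exact Dvd.dvd.mul_left hdet N
  obtain ⟨s, hs1, hs2⟩ := lrg_L2 hqp (N * u) (N * v) x y hdet' hxy
  obtain ⟨a, b, hab⟩ := (Prime.coprime_iff_not_dvd hqp).mpr hN
  refine ⟨b * (s - 1), ?_, ?_⟩
  · obtain ⟨k, hk⟩ := hs1
    refine ⟨k - a * (s - 1) * x, ?_⟩
    linear_combination hk + (s - 1) * x * hab
  · obtain ⟨k, hk⟩ := hs2
    refine ⟨k - a * (s - 1) * y, ?_⟩
    linear_combination hk + (s - 1) * y * hab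

end integers

section generation

variable {N q : ℕ}

theorem qInt_det {g : SL(2, ℚ)} {m : ℕ} {p00 p01 p10 p11 : ℤ}
    (hQ : QInt q g m p00 p01 p10 p11) :
    p00 * p11 - p01 * p10 = (q : ℤ) ^ m * (q : ℤ) ^ m := by
  obtain ⟨e00, e01, e10, e11⟩ := hQ
  have h := lri_det g
  have : ((p00 * p11 - p01 * p10 : ℤ) : ℚ) = (((q : ℤ) ^ m * (q : ℤ) ^ m : ℤ) : ℚ) := by
    push_cast
    rw [← e00, ← e01, ← e10, ← e11]
    linear_combination (q : ℚ) ^ m * (q : ℚ) ^ m * h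
  exact_mod_cast this

theorem qInt_mono {g : SL(2, ℚ)} {m : ℕ} {p00 p01 p10 p11 : ℤ}
    (hQ : QInt q g m p00 p01 p10 p11) (k : ℕ) :
    QInt q g (m + k) (p00 * q ^ k) (p01 * q ^ k) (p10 * q ^ k) (p11 * q ^ k) := by
  obtain ⟨e00, e01, e10, e11⟩ := hQ
  refine ⟨?_, ?_, ?_, ?_⟩
  · push_cast; rw [pow_add, ← mul_assoc, e00]
  · push_cast; rw [pow_add, ← mul_assoc, e01]
  · push_cast; rw [pow_add, ← mul_assoc, e10]
  · push_cast; rw [pow_add, ← mul_assoc, e11]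

theorem isZq_scale {x : ℚ} {k : ℕ} {z : ℤ} (h : x * (q : ℚ) ^ k = z) (j : ℕ) :
    x * (q : ℚ) ^ (k + j) = ((z * (q : ℤ) ^ j : ℤ) : ℚ) := by
  push_cast
  rw [pow_add, ← mul_assoc, h]

/-- Uniform denominators. -/
theorem exists_qInt_of_mem {g : SL(2, ℚ)} (hg : g ∈ iharaGroup N q) :
    ∃ (m : ℕ) (p00 p01 p10 p11 : ℤ), QInt q g m p00 p01 p10 p11 := by
  obtain ⟨m0, z0, h0⟩ := hg.1 0 0
  obtain ⟨m1, z1, h1⟩ := hg.1 0 1
  obtain ⟨m2, z2, h2⟩ := hg.1 1 0
  obtain ⟨m3, z3, h3⟩ := hg.1 1 1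
  refine ⟨m0 + m1 + m2 + m3, z0 * (q : ℤ) ^ (m1 + m2 + m3), z1 * (q : ℤ) ^ (m0 + m2 + m3),
    z2 * (q : ℤ) ^ (m0 + m1 + m3), z3 * (q : ℤ) ^ (m0 + m1 + m2), ?_, ?_, ?_, ?_⟩
  · rw [← isZq_scale h0]
    congr 2
    omega
  · rw [← isZq_scale h1]
    congr 2
    omega
  · rw [← isZq_scale h2]
    congr 2
    omega
  · rw [← isZq_scale h3]
    congr 2
    omega

/-- Base case: integral elements of `Γ₀(N)[1/q]` lie in `Γ₀(N)`. -/
theorem mem_range_of_qInt_zero (hNq : Nat.Coprime N q) {g : SL(2, ℚ)}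
    (hg : g ∈ iharaGroup N q) {p00 p01 p10 p11 : ℤ} (hQ : QInt q g 0 p00 p01 p10 p11) :
    g ∈ (iharaI1 N).range := by
  obtain ⟨e00, e01, e10, e11⟩ := hQ
  rw [pow_zero, mul_one] at e00 e01 e10 e11
  rw [mem_range_iharaI1]
  refine ⟨p00, p01, p10, p11, e00, e01, e10, e11, ?_⟩
  obtain ⟨k, z, hz⟩ := hg.2
  rw [e10] at hz
  have hz' : p10 * (q : ℤ) ^ k = N * z := by exact_mod_cast hz
  have hcop : IsCoprime (N : ℤ) ((q : ℤ) ^ k) :=
    (Nat.isCoprime_iff_coprime.mpr hNq).pow_right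
  exact hcop.dvd_of_dvd_mul_right ⟨z, hz'⟩

variable [NeZero q]

omit [NeZero q] in
theorem lrg_not_dvd (hq : q.Prime) (hNq : Nat.Coprime N q) : ¬ (q : ℤ) ∣ (N : ℤ) := by
  intro h
  have h1 : q ∣ N := by exact_mod_cast h
  have h2 : q ∣ Nat.gcd N q := Nat.dvd_gcd h1 dvd_rfl
  rw [hNq] at h2
  exact hq.one_lt.ne' (Nat.dvd_one.mp h2)

omit [NeZero q] in
/-- First half of the reduction step: make the second row divisible by `q`. -/
theorem gen_step1 (hq : q.Prime) (hNq : Nat.Coprime N q) {g : SL(2, ℚ)} {m : ℕ}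
    {p00 p01 p10 p11 : ℤ} (hQ : QInt q g (m + 1) p00 p01 p10 p11) :
    ∃ T ∈ (iharaI1 N).range, ∃ p00' p01' r10 r11 : ℤ,
      QInt q (T * g) (m + 1) p00' p01' (q * r10) (q * r11) := by
  have hqp : Prime (q : ℤ) := Nat.prime_iff_prime_int.mp hq
  have hdet := qInt_det hQ
  have hdvd : (q : ℤ) ∣ p00 * p11 - p01 * p10 := by
    rw [hdet, pow_succ]
    exact Dvd.intro ((q : ℤ) ^ m * ((q : ℤ) ^ m * (q : ℤ))) (by ring)
  by_cases hcase : (q : ℤ) ∣ p10 ∧ (q : ℤ) ∣ p11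
  · obtain ⟨⟨r10, rfl⟩, ⟨r11, rfl⟩⟩ := hcase
    exact ⟨1, one_mem _, p00, p01, r10, r11, by rw [one_mul]; exact hQ⟩
  · obtain ⟨t, ht1, ht2⟩ := lrg_L1 hqp (lrg_not_dvd hq hNq) p00 p01 p10 p11 hdvd hcase
    obtain ⟨r10, hr10⟩ := ht1
    obtain ⟨r11, hr11⟩ := ht2
    obtain ⟨e00, e01, e10, e11⟩ := hQ
    refine ⟨iharaI1 N (gamma0Mk N 1 t N (N * t + 1) (by ring) dvd_rfl), ⟨_, rfl⟩,
      p00 + t * p10, p01 + t * p11, r10, r11, ?_, ?_, ?_, ?_⟩
    · rw [lri_mul_apply, iharaI1_apply, iharaI1_apply, gamma0Mk_00, gamma0Mk_01]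
      push_cast
      linear_combination e00 + (t : ℚ) * e10
    · rw [lri_mul_apply, iharaI1_apply, iharaI1_apply, gamma0Mk_00, gamma0Mk_01]
      push_cast
      linear_combination e01 + (t : ℚ) * e11
    · rw [lri_mul_apply, iharaI1_apply, iharaI1_apply, gamma0Mk_10, gamma0Mk_11]
      have : ((q * r10 : ℤ) : ℚ) = ((N * p00 + (N * t + 1) * p10 : ℤ) : ℚ) := by rw [hr10]
      rw [this]
      push_cast
      linear_combination (N : ℚ) * e00 + ((N : ℚ) * t + 1) * e10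
    · rw [lri_mul_apply, iharaI1_apply, iharaI1_apply, gamma0Mk_10, gamma0Mk_11]
      have : ((q * r11 : ℤ) : ℚ) = ((N * p01 + (N * t + 1) * p11 : ℤ) : ℚ) := by rw [hr11]
      rw [this]
      push_cast
      linear_combination (N : ℚ) * e01 + ((N : ℚ) * t + 1) * e11

/-- Second half of the reduction step: lower the denominator using `δ⁻¹ Γ₀(N) δ`. -/
theorem gen_step2 (hq : q.Prime) (hNq : Nat.Coprime N q) {g : SL(2, ℚ)} {m : ℕ}
    {p00 p01 r10 r11 : ℤ} (hQ : QInt q g (m + 1) p00 p01 (q * r10) (q * r11)) :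
    ∃ S ∈ (iharaI2 N q).range, ∃ p00' p01' p10' p11' : ℤ,
      QInt q (S * g) m p00' p01' p10' p11' := by
  have hqp : Prime (q : ℤ) := Nat.prime_iff_prime_int.mp hq
  have hq0 : (q : ℚ) ≠ 0 := Nat.cast_ne_zero.mpr (NeZero.ne q)
  have hqz : (q : ℤ) ≠ 0 := Nat.cast_ne_zero.mpr (NeZero.ne q)
  have hdet := qInt_det hQ
  have hdvd : (q : ℤ) ∣ p00 * r11 - p01 * r10 := by
    have h1 : (q : ℤ) * (p00 * r11 - p01 * r10) = (q : ℤ) * ((q : ℤ) ^ m * (q : ℤ) ^ m * q) := by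
      rw [pow_succ] at hdet
      linear_combination hdet
    have h2 := mul_left_cancel₀ hqz h1
    rw [h2]
    exact Dvd.intro_left _ rfl
  obtain ⟨e00, e01, e10, e11⟩ := hQ
  have f10 : g 1 0 * (q : ℚ) ^ m = r10 := by
    apply mul_right_cancel₀ hq0
    rw [mul_assoc, ← pow_succ, e10]
    push_cast
    ring
  have f11 : g 1 1 * (q : ℚ) ^ m = r11 := by
    apply mul_right_cancel₀ hq0
    rw [mul_assoc, ← pow_succ, e11]
    push_cast
    ring
  rw [pow_succ, ← mul_assoc] at e00 e01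
  by_cases hcase : (q : ℤ) ∣ r10 ∧ (q : ℤ) ∣ r11
  · obtain ⟨⟨s10, hs10⟩, ⟨s11, hs11⟩⟩ := hcase
    obtain ⟨a, b, hab⟩ := (Prime.coprime_iff_not_dvd hqp).mpr (lrg_not_dvd hq hNq)
    -- `a * q + b * N = 1`
    refine ⟨iharaI2 N q (gamma0Mk N q (-b) N a (by linear_combination hab) dvd_rfl), ⟨_, rfl⟩,
      p00 + (-b) * s10, p01 + (-b) * s11, N * p00 + a * r10, N * p01 + a * r11, ?_, ?_, ?_, ?_⟩
    · rw [lri_mul_apply, iharaI2_00, iharaI2_01, gamma0Mk_00, gamma0Mk_01]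
      apply mul_right_cancel₀ hq0
      have hs : (r10 : ℚ) = q * s10 := by exact_mod_cast hs10
      push_cast
      field_simp
      linear_combination e00 * (q : ℚ) - (b : ℚ) * f10 - (b : ℚ) * hs
    · rw [lri_mul_apply, iharaI2_00, iharaI2_01, gamma0Mk_00, gamma0Mk_01]
      apply mul_right_cancel₀ hq0
      have hs : (r11 : ℚ) = q * s11 := by exact_mod_cast hs11
      push_cast
      field_simp
      linear_combination e01 * (q : ℚ) - (b : ℚ) * f11 - (b : ℚ) * hs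
    · rw [lri_mul_apply, iharaI2_10, iharaI2_11, gamma0Mk_10, gamma0Mk_11]
      push_cast
      linear_combination (N : ℚ) * e00 + (a : ℚ) * f10
    · rw [lri_mul_apply, iharaI2_10, iharaI2_11, gamma0Mk_10, gamma0Mk_11]
      push_cast
      linear_combination (N : ℚ) * e01 + (a : ℚ) * f11
  · obtain ⟨t, ⟨z0, hz0⟩, ⟨z1, hz1⟩⟩ := lrg_L2 hqp p00 p01 r10 r11 hdvd hcase
    refine ⟨iharaI2 N q (gamma0Mk N 1 t 0 1 (by ring) (dvd_zero _)), ⟨_, rfl⟩,
      z0, z1, r10, r11, ?_, ?_, ?_, ?_⟩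
    · rw [lri_mul_apply, iharaI2_00, iharaI2_01, gamma0Mk_00, gamma0Mk_01]
      apply mul_right_cancel₀ hq0
      have hs : ((p00 + t * r10 : ℤ) : ℚ) = ((q * z0 : ℤ) : ℚ) := by rw [hz0]
      push_cast at hs
      push_cast
      field_simp
      linear_combination e00 + (t : ℚ) * f10 + hs
    · rw [lri_mul_apply, iharaI2_00, iharaI2_01, gamma0Mk_00, gamma0Mk_01]
      apply mul_right_cancel₀ hq0
      have hs : ((p01 + t * r11 : ℤ) : ℚ) = ((q * z1 : ℤ) : ℚ) := by rw [hz1]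
      push_cast at hs
      push_cast
      field_simp
      linear_combination e01 + (t : ℚ) * f11 + hs
    · rw [lri_mul_apply, iharaI2_10, iharaI2_11, gamma0Mk_10, gamma0Mk_11]
      push_cast
      linear_combination f10
    · rw [lri_mul_apply, iharaI2_10, iharaI2_11, gamma0Mk_10, gamma0Mk_11]
      push_cast
      linear_combination f11

theorem gen_aux (hq : q.Prime) (hNq : Nat.Coprime N q) :
    ∀ (m : ℕ) (g : SL(2, ℚ)), g ∈ iharaGroup N q →
      (∃ p00 p01 p10 p11 : ℤ, QInt q g m p00 p01 p10 p11) →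
      g ∈ (iharaI1 N).range ⊔ (iharaI2 N q).range := by
  intro m
  induction m with
  | zero =>
    rintro g hg ⟨p00, p01, p10, p11, hQ⟩
    exact (le_sup_left : (iharaI1 N).range ≤ _) (mem_range_of_qInt_zero hNq hg hQ)
  | succ m ih =>
    rintro g hg ⟨p00, p01, p10, p11, hQ⟩
    obtain ⟨T, hT, p00', p01', r10, r11, hQ'⟩ := gen_step1 hq hNq hQ
    obtain ⟨S, hS, hQ''⟩ := gen_step2 hq hNq hQ'
    have hT' : T ∈ iharaGroup N q := range_iharaI1_le N q hT
    have hS' : S ∈ iharaGroup N q := range_iharaI2_le N q hS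
    have h1 : S * (T * g) ∈ (iharaI1 N).range ⊔ (iharaI2 N q).range :=
      ih (S * (T * g)) (mul_mem hS' (mul_mem hT' hg)) hQ''
    have h2 : g = T⁻¹ * (S⁻¹ * (S * (T * g))) := by group
    rw [h2]
    exact mul_mem (inv_mem ((le_sup_left : (iharaI1 N).range ≤ _) hT))
      (mul_mem (inv_mem ((le_sup_right : (iharaI2 N q).range ≤ _) hS)) h1)

/-- **Generation**: `Γ₀(N)[1/q]` is generated by `Γ₀(N)` and `δ⁻¹ Γ₀(N) δ`. -/
theorem ihara_generation (hq : q.Prime) (hNq : Nat.Coprime N q) :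
    (iharaI1 N).range ⊔ (iharaI2 N q).range = iharaGroup N q := by
  apply le_antisymm
  · exact sup_le (range_iharaI1_le N q) (range_iharaI2_le N q)
  · intro g hg
    obtain ⟨m, hQ⟩ := exists_qInt_of_mem hg
    exact gen_aux hq hNq m g hg hQ

end generation

end Fermat.Agent.H85

end
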