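/-
helper85: P-LR (level raising, S41), Ihara block, part 5 (Mathlib only).
MAIN STATEMENTS of the Ihara amalgam block:
* `ihara_extension` (A3): the extension property of `Γ₀(N)[1/q] = Γ₀(N) *_{Γ₀(Nq)} δ⁻¹ Γ₀(N) δ`;
* `ihara_kills` (A4): a homomorphism from `Γ₀(N)[1/q]` to a commutative group that kills the
  integral unipotent elements kills all unipotent elements and the diagonal elements
  `diag(q ^ m, q ^ (-m))` with `q ^ m ≡ 1 mod N`.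
Everything lives in namespace `Fermat.Agent.H85`.
-/
import Fermat.Agent.H85.LRGeneration

set_option autoImplicit false

noncomputable section

open Matrix MatrixGroups CongruenceSubgroup

namespace Fermat.Agent.H85

section extension

variable {N q : ℕ}

/-- The relation `ι₁ γ = ι₂ γ'`, i.e. `γ' = δ γ δ⁻¹` with `δ = diag(q, 1)` (so `γ ∈ Γ₀(N q)`). -/
def IsDeltaConj (N q : ℕ) (γ γ' : ↥(Gamma0 N)) : Prop :=
  (γ' : SL(2, ℤ)) 0 0 = (γ : SL(2, ℤ)) 0 0 ∧ (γ' : SL(2, ℤ)) 0 1 = q * (γ : SL(2, ℤ)) 0 1 ∧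
    q * (γ' : SL(2, ℤ)) 1 0 = (γ : SL(2, ℤ)) 1 0 ∧ (γ' : SL(2, ℤ)) 1 1 = (γ : SL(2, ℤ)) 1 1

/-- `g ∈ Γ₀(N)[1/q]` is the image of `γ ∈ Γ₀(N)` under the inclusion. -/
def IsIncl1 (N q : ℕ) (g : ↥(iharaGroup N q)) (γ : ↥(Gamma0 N)) : Prop :=
  ∀ i j, (g : SL(2, ℚ)) i j = (((γ : SL(2, ℤ)) i j : ℤ) : ℚ)

/-- `g ∈ Γ₀(N)[1/q]` is `δ⁻¹ γ δ` for `γ ∈ Γ₀(N)`, `δ = diag(q, 1)`. -/
def IsIncl2 (N q : ℕ) (g : ↥(iharaGroup N q)) (γ : ↥(Gamma0 N)) : Prop :=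
  (g : SL(2, ℚ)) 0 0 = (((γ : SL(2, ℤ)) 0 0 : ℤ) : ℚ) ∧
    (g : SL(2, ℚ)) 0 1 * q = (((γ : SL(2, ℤ)) 0 1 : ℤ) : ℚ) ∧
    (g : SL(2, ℚ)) 1 0 = q * (((γ : SL(2, ℤ)) 1 0 : ℤ) : ℚ) ∧
    (g : SL(2, ℚ)) 1 1 = (((γ : SL(2, ℤ)) 1 1 : ℤ) : ℚ)

theorem isIncl1_iff (g : ↥(iharaGroup N q)) (γ : ↥(Gamma0 N)) :
    IsIncl1 N q g γ ↔ (g : SL(2, ℚ)) = iharaI1 N γ := by
  constructor
  · intro h
    exact lri_ext (h 0 0) (h 0 1) (h 1 0) (h 1 1)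
  · intro h i j
    rw [h]
    rfl

theorem isIncl2_iff [NeZero q] (g : ↥(iharaGroup N q)) (γ : ↥(Gamma0 N)) :
    IsIncl2 N q g γ ↔ (g : SL(2, ℚ)) = iharaI2 N q γ := by
  have hq0 : (q : ℚ) ≠ 0 := Nat.cast_ne_zero.mpr (NeZero.ne q)
  constructor
  · rintro ⟨h00, h01, h10, h11⟩
    refine lri_ext h00 ?_ h10 h11
    rw [iharaI2_01, ← h01, mul_div_cancel_right₀ _ hq0]
  · intro h
    refine ⟨?_, ?_, ?_, ?_⟩
    · rw [h]; rfl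
    · rw [h, iharaI2_01, div_mul_cancel₀ _ hq0]
    · rw [h]; rfl
    · rw [h]; rfl

theorem isDeltaConj_iff [NeZero q] (γ γ' : ↥(Gamma0 N)) :
    IsDeltaConj N q γ γ' ↔ iharaI1 N γ = iharaI2 N q γ' := by
  have hq0 : (q : ℚ) ≠ 0 := Nat.cast_ne_zero.mpr (NeZero.ne q)
  constructor
  · rintro ⟨h00, h01, h10, h11⟩
    apply lri_ext
    · rw [iharaI1_apply, iharaI2_00, h00]
    · rw [iharaI1_apply, iharaI2_01, h01]
      push_cast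
      rw [mul_div_cancel_left₀ _ hq0]
    · rw [iharaI1_apply, iharaI2_10, ← h10]
      push_cast
      rfl
    · rw [iharaI1_apply, iharaI2_11, h11]
  · intro h
    refine ⟨?_, ?_, ?_, ?_⟩
    · have := congrArg (fun g : SL(2, ℚ) => g 0 0) h
      simp only [iharaI1_apply, iharaI2_00] at this
      exact_mod_cast this.symm
    · have := congrArg (fun g : SL(2, ℚ) => g 0 1) h
      simp only [iharaI1_apply, iharaI2_01] at this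
      have h2 : (((γ' : SL(2, ℤ)) 0 1 : ℤ) : ℚ) = q * (((γ : SL(2, ℤ)) 0 1 : ℤ) : ℚ) := by
        rw [this, mul_div_cancel₀ _ hq0]
      exact_mod_cast h2
    · have := congrArg (fun g : SL(2, ℚ) => g 1 0) h
      simp only [iharaI1_apply, iharaI2_10] at this
      exact_mod_cast this.symm
    · have := congrArg (fun g : SL(2, ℚ) => g 1 1) h
      simp only [iharaI1_apply, iharaI2_11] at this
      exact_mod_cast this.symm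

/-- **(A3) IHARA AMALGAM, extension property.**  For a prime `q` not dividing `N`, the group
`Γ₀(N)[1/q]` is the amalgamated product of `Γ₀(N)` and `δ⁻¹ Γ₀(N) δ` over `Γ₀(N q)`:
two homomorphisms `φ₁ φ₂ : Γ₀(N) → A` with `φ₁ γ = φ₂ (δ γ δ⁻¹)` for `γ ∈ Γ₀(N q)` glue to a
unique homomorphism `Φ` on `Γ₀(N)[1/q]` with `Φ = φ₁` on `Γ₀(N)` and `Φ (δ⁻¹ γ δ) = φ₂ γ`. -/
theorem ihara_extension (N q : ℕ) (hq : q.Prime) (hNq : Nat.Coprime N q)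
    {A : Type*} [Group A] (φ₁ φ₂ : ↥(Gamma0 N) →* A)
    (hcompat : ∀ γ γ' : ↥(Gamma0 N), IsDeltaConj N q γ γ' → φ₁ γ = φ₂ γ') :
    ∃! Φ : ↥(iharaGroup N q) →* A,
      (∀ (g : ↥(iharaGroup N q)) (γ : ↥(Gamma0 N)), IsIncl1 N q g γ → Φ g = φ₁ γ) ∧
      (∀ (g : ↥(iharaGroup N q)) (γ : ↥(Gamma0 N)), IsIncl2 N q g γ → Φ g = φ₂ γ) := by
  have : NeZero q := ⟨hq.ne_zero⟩
  have hgen := ihara_generation hq hNq
  have hpp := ihara_pingPong hq hNq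
  let e₁ := MonoidHom.ofInjective (iharaI1_injective N)
  let e₂ := MonoidHom.ofInjective (iharaI2_injective N q)
  have he₁ : ∀ (x : SL(2, ℚ)) (hx : x ∈ (iharaI1 N).range) (γ : ↥(Gamma0 N)),
      x = iharaI1 N γ → e₁.symm ⟨x, hx⟩ = γ := by
    intro x hx γ h
    rw [MulEquiv.symm_apply_eq]
    exact Subtype.ext h
  have he₂ : ∀ (x : SL(2, ℚ)) (hx : x ∈ (iharaI2 N q).range) (γ : ↥(Gamma0 N)),
      x = iharaI2 N q γ → e₂.symm ⟨x, hx⟩ = γ := by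
    intro x hx γ h
    rw [MulEquiv.symm_apply_eq]
    exact Subtype.ext h
  obtain ⟨Φ₀, hΦ₁, hΦ₂⟩ := amalgam_extension hpp (φ₁.comp e₁.symm.toMonoidHom)
    (φ₂.comp e₂.symm.toMonoidHom) (by
      intro x h₁ h₂
      obtain ⟨γ, hγ⟩ := id h₁
      obtain ⟨γ', hγ'⟩ := id h₂
      show φ₁ (e₁.symm ⟨x, h₁⟩) = φ₂ (e₂.symm ⟨x, h₂⟩)
      rw [he₁ x h₁ γ hγ.symm, he₂ x h₂ γ' hγ'.symm]
      exact hcompat γ γ' ((isDeltaConj_iff γ γ').mpr (hγ.trans hγ'.symm)))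
  let c := MulEquiv.subgroupCongr hgen
  have key₁ : ∀ (g : ↥(iharaGroup N q)) (γ : ↥(Gamma0 N)), IsIncl1 N q g γ →
      (Φ₀.comp c.symm.toMonoidHom) g = φ₁ γ := by
    intro g γ hg
    have hg' := (isIncl1_iff g γ).mp hg
    have hmem : (g : SL(2, ℚ)) ∈ (iharaI1 N).range := ⟨γ, hg'.symm⟩
    show Φ₀ (c.symm g) = φ₁ γ
    have h1 : c.symm g = ⟨(g : SL(2, ℚ)), (le_sup_left : (iharaI1 N).range ≤ _) hmem⟩ :=
      Subtype.ext rfl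
    rw [h1, hΦ₁ _ hmem]
    show φ₁ (e₁.symm _) = φ₁ γ
    rw [he₁ _ hmem γ hg']
  have key₂ : ∀ (g : ↥(iharaGroup N q)) (γ : ↥(Gamma0 N)), IsIncl2 N q g γ →
      (Φ₀.comp c.symm.toMonoidHom) g = φ₂ γ := by
    intro g γ hg
    have hg' := (isIncl2_iff g γ).mp hg
    have hmem : (g : SL(2, ℚ)) ∈ (iharaI2 N q).range := ⟨γ, hg'.symm⟩
    show Φ₀ (c.symm g) = φ₂ γ
    have h1 : c.symm g = ⟨(g : SL(2, ℚ)), (le_sup_right : (iharaI2 N q).range ≤ _) hmem⟩ :=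
      Subtype.ext rfl
    rw [h1, hΦ₂ _ hmem]
    show φ₂ (e₂.symm _) = φ₂ γ
    rw [he₂ _ hmem γ hg']
  refine ⟨Φ₀.comp c.symm.toMonoidHom, ⟨key₁, key₂⟩, ?_⟩
  rintro Φ' ⟨h1', h2'⟩
  ext ⟨y, hy⟩
  have hle : (iharaI1 N).range ⊔ (iharaI2 N q).range ≤
      ((Φ₀.comp c.symm.toMonoidHom).eqLocus Φ').map (iharaGroup N q).subtype := by
    refine sup_le ?_ ?_
    · rintro x ⟨γ, rfl⟩
      have hx : iharaI1 N γ ∈ iharaGroup N q := range_iharaI1_le N q ⟨γ, rfl⟩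
      refine ⟨⟨iharaI1 N γ, hx⟩, ?_, rfl⟩
      have hin : IsIncl1 N q ⟨iharaI1 N γ, hx⟩ γ := (isIncl1_iff _ γ).mpr rfl
      show (Φ₀.comp c.symm.toMonoidHom) _ = Φ' _
      rw [h1' _ γ hin, key₁ _ γ hin]
    · rintro x ⟨γ, rfl⟩
      have hx : iharaI2 N q γ ∈ iharaGroup N q := range_iharaI2_le N q ⟨γ, rfl⟩
      refine ⟨⟨iharaI2 N q γ, hx⟩, ?_, rfl⟩
      have hin : IsIncl2 N q ⟨iharaI2 N q γ, hx⟩ γ := (isIncl2_iff _ γ).mpr rfl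
      show (Φ₀.comp c.symm.toMonoidHom) _ = Φ' _
      rw [h2' _ γ hin, key₂ _ γ hin]
  have hy' : y ∈ (iharaI1 N).range ⊔ (iharaI2 N q).range := by
    rw [hgen]
    exact hy
  obtain ⟨w, hw, hwy⟩ := hle hy'
  have : w = ⟨y, hy⟩ := Subtype.ext hwy
  rw [← this]
  exact hw.symm

end extension

section kills

variable {N q : ℕ}

/-- Upper unipotent matrix `u(x) = [[1, x], [0, 1]]`. -/
def lriU (x : ℚ) : SL(2, ℚ) := lriMk 1 x 0 1 (by ring)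

/-- Lower unipotent matrix `l(y) = [[1, 0], [y, 1]]`. -/
def lriL (y : ℚ) : SL(2, ℚ) := lriMk 1 0 y 1 (by ring)

/-- Diagonal matrix `diag(a, a⁻¹)`. -/
def lriD (a : ℚ) (ha : a ≠ 0) : SL(2, ℚ) :=
  lriMk a 0 0 a⁻¹ (by rw [mul_inv_cancel₀ ha]; ring)

theorem lriU_00 (x : ℚ) : lriU x 0 0 = 1 := rfl
theorem lriU_01 (x : ℚ) : lriU x 0 1 = x := rfl
theorem lriU_10 (x : ℚ) : lriU x 1 0 = 0 := rfl
theorem lriU_11 (x : ℚ) : lriU x 1 1 = 1 := rfl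
theorem lriL_00 (y : ℚ) : lriL y 0 0 = 1 := rfl
theorem lriL_01 (y : ℚ) : lriL y 0 1 = 0 := rfl
theorem lriL_10 (y : ℚ) : lriL y 1 0 = y := rfl
theorem lriL_11 (y : ℚ) : lriL y 1 1 = 1 := rfl
theorem lriD_00 (a : ℚ) (ha : a ≠ 0) : lriD a ha 0 0 = a := rfl
theorem lriD_01 (a : ℚ) (ha : a ≠ 0) : lriD a ha 0 1 = 0 := rfl
theorem lriD_10 (a : ℚ) (ha : a ≠ 0) : lriD a ha 1 0 = 0 := rfl
theorem lriD_11 (a : ℚ) (ha : a ≠ 0) : lriD a ha 1 1 = a⁻¹ := rfl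

theorem mem_iharaGroup_of_entries {g : SL(2, ℚ)} (h00 : IsZq q (g 0 0)) (h01 : IsZq q (g 0 1))
    (h10 : IsNZq N q (g 1 0)) (h11 : IsZq q (g 1 1)) : g ∈ iharaGroup N q := by
  refine ⟨fun i j => ?_, h10⟩
  fin_cases i <;> fin_cases j
  · exact h00
  · exact h01
  · exact h10.isZq
  · exact h11

theorem lriU_mem {x : ℚ} (hx : IsZq q x) : lriU x ∈ iharaGroup N q :=
  mem_iharaGroup_of_entries (isZq_one q) hx (isNZq_zero N q) (isZq_one q)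

theorem lriL_mem {y : ℚ} (hy : IsNZq N q y) : lriL y ∈ iharaGroup N q :=
  mem_iharaGroup_of_entries (isZq_one q) (isZq_zero q) hy (isZq_one q)

theorem lriD_pow_mem [NeZero q] (k : ℕ) (h : ((q : ℚ) ^ k) ≠ 0) :
    lriD ((q : ℚ) ^ k) h ∈ iharaGroup N q := by
  refine mem_iharaGroup_of_entries ((isZq_q q).pow k) (isZq_zero q) (isNZq_zero N q) ?_
  rw [lriD_11, ← inv_pow]
  exact (isZq_inv_q q).pow k

/-- Conjugation of `g` by a diagonal matrix `d`. -/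
theorem lri_conj_diag (d g : SL(2, ℚ)) (hd01 : d 0 1 = 0) (hd10 : d 1 0 = 0) :
    (d * g * d⁻¹) 0 0 = g 0 0 ∧ (d * g * d⁻¹) 0 1 = d 0 0 * d 0 0 * g 0 1 ∧
      (d * g * d⁻¹) 1 0 = d 1 1 * d 1 1 * g 1 0 ∧ (d * g * d⁻¹) 1 1 = g 1 1 := by
  have hdet := lri_det d
  rw [hd01, hd10] at hdet
  refine ⟨?_, ?_, ?_, ?_⟩
  · rw [lri_mul_apply (d * g) d⁻¹, lri_mul_apply d g, lri_mul_apply d g, lri_inv_00, lri_inv_10,
      hd01, hd10]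
    linear_combination g 0 0 * hdet
  · rw [lri_mul_apply (d * g) d⁻¹, lri_mul_apply d g, lri_mul_apply d g, lri_inv_01, lri_inv_11,
      hd01]
    ring
  · rw [lri_mul_apply (d * g) d⁻¹, lri_mul_apply d g, lri_mul_apply d g, lri_inv_00, lri_inv_10,
      hd10]
    ring
  · rw [lri_mul_apply (d * g) d⁻¹, lri_mul_apply d g, lri_mul_apply d g, lri_inv_01, lri_inv_11,
      hd01, hd10]
    linear_combination g 1 1 * hdet

/-- **(A4) IHARA, unipotent and diagonal elements.**  A homomorphism `Φ` from `Γ₀(N)[1/q]` to a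
commutative group which kills the integral upper unipotent matrices `u(z)`, `z ∈ ℤ`, and the
integral lower unipotent matrices `l(N z)`, `z ∈ ℤ`, kills all upper unipotent matrices `u(x)`,
`x ∈ ℤ[1/q]`, all lower unipotent matrices `l(N y)`, `y ∈ ℤ[1/q]`, and the diagonal matrices
`diag(e, e⁻¹)` with `e = q ^ m ≡ 1 mod N`. -/
theorem ihara_kills (N q : ℕ) (hq : q.Prime) {A : Type*} [CommGroup A]
    (Φ : ↥(iharaGroup N q) →* A)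
    (hU : ∀ (g : ↥(iharaGroup N q)) (z : ℤ), (g : SL(2, ℚ)) 0 0 = 1 → (g : SL(2, ℚ)) 0 1 = z →
      (g : SL(2, ℚ)) 1 0 = 0 → (g : SL(2, ℚ)) 1 1 = 1 → Φ g = 1)
    (hL : ∀ (g : ↥(iharaGroup N q)) (z : ℤ), (g : SL(2, ℚ)) 0 0 = 1 → (g : SL(2, ℚ)) 0 1 = 0 →
      (g : SL(2, ℚ)) 1 0 = N * z → (g : SL(2, ℚ)) 1 1 = 1 → Φ g = 1) :
    (∀ g : ↥(iharaGroup N q), (g : SL(2, ℚ)) 0 0 = 1 → (g : SL(2, ℚ)) 1 0 = 0 →
      (g : SL(2, ℚ)) 1 1 = 1 → Φ g = 1) ∧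
    (∀ g : ↥(iharaGroup N q), (g : SL(2, ℚ)) 0 0 = 1 → (g : SL(2, ℚ)) 0 1 = 0 →
      (g : SL(2, ℚ)) 1 1 = 1 → Φ g = 1) ∧
    (∀ (g : ↥(iharaGroup N q)) (m : ℕ), (g : SL(2, ℚ)) 0 0 = (q : ℚ) ^ m →
      (g : SL(2, ℚ)) 0 1 = 0 → (g : SL(2, ℚ)) 1 0 = 0 → (N : ℤ) ∣ (q : ℤ) ^ m - 1 → Φ g = 1) := by
  have : NeZero q := ⟨hq.ne_zero⟩
  have hq0 : (q : ℚ) ≠ 0 := Nat.cast_ne_zero.mpr (NeZero.ne q)
  have hc : ∀ D g : ↥(iharaGroup N q), Φ (D * g * D⁻¹) = Φ g := by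
    intro D g
    rw [map_mul, map_mul, map_inv, mul_comm (Φ D), mul_assoc, mul_inv_cancel, mul_one]
  have hupper : ∀ g : ↥(iharaGroup N q), (g : SL(2, ℚ)) 0 0 = 1 → (g : SL(2, ℚ)) 1 0 = 0 →
      (g : SL(2, ℚ)) 1 1 = 1 → Φ g = 1 := by
    intro g h00 h10 h11
    obtain ⟨k, z, hz⟩ := g.2.1 0 1
    have hk0 : ((q : ℚ) ^ k) ≠ 0 := pow_ne_zero k hq0
    let D : ↥(iharaGroup N q) := ⟨lriD ((q : ℚ) ^ k) hk0, lriD_pow_mem k hk0⟩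
    obtain ⟨c00, c01, c10, c11⟩ := lri_conj_diag (D : SL(2, ℚ)) (g : SL(2, ℚ)) rfl rfl
    have hconj : Φ (D * g * D⁻¹) = 1 := by
      refine hU (D * g * D⁻¹) (z * (q : ℤ) ^ k) ?_ ?_ ?_ ?_
      · show ((D : SL(2, ℚ)) * (g : SL(2, ℚ)) * (D : SL(2, ℚ))⁻¹) 0 0 = 1
        rw [c00, h00]
      · show ((D : SL(2, ℚ)) * (g : SL(2, ℚ)) * (D : SL(2, ℚ))⁻¹) 0 1 = _
        rw [c01]
        show (q : ℚ) ^ k * (q : ℚ) ^ k * (g : SL(2, ℚ)) 0 1 = _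
        push_cast
        rw [← hz]
        ring
      · show ((D : SL(2, ℚ)) * (g : SL(2, ℚ)) * (D : SL(2, ℚ))⁻¹) 1 0 = 0
        rw [c10, h10, mul_zero]
      · show ((D : SL(2, ℚ)) * (g : SL(2, ℚ)) * (D : SL(2, ℚ))⁻¹) 1 1 = 1
        rw [c11, h11]
    exact (hc D g).symm.trans hconj
  have hlower : ∀ g : ↥(iharaGroup N q), (g : SL(2, ℚ)) 0 0 = 1 → (g : SL(2, ℚ)) 0 1 = 0 →
      (g : SL(2, ℚ)) 1 1 = 1 → Φ g = 1 := by
    intro g h00 h01 h11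
    obtain ⟨k, z, hz⟩ := g.2.2
    have hk0 : ((q : ℚ) ^ k) ≠ 0 := pow_ne_zero k hq0
    let D : ↥(iharaGroup N q) := (⟨lriD ((q : ℚ) ^ k) hk0, lriD_pow_mem k hk0⟩)⁻¹
    have hD01 : (D : SL(2, ℚ)) 0 1 = 0 := by
      show ((lriD ((q : ℚ) ^ k) hk0)⁻¹) 0 1 = 0
      rw [lri_inv_01, lriD_01, neg_zero]
    have hD10 : (D : SL(2, ℚ)) 1 0 = 0 := by
      show ((lriD ((q : ℚ) ^ k) hk0)⁻¹) 1 0 = 0
      rw [lri_inv_10, lriD_10, neg_zero]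
    have hD11 : (D : SL(2, ℚ)) 1 1 = (q : ℚ) ^ k := by
      show ((lriD ((q : ℚ) ^ k) hk0)⁻¹) 1 1 = _
      rw [lri_inv_11, lriD_00]
    obtain ⟨c00, c01, c10, c11⟩ := lri_conj_diag (D : SL(2, ℚ)) (g : SL(2, ℚ)) hD01 hD10
    have hconj : Φ (D * g * D⁻¹) = 1 := by
      refine hL (D * g * D⁻¹) (z * (q : ℤ) ^ k) ?_ ?_ ?_ ?_
      · show ((D : SL(2, ℚ)) * (g : SL(2, ℚ)) * (D : SL(2, ℚ))⁻¹) 0 0 = 1
        rw [c00, h00]
      · show ((D : SL(2, ℚ)) * (g : SL(2, ℚ)) * (D : SL(2, ℚ))⁻¹) 0 1 = 0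
        rw [c01, h01, mul_zero]
      · show ((D : SL(2, ℚ)) * (g : SL(2, ℚ)) * (D : SL(2, ℚ))⁻¹) 1 0 = _
        rw [c10, hD11]
        push_cast
        linear_combination (q : ℚ) ^ k * hz
      · show ((D : SL(2, ℚ)) * (g : SL(2, ℚ)) * (D : SL(2, ℚ))⁻¹) 1 1 = 1
        rw [c11, h11]
    exact (hc D g).symm.trans hconj
  refine ⟨hupper, hlower, ?_⟩
  intro g m h00 h01 h10 hdvd
  obtain ⟨a, ha⟩ := hdvd
  have hae : ((q : ℚ) ^ m) = 1 + N * a := by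
    have : (((q : ℤ) ^ m - 1 : ℤ) : ℚ) = ((N * a : ℤ) : ℚ) := by rw [ha]
    push_cast at this
    linear_combination this
  have he0 : ((q : ℚ) ^ m) ≠ 0 := pow_ne_zero m hq0
  have h11 : (g : SL(2, ℚ)) 1 1 * (q : ℚ) ^ m = 1 := by
    have := lri_det (g : SL(2, ℚ))
    rw [h00, h01, zero_mul, sub_zero] at this
    rw [mul_comm]
    exact this
  have hinv : IsZq q (((q : ℚ) ^ m)⁻¹) := by
    rw [← inv_pow]
    exact (isZq_inv_q q).pow m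
  let Ua : ↥(iharaGroup N q) := ⟨lriU a, lriU_mem (isZq_intCast q a)⟩
  let LN : ↥(iharaGroup N q) := ⟨lriL N, lriL_mem ⟨0, 1, by simp⟩⟩
  let U' : ↥(iharaGroup N q) := ⟨lriU (a * ((q : ℚ) ^ m)⁻¹),
    lriU_mem ((isZq_intCast q a).mul hinv)⟩
  let L' : ↥(iharaGroup N q) := ⟨lriL (N * (q : ℚ) ^ m),
    lriL_mem ⟨0, q ^ m, by push_cast; ring⟩⟩
  have hid : g * L' * U' = Ua * LN := by
    apply Subtype.ext
    show (g : SL(2, ℚ)) * lriL (N * (q : ℚ) ^ m) * lriU (a * ((q : ℚ) ^ m)⁻¹)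
      = lriU a * lriL N
    apply lri_ext
    · rw [lri_mul_apply _ (lriU _), lri_mul_apply _ (lriL _), lri_mul_apply _ (lriL _),
        lri_mul_apply (lriU _) (lriL _), lriU_00, lriU_10, lriL_00, lriL_10, lriL_01, lriL_11,
        lriU_00, lriU_01, lriL_00, lriL_10, h00, h01, hae]
      ring
    · rw [lri_mul_apply _ (lriU _), lri_mul_apply _ (lriL _), lri_mul_apply _ (lriL _),
        lri_mul_apply (lriU _) (lriL _), lriU_01, lriU_11, lriL_00, lriL_10, lriL_01, lriL_11,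
        lriU_00, lriU_01, lriL_01, lriL_11, h00, h01]
      field_simp
      ring
    · rw [lri_mul_apply _ (lriU _), lri_mul_apply _ (lriL _), lri_mul_apply _ (lriL _),
        lri_mul_apply (lriU _) (lriL _), lriU_00, lriU_10, lriL_00, lriL_10, lriL_01, lriL_11,
        lriU_10, lriU_11, lriL_00, lriL_10, h10]
      linear_combination (N : ℚ) * h11
    · rw [lri_mul_apply _ (lriU _), lri_mul_apply _ (lriL _), lri_mul_apply _ (lriL _),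
        lri_mul_apply (lriU _) (lriL _), lriU_01, lriU_11, lriL_00, lriL_10, lriL_01, lriL_11,
        lriU_10, lriU_11, lriL_01, lriL_11, h10]
      have h11' : (g : SL(2, ℚ)) 1 1 = ((q : ℚ) ^ m)⁻¹ := eq_inv_of_mul_eq_one_left h11
      rw [h11']
      field_simp
      linear_combination -hae
  have h1 := congrArg Φ hid
  rw [map_mul, map_mul, map_mul, hlower L' rfl rfl rfl, hupper U' rfl rfl rfl,
    hupper Ua rfl rfl rfl, hlower LN rfl rfl rfl, mul_one, mul_one, mul_one] at h1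
  exact h1

/-- **(A3) + (A4)**: the glued homomorphism of two homomorphisms killing the unipotent elements
of `Γ₀(N)` kills all unipotent elements and the diagonal elements of `Γ₀(N)[1/q]`. -/
theorem ihara_kills_of_incl (N q : ℕ) (hq : q.Prime) {A : Type*} [CommGroup A]
    (φ₁ : ↥(Gamma0 N) →* A) (Φ : ↥(iharaGroup N q) →* A)
    (hΦ : ∀ (g : ↥(iharaGroup N q)) (γ : ↥(Gamma0 N)), IsIncl1 N q g γ → Φ g = φ₁ γ)
    (hφU : ∀ γ : ↥(Gamma0 N), (γ : SL(2, ℤ)) 0 0 = 1 → (γ : SL(2, ℤ)) 1 0 = 0 →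
      (γ : SL(2, ℤ)) 1 1 = 1 → φ₁ γ = 1)
    (hφL : ∀ γ : ↥(Gamma0 N), (γ : SL(2, ℤ)) 0 0 = 1 → (γ : SL(2, ℤ)) 0 1 = 0 →
      (γ : SL(2, ℤ)) 1 1 = 1 → φ₁ γ = 1) :
    (∀ g : ↥(iharaGroup N q), (g : SL(2, ℚ)) 0 0 = 1 → (g : SL(2, ℚ)) 1 0 = 0 →
      (g : SL(2, ℚ)) 1 1 = 1 → Φ g = 1) ∧
    (∀ g : ↥(iharaGroup N q), (g : SL(2, ℚ)) 0 0 = 1 → (g : SL(2, ℚ)) 0 1 = 0 →
      (g : SL(2, ℚ)) 1 1 = 1 → Φ g = 1) ∧
    (∀ (g : ↥(iharaGroup N q)) (m : ℕ), (g : SL(2, ℚ)) 0 0 = (q : ℚ) ^ m →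
      (g : SL(2, ℚ)) 0 1 = 0 → (g : SL(2, ℚ)) 1 0 = 0 → (N : ℤ) ∣ (q : ℤ) ^ m - 1 → Φ g = 1) := by
  refine ihara_kills N q hq Φ ?_ ?_
  · intro g z h00 h01 h10 h11
    have hin : IsIncl1 N q g (gamma0Mk N 1 z 0 1 (by ring) (dvd_zero _)) := by
      intro i j
      fin_cases i <;> fin_cases j
      · show (g : SL(2, ℚ)) 0 0 = ((1 : ℤ) : ℚ)
        rw [h00]; simp
      · exact h01
      · show (g : SL(2, ℚ)) 1 0 = ((0 : ℤ) : ℚ)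
        rw [h10]; simp
      · show (g : SL(2, ℚ)) 1 1 = ((1 : ℤ) : ℚ)
        rw [h11]; simp
    rw [hΦ g _ hin]
    exact hφU _ rfl rfl rfl
  · intro g z h00 h01 h10 h11
    have hin : IsIncl1 N q g (gamma0Mk N 1 0 (N * z) 1 (by ring) (Dvd.intro _ rfl)) := by
      intro i j
      fin_cases i <;> fin_cases j
      · show (g : SL(2, ℚ)) 0 0 = ((1 : ℤ) : ℚ)
        rw [h00]; simp
      · show (g : SL(2, ℚ)) 0 1 = ((0 : ℤ) : ℚ)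
        rw [h01]; simp
      · show (g : SL(2, ℚ)) 1 0 = (((N : ℤ) * z : ℤ) : ℚ)
        rw [h10]; push_cast; rfl
      · show (g : SL(2, ℚ)) 1 1 = ((1 : ℤ) : ℚ)
        rw [h11]; simp
    rw [hΦ g _ hin]
    exact hφL _ rfl rfl rfl

end kills

end Fermat.Agent.H85

end
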